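import Fermat.Agent.RIB.Rho.Diag

/-!
# ML / Raise / Rel : the local relations at a NON-HARD raising prime `q` (`q ≢ 1` mod `p`)   (pure algebra)

`R` a commutative ring, `Sg = ρ(Φ)` (`Φ` a Frobenius lift at `q`), `Tu = ρ(τ)` (`τ` a generator of tame inertia).
`ε = ± 1`, `c = tr Sg - ε (q + 1)`, `c' = tr Sg + ε (q + 1)`.

* `one_add_pow_of_sq_zero`, `comm_of_tame` : `(Tu - 1)² = 0`, `Sg Tu = Tu ^ q Sg`  ⟹  `Sg N = q N Sg`, `N = Tu - 1`.
* `rel_entries` (REL) : `Sg = diag (f1, f2)`, `f1 f2 = q`, `Sg N = q N Sg`, `q`, `1 - q`, `f1 + ε q`, `f1 - ε` units  ⟹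
  `N 0 0 = N 1 1 = 0`, `N 0 1 * c = 0`, `N 1 0 * c' = 0`.
* `rel_last` (REL-LAST) : `(Sg² - 1)(Sg² - q²) = 0` (`= SS.steinGeo_all` on `ker Π_q`)  ⟹  `c * c' = 0`.
* `rel_const` : `c = 0`  ⟹  `f1 = ε q`, `f2 = ε`;   `rel_mem` : `f1 - ε q`, `f2 - ε ∈ (c)`.
* `exists_steinberg_form` : the packaged form over a local ring with nilpotent maximal ideal.
-/

set_option autoImplicit false

namespace Fermat.Agent.ML.Raise

open Matrix IsLocalRing

section Comm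

variable {R : Type*} [CommRing R]

theorem one_add_pow_of_sq_zero (N : Matrix (Fin 2) (Fin 2) R) (hN : N * N = 0) (n : ℕ) :
    (1 + N) ^ n = 1 + (n : R) • N := by
  induction n with
  | zero => simp
  | succ n ih =>
    rw [pow_succ, ih, mul_add, mul_one, add_mul, one_mul, smul_mul_assoc, hN, smul_zero, add_zero,
      Nat.cast_succ, add_smul, one_smul, add_assoc]

/-- `Φ N = q N Φ`. -/
theorem comm_of_tame (Sg Tu : Matrix (Fin 2) (Fin 2) R) (q : ℕ)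
    (hN : (Tu - 1) * (Tu - 1) = 0) (h : Sg * Tu = Tu ^ q * Sg) :
    Sg * (Tu - 1) = (q : R) • ((Tu - 1) * Sg) := by
  have e : Tu = 1 + (Tu - 1) := by abel
  have h2 : Tu ^ q = 1 + (q : R) • (Tu - 1) := by
    conv_lhs => rw [e]
    exact one_add_pow_of_sq_zero _ hN q
  rw [h2, add_mul, one_mul, smul_mul_assoc] at h
  rw [mul_sub, mul_one, h]
  abel

variable (f1 f2 ε q : R)

theorem c_mul (hε : ε * ε = 1) (hf : f1 * f2 = q) :
    (f1 + f2 - ε * (q + 1)) * f1 = (f1 - ε * q) * (f1 - ε) := by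
  linear_combination hf - q * hε

theorem c'_mul (hε : ε * ε = 1) (hf : f1 * f2 = q) :
    (f1 + f2 + ε * (q + 1)) * f1 = (f1 + ε * q) * (f1 + ε) := by
  linear_combination hf - q * hε

variable {f1 f2 ε q}

theorem isUnit_f1 (hf : f1 * f2 = q) (hq : IsUnit q) : IsUnit f1 :=
  isUnit_of_mul_isUnit_left (hf ▸ hq)

/-- **(REL)** -/
theorem rel_entries (hε : ε * ε = 1) (hf : f1 * f2 = q) (hq : IsUnit q) (h1q : IsUnit (1 - q))
    (hu1 : IsUnit (f1 + ε * q)) (hu2 : IsUnit (f1 - ε)) (N : Matrix (Fin 2) (Fin 2) R)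
    (hN : !![f1, 0; 0, f2] * N = q • (N * !![f1, 0; 0, f2])) :
    N 0 0 = 0 ∧ N 1 1 = 0 ∧ N 0 1 * (f1 + f2 - ε * (q + 1)) = 0 ∧
      N 1 0 * (f1 + f2 + ε * (q + 1)) = 0 := by
  have hf1 : IsUnit f1 := isUnit_f1 hf hq
  have hf2 : IsUnit f2 := isUnit_of_mul_isUnit_right (hf ▸ hq)
  have h00 := congrFun (congrFun hN 0) 0
  have h01 := congrFun (congrFun hN 0) 1
  have h10 := congrFun (congrFun hN 1) 0
  have h11 := congrFun (congrFun hN 1) 1
  simp [Matrix.mul_apply, Fin.sum_univ_two] at h00 h01 h10 h11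
  refine ⟨?_, ?_, ?_, ?_⟩
  · have : ((1 - q) * f1) * N 0 0 = 0 := by linear_combination h00
    exact ((h1q.mul hf1).mul_right_eq_zero).1 this
  · have : ((1 - q) * f2) * N 1 1 = 0 := by linear_combination h11
    exact ((h1q.mul hf2).mul_right_eq_zero).1 this
  · -- `b (f1 - q f2) = 0`
    have e1 : (f1 + ε * q) * (N 0 1 * (f1 - ε * q)) = 0 := by
      linear_combination f1 * h01 + q * N 0 1 * hf - q * q * N 0 1 * hε
    have e2 : N 0 1 * (f1 - ε * q) = 0 := (hu1.mul_right_eq_zero).1 e1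
    have e3 : f1 * (N 0 1 * (f1 + f2 - ε * (q + 1))) = 0 := by
      have := c_mul f1 f2 ε q hε hf
      linear_combination N 0 1 * this + (f1 - ε) * e2
    exact (hf1.mul_right_eq_zero).1 e3
  · -- `g (f2 - q f1) = 0`
    have e1 : (q * (f1 - ε)) * (N 1 0 * (f1 + ε)) = 0 := by
      linear_combination (-f1) * h10 + N 1 0 * hf - q * N 1 0 * hε
    have e2 : N 1 0 * (f1 + ε) = 0 := ((hq.mul hu2).mul_right_eq_zero).1 e1
    have e3 : f1 * (N 1 0 * (f1 + f2 + ε * (q + 1))) = 0 := by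
      have := c'_mul f1 f2 ε q hε hf
      linear_combination N 1 0 * this + (f1 + ε * q) * e2
    exact (hf1.mul_right_eq_zero).1 e3

/-- **(REL-LAST)** -/
theorem rel_last (hε : ε * ε = 1) (hf : f1 * f2 = q) (hq : IsUnit q)
    (h : (!![f1, 0; 0, f2] * !![f1, 0; 0, f2] - 1) *
      (!![f1, 0; 0, f2] * !![f1, 0; 0, f2] - (q * q) • (1 : Matrix (Fin 2) (Fin 2) R)) = 0) :
    (f1 + f2 - ε * (q + 1)) * (f1 + f2 + ε * (q + 1)) = 0 := by
  have hf1 : IsUnit f1 := isUnit_f1 hf hq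
  have h00 := congrFun (congrFun h 0) 0
  simp [Matrix.mul_apply, Fin.sum_univ_two] at h00
  have e : (f1 * f1) * ((f1 + f2 - ε * (q + 1)) * (f1 + f2 + ε * (q + 1))) = 0 := by
    have a1 := c_mul f1 f2 ε q hε hf
    have a2 := c'_mul f1 f2 ε q hε hf
    have a3 : (f1 - ε * q) * (f1 - ε) * ((f1 + ε * q) * (f1 + ε))
        = (f1 * f1 - 1) * (f1 * f1 - q * q) := by
      linear_combination (-(f1 * f1 - q * q * (ε * ε)) - (f1 * f1 - 1) * q * q) * hε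
    calc (f1 * f1) * ((f1 + f2 - ε * (q + 1)) * (f1 + f2 + ε * (q + 1)))
        = ((f1 + f2 - ε * (q + 1)) * f1) * ((f1 + f2 + ε * (q + 1)) * f1) := by ring
      _ = (f1 * f1 - 1) * (f1 * f1 - q * q) := by rw [a1, a2, a3]
      _ = 0 := h00
  exact ((hf1.mul hf1).mul_right_eq_zero).1 e

/-- `f1 - ε q` and `f2 - ε` are multiples of `c`. -/
theorem rel_mem (hε : ε * ε = 1) (hf : f1 * f2 = q) (hq : IsUnit q) (hu2 : IsUnit (f1 - ε)) :
    f1 - ε * q ∈ Ideal.span {f1 + f2 - ε * (q + 1)} ∧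
      f2 - ε ∈ Ideal.span {f1 + f2 - ε * (q + 1)} := by
  have hf1 : IsUnit f1 := isUnit_f1 hf hq
  obtain ⟨u, hu⟩ := hu2
  obtain ⟨w, hw⟩ := hf1
  have a1 := c_mul f1 f2 ε q hε hf
  have h1 : f1 - ε * q = (f1 * (↑u⁻¹ : R)) * (f1 + f2 - ε * (q + 1)) := by
    have hu' : (f1 - ε) * (↑u⁻¹ : R) = 1 := by rw [← hu]; exact u.mul_inv
    linear_combination (-(f1 - ε * q)) * hu' - (↑u⁻¹ : R) * a1
  have m1 : f1 - ε * q ∈ Ideal.span {f1 + f2 - ε * (q + 1)} := by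
    rw [h1]
    exact Ideal.mul_mem_left _ _ (Ideal.subset_span rfl)
  refine ⟨m1, ?_⟩
  have hw' : f1 * (↑w⁻¹ : R) = 1 := by rw [← hw]; exact w.mul_inv
  have h2 : f2 - ε = (-(ε * (↑w⁻¹ : R))) * (f1 - ε * q) := by
    linear_combination (-(f2 - ε)) * hw' + (↑w⁻¹ : R) * hf - q * (↑w⁻¹ : R) * hε
  rw [h2]
  exact Ideal.mul_mem_left _ _ m1

/-- on `c = 0` the Frobenius is the constant `diag (ε q, ε)`. -/
theorem rel_const (hε : ε * ε = 1) (hf : f1 * f2 = q) (hq : IsUnit q) (hu2 : IsUnit (f1 - ε))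
    (hc : f1 + f2 - ε * (q + 1) = 0) : f1 = ε * q ∧ f2 = ε := by
  obtain ⟨h1, h2⟩ := rel_mem hε hf hq hu2
  rw [hc, Ideal.span_singleton_eq_bot.2 rfl, Ideal.mem_bot] at h1 h2
  exact ⟨sub_eq_zero.1 h1, sub_eq_zero.1 h2⟩

end Comm

section Local

variable {R : Type*} [CommRing R] [IsLocalRing R]

/-- the unit hypotheses of `rel_entries` in a local ring. -/
theorem units_of_local {f1 ε q : R} (hε : ε * ε = 1) (h2 : IsUnit (2 : R)) (hq : IsUnit q)
    (h1q : IsUnit (1 - q)) (h : f1 - ε * q ∈ maximalIdeal R) :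
    IsUnit (f1 + ε * q) ∧ IsUnit (f1 - ε) := by
  have hεu : IsUnit ε := IsUnit.of_mul_eq_one _ hε
  constructor
  · rw [← IsLocalRing.notMem_maximalIdeal]
    intro h'
    have : 2 * (ε * q) ∈ maximalIdeal R := by
      have e : 2 * (ε * q) = (f1 + ε * q) - (f1 - ε * q) := by ring
      rw [e]
      exact Ideal.sub_mem _ h' h
    exact (IsLocalRing.notMem_maximalIdeal.2 (h2.mul (hεu.mul hq))) this
  · rw [← IsLocalRing.notMem_maximalIdeal]
    intro h'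
    have : ε * (1 - q) ∈ maximalIdeal R := by
      have e : ε * (1 - q) = (f1 - ε * q) - (f1 - ε) := by ring
      rw [e]
      exact Ideal.sub_mem _ h h'
    exact (IsLocalRing.notMem_maximalIdeal.2 (hεu.mul h1q)) this

/-- **the packaged form** : `Sg = ρ(Φ)`, `Tu = ρ(τ)` at a non-hard prime `q` at which the inertia is unipotent.
`b` is the entry "from the `ε`-line to the `ε q`-line", `g` the opposite one. -/
theorem exists_steinberg_form (hnil : ∀ z ∈ maximalIdeal R, IsNilpotent z)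
    (Sg Tu : Matrix (Fin 2) (Fin 2) R) (q : ℕ) (ε : R) (hε : ε * ε = 1) (h2 : IsUnit (2 : R))
    (hq : IsUnit (q : R)) (h1q : IsUnit (1 - (q : R)))
    (hrel : Sg * Tu = Tu ^ q * Sg) (hunip : (Tu - 1) * (Tu - 1) = 0) (hdet : Sg.det = (q : R))
    (htr : Sg.trace - ε * ((q : R) + 1) ∈ maximalIdeal R) :
    ∃ (f1 f2 b g : R) (Q Q' : Matrix (Fin 2) (Fin 2) R), Q * Q' = 1 ∧ Q' * Q = 1 ∧
      Sg = Q * !![f1, 0; 0, f2] * Q' ∧ Tu = Q * !![1, b; g, 1] * Q' ∧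
      f1 - ε * q ∈ maximalIdeal R ∧ f2 - ε ∈ maximalIdeal R ∧ f1 + f2 = Sg.trace ∧ f1 * f2 = q ∧
      b * (Sg.trace - ε * ((q : R) + 1)) = 0 ∧ g * (Sg.trace + ε * ((q : R) + 1)) = 0 ∧ b * g = 0 ∧
      f1 - ε * q ∈ Ideal.span {Sg.trace - ε * ((q : R) + 1)} ∧
      f2 - ε ∈ Ideal.span {Sg.trace - ε * ((q : R) + 1)} := by
  have hεu : IsUnit ε := IsUnit.of_mul_eq_one _ hε
  have hu0 : IsUnit (ε * (q : R) - ε) := by
    have : ε * (q : R) - ε = -(ε * (1 - (q : R))) := by ring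
    rw [this]
    exact (hεu.mul h1q).neg
  obtain ⟨f1, f2, hf1, hf2, hsum, hprod, hu⟩ :=
    Fermat.Agent.RIB.exists_roots_quadratic hnil Sg.trace Sg.det (ε * q) ε hu0
      (by
        have : Sg.trace - (ε * (q : R) + ε) = Sg.trace - ε * ((q : R) + 1) := by ring
        rw [this]; exact htr)
      (by
        have : Sg.det - ε * (q : R) * ε = 0 := by rw [hdet]; linear_combination (-(q : R)) * hε
        rw [this]; exact Ideal.zero_mem _)
  obtain ⟨Q, hQ, hSQ⟩ := Fermat.Agent.RIB.exists_diag Sg f1 f2 hsum hprod hu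
  have hQQ' : Q * Q⁻¹ = 1 := Matrix.mul_nonsing_inv Q hQ
  have hQ'Q : Q⁻¹ * Q = 1 := Matrix.nonsing_inv_mul Q hQ
  have hf : f1 * f2 = (q : R) := hprod.trans hdet
  have hSg : Sg = Q * !![f1, 0; 0, f2] * Q⁻¹ := by
    rw [← hSQ, mul_assoc, hQQ', mul_one]
  set N : Matrix (Fin 2) (Fin 2) R := Q⁻¹ * (Tu - 1) * Q with hNdef
  have hcomm := comm_of_tame Sg Tu q hunip hrel
  have hD : !![f1, 0; 0, f2] = Q⁻¹ * Sg * Q := by
    rw [mul_assoc, hSQ, ← mul_assoc, hQ'Q, one_mul]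
  have hN : !![f1, 0; 0, f2] * N = (q : R) • (N * !![f1, 0; 0, f2]) := by
    rw [hD, hNdef]
    calc Q⁻¹ * Sg * Q * (Q⁻¹ * (Tu - 1) * Q)
        = Q⁻¹ * Sg * (Q * Q⁻¹) * (Tu - 1) * Q := by simp only [mul_assoc]
      _ = Q⁻¹ * (Sg * (Tu - 1)) * Q := by rw [hQQ', mul_one]; simp only [mul_assoc]
      _ = (q : R) • (Q⁻¹ * ((Tu - 1) * Sg) * Q) := by
          rw [hcomm, Matrix.mul_smul, Matrix.smul_mul]
      _ = (q : R) • (Q⁻¹ * (Tu - 1) * (Q * Q⁻¹) * Sg * Q) := by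
          rw [hQQ', mul_one]; simp only [mul_assoc]
      _ = (q : R) • (Q⁻¹ * (Tu - 1) * Q * (Q⁻¹ * Sg * Q)) := by simp only [mul_assoc]
  have hNN : N * N = 0 := by
    rw [hNdef]
    calc Q⁻¹ * (Tu - 1) * Q * (Q⁻¹ * (Tu - 1) * Q)
        = Q⁻¹ * (Tu - 1) * (Q * Q⁻¹) * (Tu - 1) * Q := by simp only [mul_assoc]
      _ = Q⁻¹ * ((Tu - 1) * (Tu - 1)) * Q := by rw [hQQ', mul_one]; simp only [mul_assoc]
      _ = 0 := by rw [hunip, mul_zero, zero_mul]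
  obtain ⟨hu1, hu2⟩ := units_of_local hε h2 hq h1q hf1
  obtain ⟨n00, n11, nb, ng⟩ := rel_entries hε hf hq h1q hu1 hu2 N hN
  obtain ⟨m1, m2⟩ := rel_mem hε hf hq hu2
  have hNform : N = !![0, N 0 1; N 1 0, 0] := by
    ext i j
    fin_cases i <;> fin_cases j <;> simp [n00, n11]
  have hbg : N 0 1 * N 1 0 = 0 := by
    have := congrFun (congrFun hNN 0) 0
    simp [Matrix.mul_apply, Fin.sum_univ_two, n00] at this
    exact this
  refine ⟨f1, f2, N 0 1, N 1 0, Q, Q⁻¹, hQQ', hQ'Q, hSg, ?_, hf1, hf2, hsum, hf, ?_, ?_, hbg, ?_, ?_⟩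
  · have e1 : !![1, N 0 1; N 1 0, 1] = 1 + N := by
      rw [hNform]
      ext i j
      fin_cases i <;> fin_cases j <;> simp
    rw [e1, mul_add, mul_one, add_mul, hQQ', hNdef]
    have : Q * (Q⁻¹ * (Tu - 1) * Q) * Q⁻¹ = (Q * Q⁻¹) * (Tu - 1) * (Q * Q⁻¹) := by
      simp only [mul_assoc]
    rw [this, hQQ', one_mul, mul_one]
    abel
  · rw [← hsum]; exact nb
  · rw [← hsum]; exact ng
  · rw [← hsum]; exact m1
  · rw [← hsum]; exact m2

/-- (REL-LAST) in the packaged form : if moreover `(Sg² - 1)(Sg² - q²) = 0` then `c * c' = 0`. -/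
theorem trace_rel_of_stein (Sg : Matrix (Fin 2) (Fin 2) R) (q : ℕ) (ε : R) (hε : ε * ε = 1)
    (hq : IsUnit (q : R)) (f1 f2 : R) (Q Q' : Matrix (Fin 2) (Fin 2) R) (hQ : Q * Q' = 1)
    (hQ' : Q' * Q = 1) (hSg : Sg = Q * !![f1, 0; 0, f2] * Q') (hsum : f1 + f2 = Sg.trace)
    (hf : f1 * f2 = (q : R))
    (hst : (Sg * Sg - 1) * (Sg * Sg - ((q : R) * q) • (1 : Matrix (Fin 2) (Fin 2) R)) = 0) :
    (Sg.trace - ε * ((q : R) + 1)) * (Sg.trace + ε * ((q : R) + 1)) = 0 := by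
  rw [← hsum]
  refine rel_last hε hf hq ?_
  set D : Matrix (Fin 2) (Fin 2) R := !![f1, 0; 0, f2] with hD
  have e1 : Sg * Sg = Q * (D * D) * Q' := by
    rw [hSg]
    calc Q * D * Q' * (Q * D * Q') = Q * D * (Q' * Q) * D * Q' := by simp only [mul_assoc]
      _ = Q * (D * D) * Q' := by rw [hQ', mul_one]; simp only [mul_assoc]
  have e2 : Sg * Sg - 1 = Q * (D * D - 1) * Q' := by
    rw [e1, mul_sub, mul_one, sub_mul, hQ]
  have e3 : Sg * Sg - ((q : R) * q) • (1 : Matrix (Fin 2) (Fin 2) R)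
      = Q * (D * D - ((q : R) * q) • (1 : Matrix (Fin 2) (Fin 2) R)) * Q' := by
    rw [e1, mul_sub, sub_mul, Matrix.mul_smul, mul_one, Matrix.smul_mul, hQ]
  rw [e2, e3] at hst
  have e4 : Q * (D * D - 1) * Q' * (Q * (D * D - ((q : R) * q) • (1 : Matrix (Fin 2) (Fin 2) R)) * Q')
      = Q * ((D * D - 1) * (D * D - ((q : R) * q) • (1 : Matrix (Fin 2) (Fin 2) R))) * Q' := by
    calc _ = Q * (D * D - 1) * (Q' * Q) * (D * D - ((q : R) * q) • (1 : Matrix (Fin 2) (Fin 2) R)) * Q' := by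
          simp only [mul_assoc]
      _ = _ := by rw [hQ', mul_one]; simp only [mul_assoc]
  rw [e4] at hst
  calc (D * D - 1) * (D * D - ((q : R) * q) • (1 : Matrix (Fin 2) (Fin 2) R))
      = (Q' * Q) * ((D * D - 1) * (D * D - ((q : R) * q) • (1 : Matrix (Fin 2) (Fin 2) R))) * (Q' * Q) := by
        rw [hQ', one_mul, mul_one]
    _ = Q' * (Q * ((D * D - 1) * (D * D - ((q : R) * q) • (1 : Matrix (Fin 2) (Fin 2) R))) * Q') * Q := by
        simp only [mul_assoc]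
    _ = 0 := by rw [hst, mul_zero, zero_mul]

end Local

end Fermat.Agent.ML.Raise
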