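/-
ML / RAISE / RelState : the local relations at a raised prime, carried as GALOIS identities on a subgroup.

The trace ring changes from one stage to the next and the eigenbasis of `ρ(Φ_q)` is an existential, so the relations
`c = 0`, `g = 0` on `G = β X` are recorded in a ring-free form :

  `RelAt q ε σ I Y` : for `x ∈ Y` : `σ x + q σ⁻¹ x = ε (q+1) x`  and  `σ (τ x - x) = ε q (τ x - x)` for all `τ ∈ I`.

* `StForm` : the output of `exists_steinberg_form` as a structure; `exists_stForm`.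
* (RS-in)  `StForm.c_smul_eq_zero`, `StForm.g_smul_eq_zero` : `RelAt` on a `Φ`-stable `Y` ⟹ `c`, `g` kill `Y`.
* (STRICT) `StForm.conjConst_frob`, `StForm.conjConst_tame`, `StForm.strict` : `c, b, g ∈ J` ⟹ `ρ|D_q` is conjugate (by `Q'`)
  to a constant representation modulo `J`.
* (RS-out) `StForm.relAt_smul` : `β g = 0`, `β c X' = 0` ⟹ `RelAt` on `β X'`.
-/
import Fermat.Agent.ML.Raise.Rel
import Fermat.Agent.ML.Rho.Loc
import Fermat.Agent.ML.Gen.Card

set_option autoImplicit false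
set_option linter.unusedSectionVars false

noncomputable section

namespace Fermat.Agent.ML.Raise

open Matrix Fermat.Agent.RIB Fermat.Agent.ML Fermat.Agent.S56 ExtCitation
open CFT (decomp)

local notation "M₂" => Matrix (Fin 2) (Fin 2)

/-! ### the Galois form -/

section Def

variable {Γ X : Type*} [Group Γ] [AddCommGroup X] [DistribMulAction Γ X]

/-- `c = 0` and `g = 0` on `Y`, in Galois form. -/
def RelAt (q : ℕ) (ε : ℤ) (σ : Γ) (I : Set Γ) (Y : Set X) : Prop :=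
  ∀ x ∈ Y, σ • x + q • σ⁻¹ • x = (ε * ((q : ℤ) + 1)) • x ∧
    ∀ τ ∈ I, σ • (τ • x - x) = (ε * (q : ℤ)) • (τ • x - x)

variable {q : ℕ} {ε : ℤ} {σ : Γ} {I : Set Γ}

theorem RelAt.mono {Y Y' : Set X} (h : RelAt q ε σ I Y) (hY : Y' ⊆ Y) : RelAt q ε σ I Y' :=
  fun x hx => h x (hY hx)

variable {X' : Type*} [AddCommGroup X'] [DistribMulAction Γ X']

/-- transport along an equivariant map. -/
theorem RelAt.map {Y : Set X} (h : RelAt q ε σ I Y) (e : X →+ X')
    (he : ∀ (g : Γ) x, e (g • x) = g • e x) : RelAt q ε σ I (e '' Y) := by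
  rintro _ ⟨x, hx, rfl⟩
  obtain ⟨h1, h2⟩ := h x hx
  refine ⟨?_, fun τ hτ => ?_⟩
  · rw [← he, ← he, ← map_nsmul, ← map_add, h1, map_zsmul]
  · rw [← he, ← map_sub, ← he, h2 τ hτ, map_zsmul]

/-- reflection along an equivariant injective map. -/
theorem RelAt.of_map {Y : Set X} (e : X →+ X') (he : ∀ (g : Γ) x, e (g • x) = g • e x)
    (hinj : Function.Injective e) (h : RelAt q ε σ I (e '' Y)) : RelAt q ε σ I Y := by
  intro x hx
  obtain ⟨h1, h2⟩ := h (e x) ⟨x, hx, rfl⟩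
  refine ⟨hinj ?_, fun τ hτ => hinj ?_⟩
  · rw [map_add, map_nsmul, he, he, h1, map_zsmul]
  · rw [he, map_sub, he, h2 τ hτ, map_zsmul, map_sub, he]

end Def

/-! ### the Steinberg form -/

/-- the output of `exists_steinberg_form`. -/
structure StForm {R : Type*} [CommRing R] (Sg Tu : M₂ R) (q : ℕ) (ε : R) (f1 f2 b g : R)
    (Q Q' : M₂ R) : Prop where
  QQ' : Q * Q' = 1
  Q'Q : Q' * Q = 1
  sg : Sg = Q * !![f1, 0; 0, f2] * Q'
  tu : Tu = Q * !![1, b; g, 1] * Q'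
  bc : b * (Sg.trace - ε * ((q : R) + 1)) = 0
  gc' : g * (Sg.trace + ε * ((q : R) + 1)) = 0
  bg : b * g = 0
  m1 : f1 - ε * q ∈ Ideal.span {Sg.trace - ε * ((q : R) + 1)}
  m2 : f2 - ε ∈ Ideal.span {Sg.trace - ε * ((q : R) + 1)}
  u2 : IsUnit (f2 - ε * q)

theorem exists_stForm {R : Type*} [CommRing R] [IsLocalRing R]
    (hnil : ∀ z ∈ IsLocalRing.maximalIdeal R, IsNilpotent z)
    (Sg Tu : M₂ R) (q : ℕ) (ε : R) (hε : ε * ε = 1) (h2 : IsUnit (2 : R))
    (hq : IsUnit (q : R)) (h1q : IsUnit (1 - (q : R)))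
    (hrel : Sg * Tu = Tu ^ q * Sg) (hunip : (Tu - 1) * (Tu - 1) = 0) (hdet : Sg.det = (q : R))
    (htr : Sg.trace - ε * ((q : R) + 1) ∈ IsLocalRing.maximalIdeal R) :
    ∃ (f1 f2 b g : R) (Q Q' : M₂ R), StForm Sg Tu q ε f1 f2 b g Q Q' := by
  obtain ⟨f1, f2, b, g, Q, Q', h1, h2', h3, h4, -, h6, -, -, h9, h10, h11, h12, h13⟩ :=
    exists_steinberg_form hnil Sg Tu q ε hε h2 hq h1q hrel hunip hdet htr
  refine ⟨f1, f2, b, g, Q, Q', h1, h2', h3, h4, h9, h10, h11, h12, h13, ?_⟩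
  have hεu : IsUnit ε := IsUnit.of_mul_eq_one _ hε
  rw [← IsLocalRing.notMem_maximalIdeal]
  intro h
  have : ε * (1 - (q : R)) ∈ IsLocalRing.maximalIdeal R := by
    have e : ε * (1 - (q : R)) = (f2 - ε * q) - (f2 - ε) := by ring
    rw [e]
    exact Ideal.sub_mem _ h h6
  exact (IsLocalRing.notMem_maximalIdeal.2 (hεu.mul h1q)) this

theorem mul_entries_mem {R : Type*} [CommRing R] (J : Ideal R) (N P : M₂ R)
    (hN : ∀ i k, N i k ∈ J) (i l : Fin 2) : (N * P) i l ∈ J := by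
  rw [Matrix.mul_apply]
  exact J.sum_mem fun k _ => J.mul_mem_right _ (hN i k)

namespace StForm

section Alg

variable {R : Type*} [CommRing R] {Sg Tu : M₂ R} {q : ℕ} {ε f1 f2 b g : R} {Q Q' : M₂ R}

theorem f1b (F : StForm Sg Tu q ε f1 f2 b g Q Q') : (f1 - ε * q) * b = 0 := by
  obtain ⟨w, hw⟩ := Ideal.mem_span_singleton'.1 F.m1
  rw [← hw, mul_assoc, mul_comm _ b, F.bc, mul_zero]

theorem conj_mul (F : StForm Sg Tu q ε f1 f2 b g Q Q') (M N : M₂ R) :
    (Q * M * Q') * (Q * N * Q') = Q * (M * N) * Q' := by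
  calc (Q * M * Q') * (Q * N * Q') = Q * M * (Q' * Q) * N * Q' := by simp only [mul_assoc]
    _ = Q * (M * N) * Q' := by rw [F.Q'Q, mul_one]; simp only [mul_assoc]

theorem sg_sub (F : StForm Sg Tu q ε f1 f2 b g Q Q') (t : R) :
    Sg - t • (1 : M₂ R) = Q * !![f1 - t, 0; 0, f2 - t] * Q' := by
  have e : !![f1 - t, 0; 0, f2 - t] = !![f1, 0; 0, f2] - t • (1 : M₂ R) := by
    ext i j
    fin_cases i <;> fin_cases j <;> simp
  rw [e, mul_sub, sub_mul, ← F.sg, Matrix.mul_smul, mul_one, Matrix.smul_mul, F.QQ']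

theorem tu_sub (F : StForm Sg Tu q ε f1 f2 b g Q Q') :
    Tu - 1 = Q * !![0, b; g, 0] * Q' := by
  have e : !![0, b; g, 0] = !![1, b; g, 1] - (1 : M₂ R) := by
    ext i j
    fin_cases i <;> fin_cases j <;> simp
  rw [e, mul_sub, sub_mul, ← F.tu, mul_one, F.QQ']

/-- `(Sg - ε q)(Tu - 1) = Q [[0,0],[(f2 - ε q) g, 0]] Q'`. -/
theorem key (F : StForm Sg Tu q ε f1 f2 b g Q Q') :
    (Sg - (ε * q) • (1 : M₂ R)) * (Tu - 1) = Q * !![0, 0; (f2 - ε * q) * g, 0] * Q' := by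
  rw [F.sg_sub, F.tu_sub, F.conj_mul]
  congr 2
  ext i j
  fin_cases i <;> fin_cases j <;> simp [Matrix.mul_apply, Fin.sum_univ_two, F.f1b]

theorem unip (F : StForm Sg Tu q ε f1 f2 b g Q Q') : (Tu - 1) * (Tu - 1) = 0 := by
  rw [F.tu_sub, F.conj_mul]
  have : !![0, b; g, 0] * !![0, b; g, 0] = (0 : M₂ R) := by
    ext i j
    fin_cases i <;> fin_cases j <;> simp [Matrix.mul_apply, Fin.sum_univ_two, F.bg, mul_comm g b]
  rw [this, mul_zero, zero_mul]

/-! ### (STRICT) -/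

variable {Λ : Type} {A : Type} [CommRing Λ] [CommRing A] [Algebra Λ A]
  {Sa Ta : M₂ A} {εz : ℤ} {a1 a2 ba ga : A} {P P' : M₂ A}

theorem conjConst_frob (F : StForm Sa Ta q (εz : A) a1 a2 ba ga P P') (J : Ideal A)
    (hc : Sa.trace - (εz : A) * ((q : A) + 1) ∈ J) : ConjConst Λ J P' Sa := by
  refine ⟨!![(εz : Λ) * q, 0; 0, (εz : Λ)], ?_⟩
  have hJ : Ideal.span {Sa.trace - (εz : A) * ((q : A) + 1)} ≤ J :=
    (Ideal.span_singleton_le_iff_mem _).2 hc
  have e1 : P' * Sa = !![a1, 0; 0, a2] * P' := by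
    rw [F.sg, ← mul_assoc, ← mul_assoc, F.Q'Q, one_mul]
  have e2 : (!![(εz : Λ) * q, 0; 0, (εz : Λ)]).map (algebraMap Λ A)
      = !![(εz : A) * q, 0; 0, (εz : A)] := by
    ext i j
    fin_cases i <;> fin_cases j <;> simp
  rw [e1, e2, ← sub_mul]
  refine mul_entries_mem J _ _ fun i k => ?_
  fin_cases i <;> fin_cases k
  · simpa using hJ F.m1
  · simp
  · simp
  · simpa using hJ F.m2

theorem conjConst_tame (F : StForm Sa Ta q (εz : A) a1 a2 ba ga P P') (J : Ideal A)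
    (hb : ba ∈ J) (hg : ga ∈ J) : ConjConst Λ J P' Ta := by
  refine ⟨1, ?_⟩
  have e1 : P' * Ta = !![1, ba; ga, 1] * P' := by
    rw [F.tu, ← mul_assoc, ← mul_assoc, F.Q'Q, one_mul]
  have e2 : (1 : M₂ Λ).map (algebraMap Λ A) = 1 := map_one (algebraMap Λ A).mapMatrix
  rw [e1, e2, ← sub_mul]
  refine mul_entries_mem J _ _ fun i k => ?_
  fin_cases i <;> fin_cases k
  · simp
  · simpa using hb
  · simpa using hg
  · simp

theorem isUnit_map (F : StForm Sa Ta q (εz : A) a1 a2 ba ga P P') {k : Type*} [CommRing k]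
    (π : A →+* k) : IsUnit (P'.map π) := by
  have h : π.mapMatrix P * π.mapMatrix P' = 1 := by rw [← map_mul, F.QQ', map_one]
  have h' : π.mapMatrix P' * π.mapMatrix P = 1 := by rw [← map_mul, F.Q'Q, map_one]
  exact ⟨⟨π.mapMatrix P', π.mapMatrix P, h', h⟩, rfl⟩

/-- **(STRICT)** : modulo `J ∋ c, b, g` the restriction of `rA` to `D_v` is conjugate to a constant representation. -/
theorem strict {rA : GQ →* M₂ A} (hcont : GaloisFactorsThroughFiniteLevel rA) (v : Nat.Primes)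
    {φ τ : GQ} (F : StForm (rA φ) (rA τ) v (εz : A) a1 a2 ba ga P P')
    (hφ : (primeLocalPlace v).IsFrobeniusAt φ (v : ℕ))
    (N : ℕ) (hN : Nat.Coprime N (v : ℕ)) (htors : ∀ σ ∈ inert v, rA σ ^ N = 1)
    (hgen : ∀ σ ∈ inert v, ∃ n : ℕ, rA σ = rA τ ^ n)
    (J : Ideal A) (hc : (rA φ).trace - (εz : A) * (((v : ℕ) : A) + 1) ∈ J) (hb : ba ∈ J)
    (hg : ga ∈ J) : ∀ σ ∈ decomp v, ConjConst Λ J P' (rA σ) :=
  conjConst_of_gens hcont v N hN htors
    (fun σ hσ => by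
      obtain ⟨n, hn⟩ := hgen σ hσ
      rw [hn]
      exact (F.conjConst_tame J hb hg).pow n)
    hφ (F.conjConst_frob J hc)

end Alg

/-! ### (RS-in), (RS-out) -/

section Act

variable {R V : Type} [CommRing R] [AddCommGroup V] [Module R V] [DistribMulAction GQ V]
  {ρ : GQ →* M₂ R} {Φ : M₂ R →ₐ[R] Module.End R V}
  {q : ℕ} {ε : ℤ} {σ τ : GQ} {I : Set GQ} {f1 f2 b g : R} {Q Q' : M₂ R}

theorem intCast_smul' (n : ℤ) (v : V) : ((n : ℤ) : R) • v = n • v := Int.cast_smul_eq_zsmul R n v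

/-- `Φ ((ρ σ - t)(ρ τ - 1)) x = σ (τ x - x) - t (τ x - x)`. -/
theorem phi_key (H : RhoAct ρ Φ) (t : R) (σ τ : GQ) (x : V) :
    Φ ((ρ σ - t • (1 : M₂ R)) * (ρ τ - 1)) x = σ • (τ • x - x) - t • (τ • x - x) := by
  have hB : Φ (ρ τ - 1) x = τ • x - x := H.phi_sub_one τ x
  rw [map_mul, Module.End.mul_apply, hB]
  generalize τ • x - x = w
  rw [map_sub, map_smul, map_one, LinearMap.sub_apply, LinearMap.smul_apply,
    Module.End.one_apply, H.act]

/-- (RS-in) `c` kills `Y`. -/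
theorem c_smul_eq_zero (H : RhoAct ρ Φ) (hdet : (ρ σ).det = (q : R)) {Y : Set V}
    (hrel : RelAt q ε σ I Y) {y : V} (hy : y ∈ Y) :
    ((ρ σ).trace - (ε : R) * ((q : R) + 1)) • y = 0 := by
  have e : (ε : R) * ((q : R) + 1) = ((ε * ((q : ℤ) + 1) : ℤ) : R) := by push_cast; ring
  rw [sub_smul, H.trace_smul, hdet, Nat.cast_smul_eq_nsmul, (hrel y hy).1, e, intCast_smul',
    sub_self]

/-- (RS-in) `g` kills `Y`. -/
theorem g_smul_eq_zero (H : RhoAct ρ Φ) (F : StForm (ρ σ) (ρ τ) q (ε : R) f1 f2 b g Q Q')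
    (Y : Submodule R V) (hY : ∀ (M : M₂ R), ∀ y ∈ Y, Φ M y ∈ Y)
    (hrel : RelAt q ε σ I (Y : Set V)) (hτ : τ ∈ I) {y : V} (hy : y ∈ Y) : g • y = 0 := by
  set M : M₂ R := (ρ σ - ((ε : R) * q) • (1 : M₂ R)) * (ρ τ - 1) with hM
  have e : (ε : R) * (q : R) = ((ε * (q : ℤ) : ℤ) : R) := by push_cast; ring
  have h1 : ∀ x ∈ Y, Φ M x = 0 := by
    intro x hx
    rw [hM, phi_key H, ((hrel x hx).2 τ hτ), e, intCast_smul', sub_self]
  have h2 : Q' * M * Q = !![0, 0; (f2 - (ε : R) * q) * g, 0] := by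
    rw [hM, F.key]
    calc Q' * (Q * !![0, 0; (f2 - (ε : R) * q) * g, 0] * Q') * Q
        = (Q' * Q) * !![0, 0; (f2 - (ε : R) * q) * g, 0] * (Q' * Q) := by simp only [mul_assoc]
      _ = _ := by rw [F.Q'Q, one_mul, mul_one]
  have h3 : ∀ x ∈ Y, Φ (Q' * M * Q) x = 0 := by
    intro x hx
    rw [map_mul, map_mul, Module.End.mul_apply, Module.End.mul_apply, h1 _ (hY Q x hx), map_zero]
  have h4 := entry_smul_eq_zero Φ Y hY _ h3 1 0 hy
  rw [h2] at h4
  have h5 : ((f2 - (ε : R) * q) * g) • y = 0 := by simpa using h4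
  obtain ⟨u, hu⟩ := F.u2
  rw [← hu, mul_smul] at h5
  have := congrArg (fun z => (↑u⁻¹ : R) • z) h5
  simpa [smul_smul] using this

/-- (RS-out) `β g = 0`, `β c X' = 0` ⟹ `RelAt` on `β X'`. -/
theorem relAt_smul (H : RhoAct ρ Φ) (F : StForm (ρ σ) (ρ τ) q (ε : R) f1 f2 b g Q Q')
    (hdet : (ρ σ).det = (q : R)) (hI : ∀ τ' ∈ I, ∃ n : ℕ, ρ τ' = ρ τ ^ n)
    (β : R) (hβg : β * g = 0) (X' : Set V)
    (hβc : ∀ x ∈ X', (β * ((ρ σ).trace - (ε : R) * ((q : R) + 1))) • x = 0) :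
    RelAt q ε σ I ((fun x => β • x) '' X') := by
  rintro _ ⟨x, hx, rfl⟩
  refine ⟨?_, fun τ' hτ' => ?_⟩
  · have e : (ε : R) * ((q : R) + 1) = ((ε * ((q : ℤ) + 1) : ℤ) : R) := by push_cast; ring
    have h1 := H.trace_smul σ (β • x)
    rw [hdet, Nat.cast_smul_eq_nsmul] at h1
    rw [← h1, ← intCast_smul' (R := R), ← e, ← sub_eq_zero, ← sub_smul, smul_smul, mul_comm]
    exact hβc x hx
  · obtain ⟨n, hn⟩ := hI τ' hτ'
    have e : (ε : R) * (q : R) = ((ε * (q : ℤ) : ℤ) : R) := by push_cast; ring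
    have h1 : ρ τ' - 1 = (n : R) • (ρ τ - 1) := by
      have e1 : ρ τ = 1 + (ρ τ - 1) := by abel
      rw [hn]
      conv_lhs => rw [e1]
      rw [one_add_pow_of_sq_zero _ F.unip n]
      abel
    have h2 : β • ((ρ σ - ((ε : R) * q) • (1 : M₂ R)) * (ρ τ' - 1)) = 0 := by
      have : β • !![0, 0; (f2 - (ε : R) * q) * g, 0] = (0 : M₂ R) := by
        have h3 : β * ((f2 - (ε : R) * q) * g) = 0 := by
          rw [mul_left_comm, hβg, mul_zero]
        ext i j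
        fin_cases i <;> fin_cases j <;> simp [h3]
      have hz : β • (Q * !![0, 0; (f2 - (ε : R) * q) * g, 0] * Q') = 0 := by
        rw [← Matrix.smul_mul, ← Matrix.mul_smul, this, mul_zero, zero_mul]
      rw [h1, Matrix.mul_smul, F.key, smul_comm, hz, smul_zero]
    have h4 := phi_key H ((ε : R) * q) σ τ' (β • x)
    rw [map_smul, ← LinearMap.smul_apply, ← map_smul, h2, map_zero, LinearMap.zero_apply, e,
      intCast_smul'] at h4
    exact (sub_eq_zero.1 h4.symm)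

end Act

end StForm

/-- a `G_ℚ`-stable submodule is `Φ`-stable (absolute irreducibility). -/
theorem phi_stable_of_gal_stable {R V : Type} [CommRing R] [AddCommGroup V] [Module R V]
    [DistribMulAction GQ V] {ρ : GQ →* M₂ R} {Φ : M₂ R →ₐ[R] Module.End R V} (H : RhoAct ρ Φ)
    (hadj : Algebra.adjoin R (Set.range ρ) = ⊤) (Y : Submodule R V)
    (hG : ∀ (g : GQ), ∀ y ∈ Y, g • y ∈ Y) : ∀ (M : M₂ R), ∀ y ∈ Y, Φ M y ∈ Y := by
  intro M
  have hM : M ∈ Algebra.adjoin R (Set.range ρ) := by rw [hadj]; trivial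
  induction hM using Algebra.adjoin_induction with
  | mem M hM =>
    obtain ⟨g, rfl⟩ := hM
    intro y hy
    rw [H.act]
    exact hG g y hy
  | algebraMap r =>
    intro y hy
    rw [AlgHom.commutes, Module.algebraMap_end_apply]
    exact Y.smul_mem r hy
  | add M N _ _ h1 h2 =>
    intro y hy
    rw [map_add, LinearMap.add_apply]
    exact Y.add_mem (h1 y hy) (h2 y hy)
  | mul M N _ _ h1 h2 =>
    intro y hy
    rw [map_mul, Module.End.mul_apply]
    exact h1 _ (h2 y hy)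

end Fermat.Agent.ML.Raise
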