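import Fermat.Agent.SS.Top35.Geo

/-!
# ML / Raise / [REL-LAST] : `(tr Φ)² = (q+1)²` on the `q`-new part `ker Π_q` of `J₀(M q)[p^∞]`   (`q ∤ M`, `q ≠ p`; ANY `M`)

`t(σ) v := σ v + q σ⁻¹ v` (the operator "`tr ρ(σ)`", `χ(σ) = q`).   `t² - (q+1)² = σ⁻² (σ⁴ - (q²+1) σ² + q²)`, and the last factor
kills `ker Π_q` : this is `SS.steinGeo_all` (the geometric input of S35, on main).
-/

set_option autoImplicit false

noncomputable section

open ModularCurve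

namespace Fermat.Agent.ML

open Fermat.Agent.SS

local notation "Qbar" => AlgebraicClosure ℚ
local notation "GQ" => (AlgebraicClosure ℚ ≃ₐ[ℚ] AlgebraicClosure ℚ)

section Abstract

variable {G X : Type*} [Group G] [AddCommGroup X] [DistribMulAction G X]

/-- the operator `σ + q σ⁻¹` -/
def trOp (q : ℕ) (σ : G) (v : X) : X := σ • v + q • σ⁻¹ • v

theorem smul_nsmul_comm' (τ : G) (n : ℕ) (z : X) : τ • (n • z) = n • τ • z :=
  map_nsmul (DistribSMul.toAddMonoidHom X τ) n z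

theorem smul_zsmul_comm' (τ : G) (n : ℤ) (z : X) : τ • (n • z) = n • τ • z :=
  map_zsmul (DistribSMul.toAddMonoidHom X τ) n z

theorem trOp_add (q : ℕ) (σ : G) (a b : X) : trOp q σ (a + b) = trOp q σ a + trOp q σ b := by
  unfold trOp
  rw [smul_add, smul_add, smul_add]
  abel

theorem trOp_zsmul (q : ℕ) (σ : G) (c : ℤ) (a : X) : trOp q σ (c • a) = c • trOp q σ a := by
  unfold trOp
  rw [smul_zsmul_comm', smul_zsmul_comm', smul_add, smul_comm q c]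

theorem trOp_trOp_of_stein (q : ℕ) (σ : G) (y : X)
    (h : σ • σ • σ • σ • (σ⁻¹ • σ⁻¹ • y) - (q ^ 2 + 1) • σ • σ • (σ⁻¹ • σ⁻¹ • y)
      + q ^ 2 • (σ⁻¹ • σ⁻¹ • y) = 0) :
    trOp q σ (trOp q σ y) = (q + 1) ^ 2 • y := by
  have e2 : σ • σ • (σ⁻¹ • σ⁻¹ • y) = y := by rw [smul_inv_smul, smul_inv_smul]
  rw [e2] at h
  unfold trOp
  rw [smul_add, smul_add, smul_nsmul_comm', smul_nsmul_comm', smul_inv_smul, inv_smul_smul,
    smul_add, smul_smul q q]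
  have h1 : σ • σ • y = (q ^ 2 + 1) • y - q ^ 2 • (σ⁻¹ • σ⁻¹ • y) := by
    rw [eq_sub_iff_add_eq, ← sub_eq_zero, ← h]
    abel
  rw [h1]
  have e3 : ((q + 1) ^ 2) • y = (q ^ 2 + 1) • y + q • y + q • y := by
    rw [← add_nsmul, ← add_nsmul]
    congr 1
    ring
  rw [e3, ← pow_two]
  abel

theorem trOp_factor (q : ℕ) (σ : G) (y : X) (h : trOp q σ (trOp q σ y) = (q + 1) ^ 2 • y)
    (ε : ℤ) (hε : ε * ε = 1) :
    trOp q σ (trOp q σ y + (ε * ((q : ℤ) + 1)) • y) -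
      (ε * ((q : ℤ) + 1)) • (trOp q σ y + (ε * ((q : ℤ) + 1)) • y) = 0 := by
  rw [trOp_add, trOp_zsmul, h, smul_add, smul_smul]
  have e : (ε * ((q : ℤ) + 1)) * (ε * ((q : ℤ) + 1)) = (((q + 1) ^ 2 : ℕ) : ℤ) := by
    push_cast
    linear_combination ((q : ℤ) + 1) ^ 2 * hε
  rw [e, natCast_zsmul]
  abel

end Abstract

/-- **[REL-LAST]**, raw form. -/
theorem rel_last (M q p : ℕ) [NeZero M] [NeZero q] (hq : q.Prime) (hp : p.Prime) (hqp : q ≠ p)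
    (hqM : ¬ q ∣ M) (A : ValuationSubring Qbar) (hA : A.LiesOverPrime q) (σ : GQ)
    (hσ : A.IsFrobeniusAt σ q) (y : JZero (M * q)) (hy : ∃ n : ℕ, p ^ n • y = 0)
    (hyA : pushA M q y = 0) (hyB : pushB M q y = 0) :
    trOp q σ (trOp q σ y) = (q + 1) ^ 2 • y := by
  have hz : ∀ τ : GQ, τ • (0 : JZero M) = 0 := fun τ => smul_zero (A := JZero M) τ
  have hz' : ∀ τ : GQ, τ • (0 : JZero (M * q)) = 0 := fun τ => smul_zero (A := JZero (M * q)) τ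
  refine trOp_trOp_of_stein q σ y (steinGeo_all M q p hq hp hqp hqM A hA σ hσ _ ?_ ?_ ?_)
  · obtain ⟨n, hn⟩ := hy
    refine ⟨n, ?_⟩
    rw [← smul_nsmul_comm', ← smul_nsmul_comm', hn, hz', hz']
  · rw [pushA_smul, pushA_smul, hyA, hz, hz]
  · rw [pushB_smul, pushB_smul, hyB, hz, hz]

/-- `(t - ε (q+1)) (t + ε (q+1)) = 0` on `ker Π_q`, for every integer `ε` with `ε² = 1`. -/
theorem rel_last_factor (M q p : ℕ) [NeZero M] [NeZero q] (hq : q.Prime) (hp : p.Prime)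
    (hqp : q ≠ p) (hqM : ¬ q ∣ M) (A : ValuationSubring Qbar) (hA : A.LiesOverPrime q) (σ : GQ)
    (hσ : A.IsFrobeniusAt σ q) (ε : ℤ) (hε : ε * ε = 1) (y : JZero (M * q))
    (hy : ∃ n : ℕ, p ^ n • y = 0) (hyA : pushA M q y = 0) (hyB : pushB M q y = 0) :
    trOp q σ (trOp q σ y + (ε * ((q : ℤ) + 1)) • y) -
      (ε * ((q : ℤ) + 1)) • (trOp q σ y + (ε * ((q : ℤ) + 1)) • y) = 0 :=
  trOp_factor q σ y (rel_last M q p hq hp hqp hqM A hA σ hσ y hy hyA hyB) ε hε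

end Fermat.Agent.ML
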