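/-
ML / RAISE / RelCell : REL at a raising prime `q ≢ 1 mod p`, in the vocabulary of `ML/Main/Cell.lean` (`LocSt`, `LocUnip`, `LocUr`).

(a) ring-free, any `G_ℚ`-module :
  * `St3 q ε σ τ x` : the three Steinberg identities for one triple;  `St3.conj`, `St3.map`, `St3.of_map`, `St3.trace`;
  * `locSt_all`, `locUnip_all`, `locUr_all` : the identities at ONE place `A ∣ q` on a Galois-stable set give them at all the places;
  * `locSt_mono/map/of_map`, `locUnip_mono/map/of_map`, `locUr_mono/map/of_map`;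
  * `inv_mul_mem_inertia` : two Frobenius elements at `A` differ by inertia.
(b) `StData ρ q ε A φ τ f1 f2 b g Q Q'` : a place, a Frobenius, a tame generator and the Steinberg form of `RelState.lean`.
  * `StData.st3` (pointwise RS-out) : `c y = 0`, `g y = 0` ⟹ the three identities at `y` for ALL Frobenius lifts and ALL of inertia;
  * `StData.locSt_of_ann`, `StData.ann_of_locSt` : `LocSt q ε Y ⟺ c, g ∈ Ann Y`;   `StData.ann_of_locUr` : `LocUr q Y ⟹ b, g ∈ Ann Y`;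
  * `StData.locUnip` : `LocUnip q V`;
  * `StData.locSt_smul`, `StData.locSt_smul_of_dvd_b`, `StData.locSt_smul_of_dvd_c'` : `LocSt` on `β U`;
  * `StData.strict`, `StData.strict_raised`, `StData.strict_unraised` : the hypothesis `hstrict` of `GenHypMZ.of_act`.
(c) `exists_stData`, `exists_stData'` : existence.
-/
import Fermat.Agent.ML.Main.Cell
import Fermat.Agent.ML.Raise.RelState
import Fermat.Agent.ML.Raise.RelLast
import Fermat.Agent.ML.Rho.TameK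
import Fermat.Agent.ML.Gen.OfRho
import Fermat.Agent.Common.PlaceBridge

set_option autoImplicit false
set_option linter.unusedSectionVars false

noncomputable section

namespace Fermat.Agent.ML.Raise

open Matrix Fermat.Agent.RIB Fermat.Agent.ML Fermat.Agent.S56 ExtCitation
open CFT (decomp)
open scoped Pointwise

local notation "M₂" => Matrix (Fin 2) (Fin 2)
local notation "Qbar" => AlgebraicClosure ℚ

/-! ### (a) ring-free -/

/-- two Frobenius elements at `A` differ by an element of the inertia group. -/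
theorem inv_mul_mem_inertia {A : ValuationSubring Qbar} {q : ℕ} {φ σ : GQ}
    (hφ : A.IsFrobeniusAt φ q) (hσ : A.IsFrobeniusAt σ q) : φ⁻¹ * σ ∈ A.inertiaSubgroupIn ℚ := by
  refine ⟨(⟨φ, hφ.mem_decompositionSubgroup⟩ : A.decompositionSubgroup ℚ)⁻¹ *
    ⟨σ, hσ.mem_decompositionSubgroup⟩, ?_, rfl⟩
  refine MonoidHom.mem_ker.2 ?_
  ext x
  show ((⟨φ, hφ.mem_decompositionSubgroup⟩ : A.decompositionSubgroup ℚ)⁻¹ *
    ⟨σ, hσ.mem_decompositionSubgroup⟩) • x = x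
  rw [mul_smul, hσ.smul_residue_eq, ← hφ.smul_residue_eq, inv_smul_smul]

section Places

variable {X : Type*} [AddCommGroup X] [DistribMulAction GQ X]

/-- the three Steinberg identities for one triple `(σ, τ, x)`. -/
def St3 (q : ℕ) (ε : ℤ) (σ τ : GQ) (x : X) : Prop :=
  σ • (τ • x - x) = (ε * q) • (τ • x - x) ∧ τ • (σ • x - ε • x) = σ • x - ε • x ∧
    σ • (σ • x - ε • x) = (ε * q) • (σ • x - ε • x)

variable {q : ℕ} {ε : ℤ}

theorem conj_smul_inv_smul (g s : GQ) (y : X) : (g⁻¹ * s * g) • (g⁻¹ • y) = g⁻¹ • (s • y) := by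
  rw [mul_smul, mul_smul, smul_inv_smul]

theorem St3.conj {σ τ g : GQ} {x : X}
    (h : St3 q ε (g⁻¹ * σ * g) (g⁻¹ * τ * g) (g⁻¹ • x)) : St3 q ε σ τ x := by
  obtain ⟨h1, h2, h3⟩ := h
  refine ⟨MulAction.injective g⁻¹ ?_, MulAction.injective g⁻¹ ?_, MulAction.injective g⁻¹ ?_⟩
  · rw [conj_smul_inv_smul, ← smul_sub, conj_smul_inv_smul, ← smul_zsmul_comm'] at h1
    exact h1
  · rw [conj_smul_inv_smul, ← smul_zsmul_comm', ← smul_sub, conj_smul_inv_smul] at h2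
    exact h2
  · rw [conj_smul_inv_smul, ← smul_zsmul_comm', ← smul_sub, conj_smul_inv_smul,
      ← smul_zsmul_comm'] at h3
    exact h3

/-- `σ + q σ⁻¹ = ε (q + 1)`. -/
theorem St3.trace {σ τ : GQ} {x : X} (hε : ε * ε = 1) (h : St3 q ε σ τ x) :
    σ • x + q • σ⁻¹ • x = (ε * ((q : ℤ) + 1)) • x := by
  have h3 := congrArg (fun y => σ⁻¹ • y) h.2.2
  simp only [inv_smul_smul, smul_zsmul_comm', smul_sub] at h3
  have e1 : ε * (q : ℤ) * ε = q := by linear_combination (q : ℤ) * hε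
  rw [smul_smul, e1] at h3
  have h4 : σ • x = ε • x + (ε * (q : ℤ)) • x - (q : ℤ) • σ⁻¹ • x := by
    rw [add_sub_assoc, ← h3]
    abel
  rw [h4, ← natCast_zsmul, mul_add, add_smul, mul_one]
  abel

theorem locSt_iff {G : Set X} : LocSt q ε G ↔ ∀ A : ValuationSubring Qbar, A.LiesOverPrime q →
    ∀ σ : GQ, A.IsFrobeniusAt σ q → ∀ τ ∈ A.inertiaSubgroupIn ℚ, ∀ x ∈ G, St3 q ε σ τ x := Iff.rfl

/-- the Steinberg identities at ONE place give them at all the places above `q`. -/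
theorem locSt_all (hq : q.Prime) {A : ValuationSubring Qbar} (hA : A.LiesOverPrime q) {G : Set X}
    (hG : ∀ g : GQ, ∀ x ∈ G, g • x ∈ G)
    (h : ∀ σ : GQ, A.IsFrobeniusAt σ q → ∀ τ ∈ A.inertiaSubgroupIn ℚ, ∀ x ∈ G, St3 q ε σ τ x) :
    LocSt q ε G := by
  intro A' hA' σ hσ τ hτ x hx
  obtain ⟨g, rfl⟩ := Bridge.exists_smul_eq hq hA hA'
  rw [Bridge.isFrobeniusAt_smul_iff hq hA] at hσ
  rw [Bridge.mem_inertia_smul_iff hq hA] at hτ
  exact (h _ hσ _ hτ _ (hG g⁻¹ x hx)).conj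

theorem locUnip_all (hq : q.Prime) {A : ValuationSubring Qbar} (hA : A.LiesOverPrime q)
    {G : Set X} (hG : ∀ g : GQ, ∀ x ∈ G, g • x ∈ G)
    (h : ∀ τ ∈ A.inertiaSubgroupIn ℚ, ∀ τ' ∈ A.inertiaSubgroupIn ℚ, ∀ x ∈ G,
      τ' • (τ • x - x) = τ • x - x) : LocUnip q G := by
  intro A' hA' τ hτ τ' hτ' x hx
  obtain ⟨g, rfl⟩ := Bridge.exists_smul_eq hq hA hA'
  rw [Bridge.mem_inertia_smul_iff hq hA] at hτ hτ'
  have h1 := h _ hτ _ hτ' _ (hG g⁻¹ x hx)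
  rw [conj_smul_inv_smul, ← smul_sub, conj_smul_inv_smul] at h1
  exact MulAction.injective g⁻¹ h1

theorem locUr_all (hq : q.Prime) {A : ValuationSubring Qbar} (hA : A.LiesOverPrime q)
    {G : Set X} (hG : ∀ g : GQ, ∀ x ∈ G, g • x ∈ G)
    (h : ∀ τ ∈ A.inertiaSubgroupIn ℚ, ∀ x ∈ G, τ • x = x) : LocUr q G := by
  intro A' hA' τ hτ x hx
  obtain ⟨g, rfl⟩ := Bridge.exists_smul_eq hq hA hA'
  rw [Bridge.mem_inertia_smul_iff hq hA] at hτ
  have h1 := h _ hτ _ (hG g⁻¹ x hx)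
  rw [conj_smul_inv_smul] at h1
  exact MulAction.injective g⁻¹ h1

theorem locSt_mono {G G' : Set X} (h : LocSt q ε G) (hG : G' ⊆ G) : LocSt q ε G' :=
  fun A hA σ hσ τ hτ x hx => h A hA σ hσ τ hτ x (hG hx)

theorem locUnip_mono {G G' : Set X} (h : LocUnip q G) (hG : G' ⊆ G) : LocUnip q G' :=
  fun A hA τ hτ τ' hτ' x hx => h A hA τ hτ τ' hτ' x (hG hx)

theorem locUr_mono {G G' : Set X} (h : LocUr q G) (hG : G' ⊆ G) : LocUr q G' :=
  fun A hA τ hτ x hx => h A hA τ hτ x (hG hx)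

/-- unramified ⟹ unipotent. -/
theorem LocUr.locUnip' {G : Set X} (h : LocUr q G) : LocUnip q G := by
  intro A hA τ hτ τ' _ x hx
  rw [h A hA τ hτ x hx, sub_self, smul_zero]

variable {X' : Type*} [AddCommGroup X'] [DistribMulAction GQ X']

theorem St3.map {σ τ : GQ} {x : X} (e : X →+ X') (he : ∀ (g : GQ) x, e (g • x) = g • e x)
    (h : St3 q ε σ τ x) : St3 q ε σ τ (e x) := by
  obtain ⟨h1, h2, h3⟩ := h
  refine ⟨?_, ?_, ?_⟩
  · rw [← he, ← map_sub, ← he, h1, map_zsmul]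
  · rw [← he, ← map_zsmul, ← map_sub, ← he, h2]
  · rw [← he, ← map_zsmul, ← map_sub, ← he, h3, map_zsmul]

theorem eq_of_map_eq (e : X →+ X') (Y : AddSubgroup X) (hinj : ∀ y ∈ Y, e y = 0 → y = 0) {a b : X}
    (ha : a ∈ Y) (hb : b ∈ Y) (h : e a = e b) : a = b :=
  sub_eq_zero.1 (hinj _ (Y.sub_mem ha hb) (by rw [map_sub, h, sub_self]))

theorem St3.of_map {σ τ : GQ} {x : X} (e : X →+ X') (he : ∀ (g : GQ) x, e (g • x) = g • e x)
    (Y : AddSubgroup X) (hY : ∀ g : GQ, ∀ y ∈ Y, g • y ∈ Y) (hinj : ∀ y ∈ Y, e y = 0 → y = 0)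
    (hx : x ∈ Y) (h : St3 q ε σ τ (e x)) : St3 q ε σ τ x := by
  obtain ⟨h1, h2, h3⟩ := h
  have m1 : τ • x - x ∈ Y := Y.sub_mem (hY τ x hx) hx
  have m2 : σ • x - ε • x ∈ Y := Y.sub_mem (hY σ x hx) (Y.zsmul_mem hx ε)
  refine ⟨eq_of_map_eq e Y hinj (hY σ _ m1) (Y.zsmul_mem m1 _) ?_,
    eq_of_map_eq e Y hinj (hY τ _ m2) m2 ?_,
    eq_of_map_eq e Y hinj (hY σ _ m2) (Y.zsmul_mem m2 _) ?_⟩
  · rw [he, map_zsmul, map_sub, he, h1]
  · rw [he, map_sub, he, map_zsmul, h2]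
  · rw [he, map_zsmul, map_sub, he, map_zsmul, h3]

theorem locSt_map (e : X →+ X') (he : ∀ (g : GQ) x, e (g • x) = g • e x) {G : Set X}
    (h : LocSt q ε G) : LocSt q ε (e '' G) := by
  rintro A hA σ hσ τ hτ _ ⟨x, hx, rfl⟩
  exact St3.map e he (h A hA σ hσ τ hτ x hx)

theorem locSt_of_map (e : X →+ X') (he : ∀ (g : GQ) x, e (g • x) = g • e x)
    (Y : AddSubgroup X) (hY : ∀ g : GQ, ∀ y ∈ Y, g • y ∈ Y) (hinj : ∀ y ∈ Y, e y = 0 → y = 0)
    (h : LocSt q ε (e '' (Y : Set X))) : LocSt q ε (Y : Set X) :=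
  fun A hA σ hσ τ hτ x hx => St3.of_map e he Y hY hinj hx (h A hA σ hσ τ hτ _ ⟨x, hx, rfl⟩)

theorem locUnip_map (e : X →+ X') (he : ∀ (g : GQ) x, e (g • x) = g • e x) {G : Set X}
    (h : LocUnip q G) : LocUnip q (e '' G) := by
  rintro A hA τ hτ τ' hτ' _ ⟨x, hx, rfl⟩
  rw [← he, ← map_sub, ← he, h A hA τ hτ τ' hτ' x hx]

theorem locUnip_of_map (e : X →+ X') (he : ∀ (g : GQ) x, e (g • x) = g • e x)
    (Y : AddSubgroup X) (hY : ∀ g : GQ, ∀ y ∈ Y, g • y ∈ Y) (hinj : ∀ y ∈ Y, e y = 0 → y = 0)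
    (h : LocUnip q (e '' (Y : Set X))) : LocUnip q (Y : Set X) := by
  intro A hA τ hτ τ' hτ' x hx
  have m1 : τ • x - x ∈ Y := Y.sub_mem (hY τ x hx) hx
  refine eq_of_map_eq e Y hinj (hY τ' _ m1) m1 ?_
  rw [he, map_sub, he]
  exact h A hA τ hτ τ' hτ' _ ⟨x, hx, rfl⟩

theorem locUr_map (e : X →+ X') (he : ∀ (g : GQ) x, e (g • x) = g • e x) {G : Set X}
    (h : LocUr q G) : LocUr q (e '' G) := by
  rintro A hA τ hτ _ ⟨x, hx, rfl⟩
  rw [← he, h A hA τ hτ x hx]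

theorem locUr_of_map (e : X →+ X') (he : ∀ (g : GQ) x, e (g • x) = g • e x)
    (Y : AddSubgroup X) (hY : ∀ g : GQ, ∀ y ∈ Y, g • y ∈ Y) (hinj : ∀ y ∈ Y, e y = 0 → y = 0)
    (h : LocUr q (e '' (Y : Set X))) : LocUr q (Y : Set X) := by
  intro A hA τ hτ x hx
  refine eq_of_map_eq e Y hinj (hY τ _ hx) hx ?_
  rw [he]
  exact h A hA τ hτ _ ⟨x, hx, rfl⟩

/-- `LocSt ⟹ RelAt`. -/
theorem relAt_of_locSt (hε : ε * ε = 1) {G : Set X} (h : LocSt q ε G) {A : ValuationSubring Qbar}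
    (hA : A.LiesOverPrime q) {σ : GQ} (hσ : A.IsFrobeniusAt σ q) :
    RelAt q ε σ (A.inertiaSubgroupIn ℚ : Set GQ) G := fun x hx =>
  ⟨St3.trace hε (h A hA σ hσ 1 (one_mem _) x hx), fun τ hτ => (h A hA σ hσ τ hτ x hx).1⟩

end Places

/-! ### (b) matrices -/

section Mat

variable {R : Type*} [CommRing R]

theorem conj_entries_mem (J : Ideal R) (Q M Q' : M₂ R) (hM : ∀ i j, M i j ∈ J) (i j : Fin 2) :
    (Q * M * Q') i j ∈ J := by
  refine mul_entries_mem J _ _ (fun i k => ?_) i j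
  rw [Matrix.mul_apply]
  exact J.sum_mem fun l _ => J.mul_mem_left _ (hM l k)

/-- upper triangular modulo `J`. -/
theorem ut_entries (J : Ideal R) {d1 d2 x z y w s e : R} (h1 : d1 - s ∈ J) (h2 : d2 - e ∈ J)
    (hz : z ∈ J) (hw : w ∈ J) :
    (∀ i j, ((!![d1, x; z, d2] - s • (1 : M₂ R)) * !![0, y; w, 0]) i j ∈ J) ∧
    (∀ i j, (!![0, y; w, 0] * (!![d1, x; z, d2] - e • (1 : M₂ R))) i j ∈ J) ∧
    (∀ i j, ((!![d1, x; z, d2] - s • (1 : M₂ R)) * (!![d1, x; z, d2] - e • (1 : M₂ R))) i j ∈ J) := by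
  have e1 : (!![d1, x; z, d2] - s • (1 : M₂ R)) * !![0, y; w, 0]
      = !![x * w, (d1 - s) * y; (d2 - s) * w, z * y] := by
    ext i j
    fin_cases i <;> fin_cases j <;> simp [Matrix.mul_apply, Fin.sum_univ_two]
  have e2 : !![0, y; w, 0] * (!![d1, x; z, d2] - e • (1 : M₂ R))
      = !![y * z, y * (d2 - e); w * (d1 - e), w * x] := by
    ext i j
    fin_cases i <;> fin_cases j <;> simp [Matrix.mul_apply, Fin.sum_univ_two]
  have e3 : (!![d1, x; z, d2] - s • (1 : M₂ R)) * (!![d1, x; z, d2] - e • (1 : M₂ R))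
      = !![(d1 - s) * (d1 - e) + x * z, (d1 - s) * x + x * (d2 - e);
          z * (d1 - e) + (d2 - s) * z, z * x + (d2 - s) * (d2 - e)] := by
    ext i j
    fin_cases i <;> fin_cases j <;> simp [Matrix.mul_apply, Fin.sum_univ_two]
  refine ⟨fun i j => ?_, fun i j => ?_, fun i j => ?_⟩
  · rw [e1]
    fin_cases i <;> fin_cases j
    · exact J.mul_mem_left _ hw
    · exact J.mul_mem_right _ h1
    · exact J.mul_mem_left _ hw
    · exact J.mul_mem_right _ hz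
  · rw [e2]
    fin_cases i <;> fin_cases j
    · exact J.mul_mem_left _ hz
    · exact J.mul_mem_left _ h2
    · exact J.mul_mem_right _ hw
    · exact J.mul_mem_right _ hw
  · rw [e3]
    fin_cases i <;> fin_cases j
    · exact J.add_mem (J.mul_mem_right _ h1) (J.mul_mem_left _ hz)
    · exact J.add_mem (J.mul_mem_right _ h1) (J.mul_mem_left _ h2)
    · exact J.add_mem (J.mul_mem_right _ hz) (J.mul_mem_left _ hz)
    · exact J.add_mem (J.mul_mem_right _ hz) (J.mul_mem_left _ h2)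

namespace StForm

variable {Sg Tu : M₂ R} {q : ℕ} {ε f1 f2 b g : R} {Q Q' : M₂ R}

theorem conj_sub_smul (F : StForm Sg Tu q ε f1 f2 b g Q Q') (M : M₂ R) (t : R) :
    Q * M * Q' - t • (1 : M₂ R) = Q * (M - t • (1 : M₂ R)) * Q' := by
  rw [mul_sub, sub_mul, Matrix.mul_smul, mul_one, Matrix.smul_mul, F.QQ']

theorem pow_sub_one (F : StForm Sg Tu q ε f1 f2 b g Q Q') (n : ℕ) :
    Tu ^ n - 1 = Q * !![0, (n : R) * b; (n : R) * g, 0] * Q' := by
  have e1 : Tu = 1 + (Tu - 1) := by abel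
  have e2 : Tu ^ n - 1 = (n : R) • (Tu - 1) := by
    conv_lhs => rw [e1]
    rw [one_add_pow_of_sq_zero _ F.unip n]
    abel
  have e3 : !![0, (n : R) * b; (n : R) * g, 0] = (n : R) • !![0, b; g, 0] := by
    ext i j
    fin_cases i <;> fin_cases j <;> simp
  rw [e2, F.tu_sub, e3, Matrix.mul_smul, Matrix.smul_mul]

theorem pow_eq (F : StForm Sg Tu q ε f1 f2 b g Q Q') (n : ℕ) :
    Tu ^ n = Q * !![1, (n : R) * b; (n : R) * g, 1] * Q' := by
  have e1 : Tu ^ n = 1 + (Tu ^ n - 1) := by abel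
  have e2 : !![1, (n : R) * b; (n : R) * g, 1] = 1 + !![0, (n : R) * b; (n : R) * g, 0] := by
    ext i j
    fin_cases i <;> fin_cases j <;> simp
  rw [e1, F.pow_sub_one, e2, mul_add, add_mul, mul_one, F.QQ']

theorem sg_mul_pow (F : StForm Sg Tu q ε f1 f2 b g Q Q') (n : ℕ) :
    Sg * Tu ^ n = Q * !![f1, f1 * ((n : R) * b); f2 * ((n : R) * g), f2] * Q' := by
  rw [F.pow_eq n]
  conv_lhs => rw [F.sg]
  rw [F.conj_mul]
  congr 2
  ext i j
  fin_cases i <;> fin_cases j <;> simp [Matrix.mul_apply, Fin.sum_univ_two]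

/-- the three Steinberg identities modulo `J ∋ c, g`. -/
theorem st3_entries (F : StForm Sg Tu q ε f1 f2 b g Q Q') (J : Ideal R)
    (hc : Sg.trace - ε * ((q : R) + 1) ∈ J) (hg : g ∈ J) (n n' : ℕ) :
    (∀ i j, ((Sg * Tu ^ n - (ε * q) • (1 : M₂ R)) * (Tu ^ n' - 1)) i j ∈ J) ∧
    (∀ i j, ((Tu ^ n' - 1) * (Sg * Tu ^ n - ε • (1 : M₂ R))) i j ∈ J) ∧
    (∀ i j, ((Sg * Tu ^ n - (ε * q) • (1 : M₂ R)) * (Sg * Tu ^ n - ε • (1 : M₂ R))) i j ∈ J) := by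
  have hJ : Ideal.span {Sg.trace - ε * ((q : R) + 1)} ≤ J :=
    (Ideal.span_singleton_le_iff_mem _).2 hc
  obtain ⟨u1, u2, u3⟩ := ut_entries J (d1 := f1) (d2 := f2) (x := f1 * ((n : R) * b))
    (z := f2 * ((n : R) * g)) (y := (n' : R) * b) (w := (n' : R) * g) (s := ε * q) (e := ε)
    (hJ F.m1) (hJ F.m2) (J.mul_mem_left _ (J.mul_mem_left _ hg)) (J.mul_mem_left _ hg)
  rw [F.sg_mul_pow n, F.pow_sub_one n', F.conj_sub_smul, F.conj_sub_smul, F.conj_mul, F.conj_mul,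
    F.conj_mul]
  exact ⟨conj_entries_mem J _ _ _ u1, conj_entries_mem J _ _ _ u2, conj_entries_mem J _ _ _ u3⟩

theorem conj_tu_sub (F : StForm Sg Tu q ε f1 f2 b g Q Q') : Q' * (Tu - 1) * Q = !![0, b; g, 0] := by
  rw [F.tu_sub]
  calc Q' * (Q * !![0, b; g, 0] * Q') * Q = (Q' * Q) * !![0, b; g, 0] * (Q' * Q) := by
        simp only [mul_assoc]
    _ = _ := by rw [F.Q'Q, one_mul, mul_one]

end StForm

end Mat

/-! ### the local datum -/

/-- a place `A ∣ q`, a Frobenius `φ`, a tame generator `τ`, and the Steinberg form of `(ρ φ, ρ τ)`. -/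
structure StData {R : Type} [CommRing R] (ρ : GQ →* M₂ R) (q : ℕ) (ε : ℤ)
    (A : ValuationSubring Qbar) (φ τ : GQ) (f1 f2 b g : R) (Q Q' : M₂ R) : Prop where
  hq : q.Prime
  hA : A.LiesOverPrime q
  frob : A.IsFrobeniusAt φ q
  mem : τ ∈ A.inertiaSubgroupIn ℚ
  gen : ∀ σ ∈ A.inertiaSubgroupIn ℚ, ∃ n : ℕ, ρ σ = ρ τ ^ n
  tors : ∃ N : ℕ, Nat.Coprime N q ∧ ∀ σ ∈ A.inertiaSubgroupIn ℚ, ρ σ ^ N = 1
  det : (ρ φ).det = (q : R)
  eps : ε * ε = 1
  form : StForm (ρ φ) (ρ τ) q (ε : R) f1 f2 b g Q Q'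

namespace StData

variable {R V : Type} [CommRing R] [AddCommGroup V] [Module R V] [DistribMulAction GQ V]
  {ρ : GQ →* M₂ R} {Φ : M₂ R →ₐ[R] Module.End R V}
  {q : ℕ} {ε : ℤ} {A : ValuationSubring Qbar} {φ τ : GQ} {f1 f2 b g : R} {Q Q' : M₂ R}

theorem exists_frob (D : StData ρ q ε A φ τ f1 f2 b g Q Q') {σ : GQ} (hσ : A.IsFrobeniusAt σ q) :
    ∃ n : ℕ, ρ σ = ρ φ * ρ τ ^ n := by
  obtain ⟨n, hn⟩ := D.gen _ (inv_mul_mem_inertia D.frob hσ)
  refine ⟨n, ?_⟩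
  rw [← hn, ← map_mul, mul_inv_cancel_left]

theorem gal_smul_comm (H : RhoAct ρ Φ) (s : GQ) (a : R) (x : V) : s • (a • x) = a • (s • x) := by
  rw [← H.act, ← H.act, map_smul]

/-- **(RS-out), pointwise** : `c y = 0`, `g y = 0` ⟹ the three Steinberg identities at `y`. -/
theorem st3 (H : RhoAct ρ Φ) (D : StData ρ q ε A φ τ f1 f2 b g Q Q') {y : V}
    (hc : ((ρ φ).trace - (ε : R) * ((q : R) + 1)) • y = 0) (hg : g • y = 0)
    {σ : GQ} (hσ : A.IsFrobeniusAt σ q) {τ' : GQ} (hτ' : τ' ∈ A.inertiaSubgroupIn ℚ) :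
    St3 q ε σ τ' y := by
  set J : Ideal R := LinearMap.ker (LinearMap.toSpanSingleton R V y) with hJ
  have mJ : ∀ a : R, a ∈ J ↔ a • y = 0 := fun a => by
    rw [hJ, LinearMap.mem_ker, LinearMap.toSpanSingleton_apply]
  obtain ⟨n, hn⟩ := D.exists_frob hσ
  obtain ⟨n', hn'⟩ := D.gen τ' hτ'
  obtain ⟨u1, u2, u3⟩ := D.form.st3_entries J ((mJ _).2 hc) ((mJ _).2 hg) n n'
  rw [← hn, ← hn'] at u1 u2
  rw [← hn] at u3
  have e : (ε : R) * (q : R) = ((ε * (q : ℤ) : ℤ) : R) := by push_cast; ring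
  have k1 := map_apply_eq_zero_of_entries Φ _ (x := y) fun i j => (mJ _).1 (u1 i j)
  have k2 := map_apply_eq_zero_of_entries Φ _ (x := y) fun i j => (mJ _).1 (u2 i j)
  have k3 := map_apply_eq_zero_of_entries Φ _ (x := y) fun i j => (mJ _).1 (u3 i j)
  have o : ρ τ' - 1 = ρ τ' - (1 : R) • (1 : M₂ R) := by rw [one_smul]
  rw [o, H.phi_sub_mul_sub, one_smul, e, StForm.intCast_smul', sub_eq_zero] at k1
  rw [o, H.phi_sub_mul_sub, one_smul, StForm.intCast_smul', sub_eq_zero] at k2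
  rw [H.phi_sub_mul_sub, e, StForm.intCast_smul', StForm.intCast_smul', sub_eq_zero] at k3
  exact ⟨k1, k2, k3⟩

/-- **(RS-out)** : `c, g` kill the Galois-stable set `Y` ⟹ `LocSt q ε Y`. -/
theorem locSt_of_ann (H : RhoAct ρ Φ) (D : StData ρ q ε A φ τ f1 f2 b g Q Q') {Y : Set V}
    (hY : ∀ s : GQ, ∀ y ∈ Y, s • y ∈ Y)
    (hc : ∀ y ∈ Y, ((ρ φ).trace - (ε : R) * ((q : R) + 1)) • y = 0) (hg : ∀ y ∈ Y, g • y = 0) :
    LocSt q ε Y :=
  locSt_all D.hq D.hA hY fun _ hσ _ hτ' y hy => D.st3 H (hc y hy) (hg y hy) hσ hτ'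

/-- **(RS-in)** : `LocSt q ε Y` ⟹ `c, g ∈ Ann Y`. -/
theorem ann_of_locSt (H : RhoAct ρ Φ) (hadj : Algebra.adjoin R (Set.range ρ) = ⊤)
    (D : StData ρ q ε A φ τ f1 f2 b g Q Q') (Y : Submodule R V)
    (hY : ∀ s : GQ, ∀ y ∈ Y, s • y ∈ Y) (h : LocSt q ε (Y : Set V)) :
    (ρ φ).trace - (ε : R) * ((q : R) + 1) ∈ Y.annihilator ∧ g ∈ Y.annihilator := by
  have hrel := relAt_of_locSt D.eps h D.hA D.frob
  refine ⟨Submodule.mem_annihilator.2 fun y hy => StForm.c_smul_eq_zero H D.det hrel hy,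
    Submodule.mem_annihilator.2 fun y hy =>
      D.form.g_smul_eq_zero H Y (H.phi_mem hadj Y hY) hrel D.mem hy⟩

/-- `LocUr q Y` ⟹ `b, g ∈ Ann Y`. -/
theorem ann_of_locUr (H : RhoAct ρ Φ) (hadj : Algebra.adjoin R (Set.range ρ) = ⊤)
    (D : StData ρ q ε A φ τ f1 f2 b g Q Q') (Y : Submodule R V)
    (hY : ∀ s : GQ, ∀ y ∈ Y, s • y ∈ Y) (h : LocUr q (Y : Set V)) :
    b ∈ Y.annihilator ∧ g ∈ Y.annihilator := by
  have hΦ := H.phi_mem hadj Y hY
  have h1 : ∀ y ∈ Y, Φ (Q' * (ρ τ - 1) * Q) y = 0 := by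
    intro y hy
    rw [map_mul, map_mul, Module.End.mul_apply, Module.End.mul_apply, H.phi_sub_one,
      h A D.hA τ D.mem _ (hΦ Q y hy), sub_self, map_zero]
  rw [D.form.conj_tu_sub] at h1
  refine ⟨Submodule.mem_annihilator.2 fun y hy => ?_, Submodule.mem_annihilator.2 fun y hy => ?_⟩
  · simpa using entry_smul_eq_zero Φ Y hΦ _ h1 0 1 hy
  · simpa using entry_smul_eq_zero Φ Y hΦ _ h1 1 0 hy

/-- inertia at `q` is unipotent on `V`. -/
theorem locUnip (H : RhoAct ρ Φ) (D : StData ρ q ε A φ τ f1 f2 b g Q Q') :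
    LocUnip q (Set.univ : Set V) := by
  refine locUnip_all D.hq D.hA (fun _ _ _ => Set.mem_univ _) fun τ₁ h₁ τ₂ h₂ x _ => ?_
  obtain ⟨n₁, e₁⟩ := D.gen τ₁ h₁
  obtain ⟨n₂, e₂⟩ := D.gen τ₂ h₂
  have h0 : (ρ τ₂ - 1) * (ρ τ₁ - 1) = 0 := by
    rw [e₁, e₂, D.form.pow_sub_one, D.form.pow_sub_one, D.form.conj_mul]
    have : !![0, (n₂ : R) * b; (n₂ : R) * g, 0] * !![0, (n₁ : R) * b; (n₁ : R) * g, 0]
        = (0 : M₂ R) := by
      have hbg := D.form.bg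
      have e1 : (n₂ : R) * b * ((n₁ : R) * g) = 0 := by
        rw [mul_mul_mul_comm, hbg, mul_zero]
      have e2 : (n₂ : R) * g * ((n₁ : R) * b) = 0 := by
        rw [mul_mul_mul_comm, mul_comm g b, hbg, mul_zero]
      ext i j
      fin_cases i <;> fin_cases j <;> simp [Matrix.mul_apply, Fin.sum_univ_two, e1, e2]
    rw [this, mul_zero, zero_mul]
  have h1 : Φ ((ρ τ₂ - 1) * (ρ τ₁ - 1)) x = 0 := by rw [h0, map_zero, LinearMap.zero_apply]
  rw [map_mul, Module.End.mul_apply, H.phi_sub_one, H.phi_sub_one, sub_eq_zero] at h1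
  exact h1

/-- **(RS-out)** on `β U`. -/
theorem locSt_smul (H : RhoAct ρ Φ) (D : StData ρ q ε A φ τ f1 f2 b g Q Q') (β : R) {U : Set V}
    (hU : ∀ s : GQ, ∀ x ∈ U, s • x ∈ U)
    (hβc : ∀ x ∈ U, (β * ((ρ φ).trace - (ε : R) * ((q : R) + 1))) • x = 0)
    (hβg : ∀ x ∈ U, (β * g) • x = 0) : LocSt q ε ((fun x => β • x) '' U) := by
  refine D.locSt_of_ann H ?_ ?_ ?_
  · rintro s _ ⟨x, hx, rfl⟩
    exact ⟨s • x, hU s x hx, (gal_smul_comm H s β x).symm⟩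
  · rintro _ ⟨x, hx, rfl⟩
    show _ • β • x = 0
    rw [smul_smul, mul_comm]
    exact hβc x hx
  · rintro _ ⟨x, hx, rfl⟩
    show g • β • x = 0
    rw [smul_smul, mul_comm]
    exact hβg x hx

/-- a prime raised at an EARLIER stage : `β ∈ (b)`. -/
theorem locSt_smul_of_dvd_b (H : RhoAct ρ Φ) (D : StData ρ q ε A φ τ f1 f2 b g Q Q') {β : R}
    (hβ : b ∣ β) {U : Set V} (hU : ∀ s : GQ, ∀ x ∈ U, s • x ∈ U) :
    LocSt q ε ((fun x => β • x) '' U) := by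
  obtain ⟨w, rfl⟩ := hβ
  refine D.locSt_smul H _ hU (fun x _ => ?_) fun x _ => ?_
  · rw [mul_right_comm, D.form.bc, zero_mul, zero_smul]
  · rw [mul_right_comm, D.form.bg, zero_mul, zero_smul]

theorem trace_smul_eq_trOp (H : RhoAct ρ Φ) (D : StData ρ q ε A φ τ f1 f2 b g Q Q') (x : V) :
    (ρ φ).trace • x = trOp q φ x := by
  rw [H.trace_smul, D.det, Nat.cast_smul_eq_nsmul]
  rfl

/-- `c c' = 0` where `(tr Φ)² = (q+1)²`. -/
theorem c_mul_c'_smul (H : RhoAct ρ Φ) (D : StData ρ q ε A φ τ f1 f2 b g Q Q') {x : V}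
    (hx : trOp q φ (trOp q φ x) = (q + 1) ^ 2 • x) :
    (((ρ φ).trace + (ε : R) * ((q : R) + 1)) * ((ρ φ).trace - (ε : R) * ((q : R) + 1))) • x = 0 := by
  have hε : (ε : R) * (ε : R) = 1 := by exact_mod_cast congrArg (Int.cast : ℤ → R) D.eps
  have e : ((ρ φ).trace + (ε : R) * ((q : R) + 1)) * ((ρ φ).trace - (ε : R) * ((q : R) + 1))
      = (ρ φ).trace * (ρ φ).trace - (((q + 1) ^ 2 : ℕ) : R) := by
    push_cast
    linear_combination (-((q : R) + 1) ^ 2) * hε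
  rw [e, sub_smul, mul_smul, D.trace_smul_eq_trOp H, D.trace_smul_eq_trOp H, hx,
    Nat.cast_smul_eq_nsmul, sub_self]

/-- the prime raised NOW : `β ∈ (c')`, and `(tr Φ)² = (q+1)²` on `U` (`ML.rel_last` on `ker Π_q`). -/
theorem locSt_smul_of_dvd_c' (H : RhoAct ρ Φ) (D : StData ρ q ε A φ τ f1 f2 b g Q Q') {β : R}
    (hβ : (ρ φ).trace + (ε : R) * ((q : R) + 1) ∣ β) {U : Set V}
    (hU : ∀ s : GQ, ∀ x ∈ U, s • x ∈ U)
    (hrel : ∀ x ∈ U, trOp q φ (trOp q φ x) = (q + 1) ^ 2 • x) :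
    LocSt q ε ((fun x => β • x) '' U) := by
  obtain ⟨w, rfl⟩ := hβ
  refine D.locSt_smul H _ hU (fun x hx => ?_) fun x _ => ?_
  · rw [mul_right_comm, mul_comm _ w, mul_smul, D.c_mul_c'_smul H (hrel x hx), smul_zero]
  · rw [mul_right_comm, mul_comm _ g, D.form.gc', zero_mul, zero_smul]

end StData

/-! ### (STRICT) -/

section Strict

variable {R V : Type} [CommRing R] [AddCommGroup V] [Module R V] [DistribMulAction GQ V]
  {ρ : GQ →* M₂ R} {Φ : M₂ R →ₐ[R] Module.End R V}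
  {v : Nat.Primes} {ε : ℤ} {φ τ : GQ} {f1 f2 b g : R} {Q Q' : M₂ R}

theorem StData.strict (D : StData ρ (v : ℕ) ε (primeLocalPlace v) φ τ f1 f2 b g Q Q')
    (hcont : GaloisFactorsThroughFiniteLevel ρ) (J : Ideal R)
    (hc : (ρ φ).trace - (ε : R) * (((v : ℕ) : R) + 1) ∈ J) (hb : b ∈ J) (hg : g ∈ J)
    {k : Type*} [CommRing k] (π0 : R →+* k) :
    ∃ M : M₂ R, IsUnit (M.map π0) ∧ ∀ σ ∈ decomp v, ConjConst ℤ J M (ρ σ) := by
  obtain ⟨N, hN, htors⟩ := D.tors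
  exact ⟨Q', D.form.isUnit_map π0, D.form.strict hcont v D.frob N hN htors D.gen J hc hb hg⟩

/-- `hstrict` of `GenHypMZ.of_act` at a RAISED prime : `LocSt` on `G`, `b ∈ I`. -/
theorem StData.strict_raised (H : RhoAct ρ Φ) (hadj : Algebra.adjoin R (Set.range ρ) = ⊤)
    (D : StData ρ (v : ℕ) ε (primeLocalPlace v) φ τ f1 f2 b g Q Q')
    (hcont : GaloisFactorsThroughFiniteLevel ρ) (G : Submodule R V)
    (hG : ∀ s : GQ, ∀ y ∈ G, s • y ∈ G) (h : LocSt (v : ℕ) ε (G : Set V)) (I : Ideal R)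
    (hb : b ∈ I) {k : Type*} [CommRing k] (π0 : R →+* k) :
    ∃ M : M₂ R, IsUnit (M.map π0) ∧ ∀ σ ∈ decomp v, ConjConst ℤ (G.annihilator ⊔ I) M (ρ σ) := by
  obtain ⟨h1, h2⟩ := D.ann_of_locSt H hadj G hG h
  exact D.strict hcont _ (Ideal.mem_sup_left h1) (Ideal.mem_sup_right hb) (Ideal.mem_sup_left h2) π0

/-- `hstrict` of `GenHypMZ.of_act` at an UNRAISED prime : `LocUr` on `G`, `c ∈ I`. -/
theorem StData.strict_unraised (H : RhoAct ρ Φ) (hadj : Algebra.adjoin R (Set.range ρ) = ⊤)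
    (D : StData ρ (v : ℕ) ε (primeLocalPlace v) φ τ f1 f2 b g Q Q')
    (hcont : GaloisFactorsThroughFiniteLevel ρ) (G : Submodule R V)
    (hG : ∀ s : GQ, ∀ y ∈ G, s • y ∈ G) (h : LocUr (v : ℕ) (G : Set V)) (I : Ideal R)
    (hc : (ρ φ).trace - (ε : R) * (((v : ℕ) : R) + 1) ∈ I) {k : Type*} [CommRing k]
    (π0 : R →+* k) :
    ∃ M : M₂ R, IsUnit (M.map π0) ∧ ∀ σ ∈ decomp v, ConjConst ℤ (G.annihilator ⊔ I) M (ρ σ) := by
  obtain ⟨h1, h2⟩ := D.ann_of_locUr H hadj G hG h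
  exact D.strict hcont _ (Ideal.mem_sup_right hc) (Ideal.mem_sup_left h1) (Ideal.mem_sup_left h2) π0

end Strict

/-! ### (c) existence -/

section Exists

variable {R V : Type} [CommRing R] [AddCommGroup V] [Module R V] [DistribMulAction GQ V]
  {ρ : GQ →* M₂ R} {Φ : M₂ R →ₐ[R] Module.End R V}

theorem exists_stData [IsLocalRing R] (H : RhoAct ρ Φ) (hcont : GaloisFactorsThroughFiniteLevel ρ)
    (hnil : ∀ z ∈ IsLocalRing.maximalIdeal R, IsNilpotent z)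
    {p : ℕ} (hp : p.Prime) {N : ℕ} (hpN : (p : R) ^ N = 0)
    {q : ℕ} (hq : q.Prime) (hqp : q ≠ p) {A : ValuationSubring Qbar} (hA : A.LiesOverPrime q)
    {φ : GQ} (hφ : A.IsFrobeniusAt φ q) {ε : ℤ} (hε : ε * ε = 1) (h2 : IsUnit (2 : R))
    (hqu : IsUnit (q : R)) (h1q : IsUnit (1 - (q : R))) (hdet : (ρ φ).det = (q : R))
    (hunip : ∀ σ ∈ A.inertiaSubgroupIn ℚ, ∀ x : V, σ • (σ • x - x) = σ • x - x)
    (htr : (ρ φ).trace - (ε : R) * ((q : R) + 1) ∈ IsLocalRing.maximalIdeal R) :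
    ∃ (τ : GQ) (f1 f2 b g : R) (Q Q' : M₂ R), StData ρ q ε A φ τ f1 f2 b g Q Q' := by
  have hI : (Ideal.span {(p : R)}) ^ N = ⊥ := by
    rw [Ideal.span_singleton_pow, hpN, Ideal.span_singleton_eq_bot]
  have hpI : ((p : ℕ) : R) ∈ Ideal.span {(p : R)} := Ideal.mem_span_singleton_self _
  have hsq : ∀ σ ∈ A.inertiaSubgroupIn ℚ, (ρ σ - 1) * (ρ σ - 1) = 0 := fun σ hσ =>
    H.sq_zero_of_unip (hunip σ hσ)
  have hun : ∀ σ ∈ A.inertiaSubgroupIn ℚ, ∀ i j, (ρ σ ^ (p ^ 1) - 1) i j ∈ Ideal.span {(p : R)} := by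
    intro σ hσ i j
    have e1 : ρ σ = 1 + (ρ σ - 1) := by abel
    have e2 : ρ σ ^ (p ^ 1) - 1 = (p : R) • (ρ σ - 1) := by
      rw [pow_one]
      conv_lhs => rw [e1]
      rw [one_add_pow_of_sq_zero _ (hsq σ hσ) p]
      abel
    rw [e2, Matrix.smul_apply, smul_eq_mul]
    exact Ideal.mul_mem_right _ _ hpI
  obtain ⟨τ, hτ, hgen⟩ := exists_tame_gen hp hq hqp hA hcont hI hpI 1 hun
  have hεR : (ε : R) * (ε : R) = 1 := by exact_mod_cast congrArg (Int.cast : ℤ → R) hε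
  obtain ⟨f1, f2, b, g, Q, Q', F⟩ := exists_stForm hnil (ρ φ) (ρ τ) q (ε : R) hεR h2 hqu h1q
    (tame_conj hp hq hqp hA hcont hI hpI 1 hun hφ hτ) (hsq τ hτ) hdet htr
  exact ⟨τ, f1, f2, b, g, Q, Q', hq, hA, hφ, hτ, hgen,
    ⟨p ^ (1 + N), Nat.Coprime.pow_left _ ((Nat.coprime_primes hp hq).2 (Ne.symm hqp)),
      fun σ hσ => pow_inertia_eq_one hI hpI 1 hun hσ⟩, hdet, hε, F⟩

/-- the same, with the residual conditions read in `ZMod p`. -/
theorem exists_stData' [IsLocalRing R] (H : RhoAct ρ Φ)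
    (hcont : GaloisFactorsThroughFiniteLevel ρ) {p : ℕ} [Fact p.Prime] (hp2 : p ≠ 2)
    (π0 : R →+* ZMod p) (hloc : ∀ a : R, π0 a ≠ 0 → IsUnit a)
    (hker : ∀ a : R, π0 a = 0 → IsNilpotent a)
    {q : ℕ} (hq : q.Prime) (hqp : q ≠ p) (hq1 : ¬ p ∣ q - 1) {A : ValuationSubring Qbar}
    (hA : A.LiesOverPrime q) {φ : GQ} (hφ : A.IsFrobeniusAt φ q) {ε : ℤ} (hε : ε * ε = 1)
    (hdet : (ρ φ).det = (q : R))
    (hunip : ∀ σ ∈ A.inertiaSubgroupIn ℚ, ∀ x : V, σ • (σ • x - x) = σ • x - x)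
    (htr : π0 (ρ φ).trace = (ε : ZMod p) * ((q : ZMod p) + 1)) :
    ∃ (τ : GQ) (f1 f2 b g : R) (Q Q' : M₂ R), StData ρ q ε A φ τ f1 f2 b g Q Q' := by
  have hp : p.Prime := Fact.out
  have hmax : ∀ a : R, a ∈ IsLocalRing.maximalIdeal R ↔ π0 a = 0 := by
    intro a
    rw [IsLocalRing.mem_maximalIdeal, mem_nonunits_iff]
    constructor
    · intro h
      by_contra h0
      exact h (hloc a h0)
    · intro h hu
      have := hu.map π0
      rw [h] at this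
      exact not_isUnit_zero this
  obtain ⟨N, hpN⟩ : IsNilpotent ((p : ℕ) : R) := hker _ (by rw [map_natCast, ZMod.natCast_self])
  refine exists_stData H hcont (fun z hz => hker z ((hmax z).1 hz)) hp hpN hq hqp hA hφ hε
    (hloc _ ?_) (hloc _ ?_) (hloc _ ?_) hdet hunip ((hmax _).2 ?_)
  · rw [map_ofNat]
    intro h
    have h' : ((2 : ℕ) : ZMod p) = 0 := by exact_mod_cast h
    rw [ZMod.natCast_eq_zero_iff] at h'
    exact hp2 ((Nat.prime_dvd_prime_iff_eq hp Nat.prime_two).1 h')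
  · rw [map_natCast]
    intro h
    rw [ZMod.natCast_eq_zero_iff] at h
    exact hqp ((Nat.prime_dvd_prime_iff_eq hp hq).1 h).symm
  · rw [map_sub, map_one, map_natCast]
    intro h
    apply hq1
    rw [← ZMod.natCast_eq_zero_iff, Nat.cast_sub hq.one_lt.le, Nat.cast_one]
    linear_combination -h
  · rw [map_sub, htr, map_mul, map_add, map_one, map_natCast, map_intCast, sub_self]

end Exists

end Fermat.Agent.ML.Raise
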