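import Fermat.Agent.ML.Raise.Rel

/-!
# ML / Raise / Semi : the local relations at a raising prime `q ≢ -1` mod `p`  (HARD, SEMI-HARD, and non-hard `q ≢ ± 1`)   (pure algebra)

`R` a commutative ring, `Sg = ρ(Φ)`, `N = ρ(τ) - 1`, `det Sg = q` a unit, `ε² = 1`, `c = tr Sg - ε (q + 1)`, `c' = tr Sg + ε (q + 1)` a UNIT.
INPUT (geometric, `ML/Raise/St2.lean`) : `(Sg² - q²) N = 0`.

* `sub_mul_eq_zero`  : `(Sg - ε q) N = 0`.
* `c_smul_eq_zero`   : `c N = 0`.
* `mul_sub_eq_zero`  : with the tame relation `Sg N = q N Sg` : `N (Sg - ε) = 0`.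
* `c_eq_zero_of_stein` (REL-LAST) : `(Sg² - 1)(Sg² - q²) = 0` ⟹ `c = 0`.
* `exists_companion` : `R` local, `Sg` not scalar modulo `m` ⟹ `Sg = Q [[ε q + c, 1], [ε c, ε]] Q'`.
* `exists_steinberg_form_semi` : moreover `ρ(τ) = Q [[1, b], [0, 1]] Q'`, `b c = 0`.
-/

set_option autoImplicit false

namespace Fermat.Agent.ML.Raise

open Matrix IsLocalRing

local notation "M₂" => Matrix (Fin 2) (Fin 2)

section Comm

variable {R : Type*} [CommRing R]

theorem cayley_two (X : M₂ R) : X * X = X.trace • X - X.det • (1 : M₂ R) := by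
  rw [Matrix.trace_fin_two, Matrix.det_fin_two]
  ext i j
  fin_cases i <;> fin_cases j <;> simp [Matrix.mul_apply, Fin.sum_univ_two] <;> ring

theorem det_add_smul_one (X : M₂ R) (a : R) :
    (X + a • (1 : M₂ R)).det = X.det + a * X.trace + a * a := by
  rw [Matrix.trace_fin_two, Matrix.det_fin_two, Matrix.det_fin_two]
  simp
  ring

theorem eq_zero_of_isUnit_det_mul {X Y : M₂ R} (hX : IsUnit X.det) (h : X * Y = 0) : Y = 0 :=
  ((Matrix.isUnit_iff_isUnit_det X).2 hX).mul_right_eq_zero.1 h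

variable (Sg N : M₂ R) (q ε : R)

theorem isUnit_det_add (hε : ε * ε = 1) (hdet : Sg.det = q) (hq : IsUnit q)
    (hc' : IsUnit (Sg.trace + ε * (q + 1))) : IsUnit (Sg + (ε * q) • (1 : M₂ R)).det := by
  have hεu : IsUnit ε := IsUnit.of_mul_eq_one _ hε
  have : (Sg + (ε * q) • (1 : M₂ R)).det = ε * q * (Sg.trace + ε * (q + 1)) := by
    rw [det_add_smul_one, hdet]
    linear_combination (-(q * q) - q) * hε + (q * q) * hε
  rw [this]
  exact (hεu.mul hq).mul hc'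

theorem isUnit_det_add' (hε : ε * ε = 1) (hdet : Sg.det = q)
    (hc' : IsUnit (Sg.trace + ε * (q + 1))) : IsUnit (Sg + ε • (1 : M₂ R)).det := by
  have hεu : IsUnit ε := IsUnit.of_mul_eq_one _ hε
  have : (Sg + ε • (1 : M₂ R)).det = ε * (Sg.trace + ε * (q + 1)) := by
    rw [det_add_smul_one, hdet]
    linear_combination (-q) * hε
  rw [this]
  exact hεu.mul hc'

theorem add_mul_sub (hε : ε * ε = 1) :
    (Sg + (ε * q) • (1 : M₂ R)) * (Sg - (ε * q) • (1 : M₂ R)) =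
      Sg * Sg - (q * q) • (1 : M₂ R) := by
  have e : (ε * q) * (ε * q) = q * q := by linear_combination (q * q) * hε
  rw [add_mul, mul_sub, mul_sub, Matrix.mul_smul, mul_one, Matrix.smul_mul, one_mul,
    Matrix.smul_mul, one_mul, smul_smul, e]
  abel

theorem add_mul_sub' (hε : ε * ε = 1) :
    (Sg + ε • (1 : M₂ R)) * (Sg - ε • (1 : M₂ R)) = Sg * Sg - 1 := by
  rw [add_mul, mul_sub, mul_sub, Matrix.mul_smul, mul_one, Matrix.smul_mul, one_mul,
    Matrix.smul_mul, one_mul, smul_smul, hε, one_smul]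
  abel

/-- Cayley-Hamilton : `(Sg - ε)(Sg - ε q) = c Sg`. -/
theorem sub_mul_sub (hε : ε * ε = 1) (hdet : Sg.det = q) :
    (Sg - ε • (1 : M₂ R)) * (Sg - (ε * q) • (1 : M₂ R)) = (Sg.trace - ε * (q + 1)) • Sg := by
  have e : ε * (ε * q) = q := by linear_combination q * hε
  rw [sub_mul, mul_sub, mul_sub, Matrix.mul_smul, mul_one, Matrix.smul_mul, one_mul,
    Matrix.smul_mul, one_mul, smul_smul, e, cayley_two, hdet, sub_smul, mul_add, add_smul, mul_one]
  abel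

/-- **(a)** `(Sg - ε q) N = 0`. -/
theorem sub_mul_eq_zero (hε : ε * ε = 1) (hdet : Sg.det = q) (hq : IsUnit q)
    (hc' : IsUnit (Sg.trace + ε * (q + 1)))
    (hst : (Sg * Sg - (q * q) • (1 : M₂ R)) * N = 0) : (Sg - (ε * q) • (1 : M₂ R)) * N = 0 := by
  refine eq_zero_of_isUnit_det_mul (isUnit_det_add Sg q ε hε hdet hq hc') ?_
  rw [← mul_assoc, add_mul_sub Sg q ε hε, hst]

/-- **(b)** `c N = 0`. -/
theorem c_smul_eq_zero (hε : ε * ε = 1) (hdet : Sg.det = q) (hq : IsUnit q)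
    (hc' : IsUnit (Sg.trace + ε * (q + 1)))
    (hst : (Sg * Sg - (q * q) • (1 : M₂ R)) * N = 0) : (Sg.trace - ε * (q + 1)) • N = 0 := by
  have h := sub_mul_eq_zero Sg N q ε hε hdet hq hc' hst
  refine eq_zero_of_isUnit_det_mul (X := Sg) (by rw [hdet]; exact hq) ?_
  rw [Matrix.mul_smul, ← Matrix.smul_mul, ← sub_mul_sub Sg q ε hε hdet, mul_assoc, h, mul_zero]

/-- **(c)** `N (Sg - ε) = 0`. -/
theorem mul_sub_eq_zero (hε : ε * ε = 1) (hdet : Sg.det = q) (hq : IsUnit q)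
    (hc' : IsUnit (Sg.trace + ε * (q + 1)))
    (hst : (Sg * Sg - (q * q) • (1 : M₂ R)) * N = 0) (htame : Sg * N = q • (N * Sg)) :
    N * (Sg - ε • (1 : M₂ R)) = 0 := by
  have h := sub_mul_eq_zero Sg N q ε hε hdet hq hc' hst
  rw [sub_mul, Matrix.smul_mul, one_mul, htame, sub_eq_zero, mul_comm ε q, mul_smul] at h
  obtain ⟨u, rfl⟩ := hq
  have h2 : N * Sg = ε • N := by
    have := congrArg (fun Y : M₂ R => ((u⁻¹ : Rˣ) : R) • Y) h
    simpa [smul_smul] using this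
  rw [mul_sub, h2, Matrix.mul_smul, mul_one, sub_self]

/-- **(REL-LAST)** for `c'` a unit. -/
theorem c_eq_zero_of_stein (hε : ε * ε = 1) (hdet : Sg.det = q) (hq : IsUnit q)
    (hc' : IsUnit (Sg.trace + ε * (q + 1)))
    (hst : (Sg * Sg - 1) * (Sg * Sg - (q * q) • (1 : M₂ R)) = 0) :
    Sg.trace - ε * (q + 1) = 0 := by
  rw [← add_mul_sub' Sg ε hε, ← add_mul_sub Sg q ε hε, mul_assoc] at hst
  have h1 := eq_zero_of_isUnit_det_mul (isUnit_det_add' Sg q ε hε hdet hc') hst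
  have hcomm : (Sg - ε • (1 : M₂ R)) * (Sg + (ε * q) • (1 : M₂ R)) =
      (Sg + (ε * q) • (1 : M₂ R)) * (Sg - ε • (1 : M₂ R)) := by
    have e : (ε * q) * ε = ε * (ε * q) := by ring
    rw [sub_mul, mul_add, add_mul, mul_sub, mul_sub, mul_add]
    simp only [Matrix.mul_smul, Matrix.smul_mul, mul_one, one_mul, smul_smul, e]
    abel
  rw [← mul_assoc, hcomm, mul_assoc] at h1
  have h2 := eq_zero_of_isUnit_det_mul (isUnit_det_add Sg q ε hε hdet hq hc') h1
  rw [sub_mul_sub Sg q ε hε hdet] at h2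
  have h3 : Sg * ((Sg.trace - ε * (q + 1)) • (1 : M₂ R)) = 0 := by
    rw [Matrix.mul_smul, mul_one, h2]
  have h4 := eq_zero_of_isUnit_det_mul (X := Sg) (by rw [hdet]; exact hq) h3
  have h5 := congrFun (congrFun h4 0) 0
  simpa using h5

/-- the companion identity, for any vector `(v0, v1)`. -/
theorem companion_mul (hε : ε * ε = 1) (hdet : Sg.det = q) (v0 v1 : R) :
    Sg * !![(Sg 0 0 - ε) * v0 + Sg 0 1 * v1, v0; Sg 1 0 * v0 + (Sg 1 1 - ε) * v1, v1] =
      !![(Sg 0 0 - ε) * v0 + Sg 0 1 * v1, v0; Sg 1 0 * v0 + (Sg 1 1 - ε) * v1, v1] *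
        !![ε * q + (Sg.trace - ε * (q + 1)), 1; ε * (Sg.trace - ε * (q + 1)), ε] := by
  rw [Matrix.det_fin_two] at hdet
  rw [Matrix.trace_fin_two]
  ext i j
  fin_cases i <;> fin_cases j <;>
    simp only [Matrix.mul_apply, Fin.sum_univ_two, Matrix.of_apply, Matrix.cons_val_zero,
      Matrix.cons_val_one, Matrix.cons_val', Matrix.cons_val_fin_one, Fin.zero_eta, Fin.mk_one,
      Fin.isValue]
  · linear_combination (-v0) * hdet + (v0 * q) * hε
  · ring
  · linear_combination (-v1) * hdet + (v1 * q) * hε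
  · ring

end Comm

section Local

variable {R : Type*} [CommRing R] [IsLocalRing R]

/-- the companion normal form of a matrix which is not scalar modulo the maximal ideal. -/
theorem exists_companion (Sg : M₂ R) (q ε : R) (hε : ε * ε = 1) (hdet : Sg.det = q)
    (hns : IsUnit (Sg 0 1) ∨ IsUnit (Sg 1 0) ∨ IsUnit (Sg 0 0 - Sg 1 1)) :
    ∃ Q Q' : M₂ R, Q * Q' = 1 ∧ Q' * Q = 1 ∧
      Sg = Q * !![ε * q + (Sg.trace - ε * (q + 1)), 1; ε * (Sg.trace - ε * (q + 1)), ε] * Q' := by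
  obtain ⟨v0, v1, hu⟩ : ∃ v0 v1 : R, IsUnit
      (!![(Sg 0 0 - ε) * v0 + Sg 0 1 * v1, v0; Sg 1 0 * v0 + (Sg 1 1 - ε) * v1, v1] : M₂ R).det := by
    by_cases h01 : IsUnit (Sg 0 1)
    · refine ⟨0, 1, ?_⟩
      rw [Matrix.det_fin_two_of]
      simpa using h01
    by_cases h10 : IsUnit (Sg 1 0)
    · refine ⟨1, 0, ?_⟩
      rw [Matrix.det_fin_two_of]
      simpa using h10
    have hd : IsUnit (Sg 0 0 - Sg 1 1) := by
      rcases hns with h | h | h
      · exact absurd h h01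
      · exact absurd h h10
      · exact h
    refine ⟨1, 1, ?_⟩
    rw [Matrix.det_fin_two_of]
    by_contra hnu
    have h1 : (Sg 0 0 - Sg 1 1) ∈ nonunits R := by
      have e : Sg 0 0 - Sg 1 1 = (((Sg 0 0 - ε) * 1 + Sg 0 1 * 1) * 1 -
          1 * (Sg 1 0 * 1 + (Sg 1 1 - ε) * 1)) + (Sg 1 0 + -Sg 0 1) := by ring
      rw [e]
      refine IsLocalRing.nonunits_add hnu (IsLocalRing.nonunits_add h10 ?_)
      rw [mem_nonunits_iff, IsUnit.neg_iff]
      exact h01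
    exact h1 hd
  set Q : M₂ R :=
    !![(Sg 0 0 - ε) * v0 + Sg 0 1 * v1, v0; Sg 1 0 * v0 + (Sg 1 1 - ε) * v1, v1] with hQ
  have hQQ' : Q * Q⁻¹ = 1 := Matrix.mul_nonsing_inv Q hu
  have hQ'Q : Q⁻¹ * Q = 1 := Matrix.nonsing_inv_mul Q hu
  refine ⟨Q, Q⁻¹, hQQ', hQ'Q, ?_⟩
  rw [← companion_mul Sg q ε hε hdet v0 v1, mul_assoc, hQQ', mul_one]

/-- **the packaged form at a prime `q ≢ -1` with `ρ̄(Φ)` not scalar** (semi-hard : `q ≡ 1`, `ρ̄(Φ) = ε (1 + N̄₀)`). -/
theorem exists_steinberg_form_semi (Sg Tu : M₂ R) (q ε : R) (hε : ε * ε = 1) (hq : IsUnit q)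
    (hdet : Sg.det = q) (hdetT : Tu.det = 1)
    (hns : IsUnit (Sg 0 1) ∨ IsUnit (Sg 1 0) ∨ IsUnit (Sg 0 0 - Sg 1 1))
    (hc' : IsUnit (Sg.trace + ε * (q + 1)))
    (hst : (Sg * Sg - (q * q) • (1 : M₂ R)) * (Tu - 1) = 0) :
    ∃ (b : R) (Q Q' : M₂ R), Q * Q' = 1 ∧ Q' * Q = 1 ∧
      Sg = Q * !![ε * q + (Sg.trace - ε * (q + 1)), 1; ε * (Sg.trace - ε * (q + 1)), ε] * Q' ∧
      Tu = Q * !![1, b; 0, 1] * Q' ∧ b * (Sg.trace - ε * (q + 1)) = 0 := by
  have hεu : IsUnit ε := IsUnit.of_mul_eq_one _ hε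
  obtain ⟨Q, Q', hQQ', hQ'Q, hSg⟩ := exists_companion Sg q ε hε hdet hns
  set c : R := Sg.trace - ε * (q + 1) with hc
  set C : M₂ R := !![ε * q + c, 1; ε * c, ε] with hC
  have h0 := sub_mul_eq_zero Sg (Tu - 1) q ε hε hdet hq hc' hst
  set N' : M₂ R := Q' * (Tu - 1) * Q with hN'
  have hCN : (C - (ε * q) • (1 : M₂ R)) * N' = 0 := by
    have e1 : C - (ε * q) • (1 : M₂ R) = Q' * (Sg - (ε * q) • (1 : M₂ R)) * Q := by
      rw [mul_sub, sub_mul, Matrix.mul_smul, mul_one, Matrix.smul_mul, hQ'Q, hSg]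
      congr 1
      calc C = (Q' * Q) * C * (Q' * Q) := by rw [hQ'Q, one_mul, mul_one]
        _ = Q' * (Q * C * Q') * Q := by simp only [mul_assoc]
    rw [e1, hN']
    calc Q' * (Sg - (ε * q) • (1 : M₂ R)) * Q * (Q' * (Tu - 1) * Q)
        = Q' * (Sg - (ε * q) • (1 : M₂ R)) * (Q * Q') * (Tu - 1) * Q := by simp only [mul_assoc]
      _ = Q' * ((Sg - (ε * q) • (1 : M₂ R)) * (Tu - 1)) * Q := by
          rw [hQQ', mul_one]; simp only [mul_assoc]
      _ = 0 := by rw [h0, mul_zero, zero_mul]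
  have a00 := congrFun (congrFun hCN 0) 0
  have a01 := congrFun (congrFun hCN 0) 1
  have a10 := congrFun (congrFun hCN 1) 0
  have a11 := congrFun (congrFun hCN 1) 1
  simp only [hC, Matrix.mul_apply, Fin.sum_univ_two, Matrix.sub_apply, Matrix.smul_apply,
    Matrix.one_apply_eq, Matrix.zero_apply, smul_eq_mul, mul_one, mul_zero, sub_zero,
    Matrix.one_apply_ne (show (0 : Fin 2) ≠ 1 by decide),
    Matrix.one_apply_ne (show (1 : Fin 2) ≠ 0 by decide), Matrix.of_apply, Matrix.cons_val_zero,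
    Matrix.cons_val_one, Matrix.cons_val', Matrix.cons_val_fin_one] at a00 a01 a10 a11
  have hu : IsUnit (ε * q) := hεu.mul hq
  have ca : c * N' 0 0 = 0 := by
    refine hu.mul_right_eq_zero.1 ?_
    linear_combination a10 - (ε - ε * q) * a00
  have cb : c * N' 0 1 = 0 := by
    refine hu.mul_right_eq_zero.1 ?_
    linear_combination a11 - (ε - ε * q) * a01
  have g0 : N' 1 0 = 0 := by linear_combination a00 - ca
  have d0 : N' 1 1 = 0 := by linear_combination a01 - cb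
  have hTu : Tu = Q * (1 + N') * Q' := by
    rw [hN', mul_add, mul_one, add_mul, hQQ']
    have : Q * (Q' * (Tu - 1) * Q) * Q' = (Q * Q') * (Tu - 1) * (Q * Q') := by
      simp only [mul_assoc]
    rw [this, hQQ', one_mul, mul_one]
    abel
  have hdet1 : (1 + N').det = 1 := by
    have h1 := congrArg Matrix.det hTu
    rw [Matrix.det_mul, Matrix.det_mul, hdetT] at h1
    have h2 : Q.det * Q'.det = 1 := by rw [← Matrix.det_mul, hQQ', Matrix.det_one]
    linear_combination (-1 : R) * h1 - (1 + N').det * h2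
  have a0 : N' 0 0 = 0 := by
    rw [Matrix.det_fin_two] at hdet1
    simp only [Matrix.add_apply, Matrix.one_apply_eq,
      Matrix.one_apply_ne (show (0 : Fin 2) ≠ 1 by decide),
      Matrix.one_apply_ne (show (1 : Fin 2) ≠ 0 by decide), g0, d0] at hdet1
    linear_combination hdet1
  refine ⟨N' 0 1, Q, Q', hQQ', hQ'Q, hSg, ?_, by rw [mul_comm]; exact cb⟩
  rw [hTu]
  congr 2
  ext i j
  fin_cases i <;> fin_cases j <;> simp [a0, g0, d0]

end Local

end Fermat.Agent.ML.Raise
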