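/-
ML / RAISE / RelSemi : the local relations at a SEMI-HARD prime (`q ≡ 1` mod `p`, `rbar0(Φ_q)` not scalar), in the vocabulary of
`ML/Main/Cell.lean` (`LocSt`, `LocUnip`, `LocUr`).   Companion of `ML/Raise/RelState.lean` (`StForm`, `q ≢ 1`).

`ρ(Φ) = Q [[ε q + c, 1], [ε c, ε]] Q'`, `ρ(τ) = Q [[1, b], [0, 1]] Q'`, `b c = 0`, `c = tr ρ(Φ) - ε (q+1)`.   (No variable `g`.)

* `SemiLoc.locSt / locUnip / locUr` : identities at ONE place on a Galois-stable set ⟹ `LocSt / LocUnip / LocUr`.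
* `SemiForm`, `exists_semiForm`; matrix identities `SemiForm.st1, st2, st3, un`.
* (STRICT) `SemiForm.conjConst_frob`, `conjConst_tame`, `strict`.
* `SemiData ρ v ε φ τ b Q Q'` (Frobenius, tame generator, form); `exists_semiData`.
* (RS-in)  `SemiData.c_smul_eq_zero` : `LocSt` on `Y` ⟹ `c Y = 0`;   `SemiData.b_smul_eq_zero` : `LocUr` on `Y` ⟹ `b Y = 0`.
* (RS-out) `SemiData.locSt` : `c Y = 0` ⟹ `LocSt`;  `SemiData.locUnip` (always);  `SemiData.locUr` : `b Y = 0` ⟹ `LocUr`;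
  `SemiData.locSt_smul_b`, `SemiData.locSt_of_sq`.
* `SemiData.strict_raised`, `SemiData.strict_unraised` : the field `strict` of `GenHypMZ` (hypothesis `hstrict` of `GenHypMZ.of_act`).
-/
import Fermat.Agent.ML.Raise.Semi
import Fermat.Agent.ML.Raise.RelState
import Fermat.Agent.ML.Raise.RelLast
import Fermat.Agent.ML.Main.Cell
import Fermat.Agent.ML.Gen.OfRho
import Fermat.Agent.ML.Rho.TameK
import Fermat.Agent.Common.PlaceBridge
import Fermat.Agent.S56.Asm.Places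

set_option autoImplicit false
set_option linter.unusedSectionVars false

noncomputable section

namespace Fermat.Agent.ML.Raise

open Matrix Fermat.Agent.RIB Fermat.Agent.ML Fermat.Agent.S56 ExtCitation
open CFT (decomp)
open scoped Pointwise

local notation "M₂" => Matrix (Fin 2) (Fin 2)
local notation "Qbar" => AlgebraicClosure ℚ

/-! ### one place ⟹ all places -/

namespace SemiLoc

variable {X : Type*} [AddCommGroup X] [DistribMulAction GQ X]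

theorem conj_smul (g s : GQ) (y : X) : (g⁻¹ * s * g) • (g⁻¹ • y) = g⁻¹ • (s • y) := by
  rw [mul_smul, mul_smul, smul_inv_smul]

theorem gz (g : GQ) (n : ℤ) (y : X) : g • (n • y) = n • g • y := smul_zsmul_comm' g n y

theorem locSt {q : ℕ} (hq : q.Prime) (ε : ℤ) {Y : Set X} (hY : ∀ g : GQ, ∀ y ∈ Y, g • y ∈ Y)
    (A : ValuationSubring Qbar) (hA : A.LiesOverPrime q)
    (h : ∀ σ : GQ, A.IsFrobeniusAt σ q → ∀ τ ∈ A.inertiaSubgroupIn ℚ, ∀ x ∈ Y,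
      σ • (τ • x - x) = (ε * q) • (τ • x - x) ∧ τ • (σ • x - ε • x) = σ • x - ε • x ∧
      σ • (σ • x - ε • x) = (ε * q) • (σ • x - ε • x)) : LocSt q ε Y := by
  intro A' hA' σ hσ τ hτ x hx
  obtain ⟨g, rfl⟩ := Bridge.exists_smul_eq hq hA hA'
  rw [Bridge.isFrobeniusAt_smul_iff hq hA] at hσ
  rw [Bridge.mem_inertia_smul_iff hq hA] at hτ
  obtain ⟨h1, h2, h3⟩ := h _ hσ _ hτ (g⁻¹ • x) (hY _ x hx)
  refine ⟨?_, ?_, ?_⟩
  · have := congrArg (fun y => g • y) h1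
    rw [conj_smul, ← smul_sub, conj_smul, gz, smul_inv_smul, smul_inv_smul] at this
    exact this
  · have := congrArg (fun y => g • y) h2
    rw [conj_smul, ← gz, ← smul_sub, conj_smul, smul_inv_smul, smul_inv_smul] at this
    exact this
  · have := congrArg (fun y => g • y) h3
    rw [conj_smul, ← gz, ← smul_sub, conj_smul, gz, smul_inv_smul, smul_inv_smul] at this
    exact this

theorem locUnip {q : ℕ} (hq : q.Prime) {Y : Set X} (hY : ∀ g : GQ, ∀ y ∈ Y, g • y ∈ Y)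
    (A : ValuationSubring Qbar) (hA : A.LiesOverPrime q)
    (h : ∀ τ ∈ A.inertiaSubgroupIn ℚ, ∀ τ' ∈ A.inertiaSubgroupIn ℚ, ∀ x ∈ Y,
      τ' • (τ • x - x) = τ • x - x) : LocUnip q Y := by
  intro A' hA' τ hτ τ' hτ' x hx
  obtain ⟨g, rfl⟩ := Bridge.exists_smul_eq hq hA hA'
  rw [Bridge.mem_inertia_smul_iff hq hA] at hτ hτ'
  have := congrArg (fun y => g • y) (h _ hτ _ hτ' (g⁻¹ • x) (hY _ x hx))
  rw [conj_smul, ← smul_sub, conj_smul, smul_inv_smul, smul_inv_smul] at this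
  exact this

theorem locUr {q : ℕ} (hq : q.Prime) {Y : Set X} (hY : ∀ g : GQ, ∀ y ∈ Y, g • y ∈ Y)
    (A : ValuationSubring Qbar) (hA : A.LiesOverPrime q)
    (h : ∀ τ ∈ A.inertiaSubgroupIn ℚ, ∀ x ∈ Y, τ • x = x) : LocUr q Y := by
  intro A' hA' τ hτ x hx
  obtain ⟨g, rfl⟩ := Bridge.exists_smul_eq hq hA hA'
  rw [Bridge.mem_inertia_smul_iff hq hA] at hτ
  have := congrArg (fun y => g • y) (h _ hτ (g⁻¹ • x) (hY _ x hx))
  rw [conj_smul, smul_inv_smul, smul_inv_smul] at this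
  exact this

end SemiLoc

/-! ### the semi-hard form -/

/-- the output of `exists_steinberg_form_semi`. -/
structure SemiForm {R : Type*} [CommRing R] (Sg Tu : M₂ R) (q : ℕ) (ε b : R) (Q Q' : M₂ R) :
    Prop where
  QQ' : Q * Q' = 1
  Q'Q : Q' * Q = 1
  sg : Sg = Q * !![ε * q + (Sg.trace - ε * ((q : R) + 1)), 1;
    ε * (Sg.trace - ε * ((q : R) + 1)), ε] * Q'
  tu : Tu = Q * !![1, b; 0, 1] * Q'
  bc : b * (Sg.trace - ε * ((q : R) + 1)) = 0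

theorem exists_semiForm {R : Type*} [CommRing R] [IsLocalRing R] (Sg Tu : M₂ R) (q : ℕ) (ε : R)
    (hε : ε * ε = 1) (hq : IsUnit (q : R)) (hdet : Sg.det = (q : R)) (hdetT : Tu.det = 1)
    (hns : IsUnit (Sg 0 1) ∨ IsUnit (Sg 1 0) ∨ IsUnit (Sg 0 0 - Sg 1 1))
    (hc' : IsUnit (Sg.trace + ε * ((q : R) + 1)))
    (hst : (Sg * Sg - ((q : R) * q) • (1 : M₂ R)) * (Tu - 1) = 0) :
    ∃ (b : R) (Q Q' : M₂ R), SemiForm Sg Tu q ε b Q Q' := by
  obtain ⟨b, Q, Q', h1, h2, h3, h4, h5⟩ :=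
    exists_steinberg_form_semi Sg Tu (q : R) ε hε hq hdet hdetT hns hc' hst
  exact ⟨b, Q, Q', h1, h2, h3, h4, h5⟩

/-- noncommutative bookkeeping. -/
theorem semi_alg {R : Type*} [CommRing R] {P P' N : M₂ R} (h1 : P * N = 0) (h2 : N * P' = 0)
    (h3 : N * N = 0) (κ n : R) :
    (P + κ • N) * (n • N) = 0 ∧ (n • N) * (P' + κ • N) = 0 ∧
      (P + κ • N) * (P' + κ • N) = P * P' := by
  refine ⟨?_, ?_, ?_⟩
  · rw [add_mul, mul_smul_comm, h1, smul_mul_assoc, mul_smul_comm, h3]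
    simp
  · rw [mul_add, smul_mul_assoc, h2, smul_mul_assoc, mul_smul_comm, h3]
    simp
  · rw [add_mul, mul_add, mul_add, mul_smul_comm, h1, smul_mul_assoc, h2, smul_mul_assoc,
      mul_smul_comm, h3]
    simp

namespace SemiForm

section Alg

variable {R : Type*} [CommRing R] {Sg Tu : M₂ R} {q : ℕ} {ε b : R} {Q Q' : M₂ R}

theorem conj_mul (F : SemiForm Sg Tu q ε b Q Q') (M N : M₂ R) :
    (Q * M * Q') * (Q * N * Q') = Q * (M * N) * Q' := by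
  calc (Q * M * Q') * (Q * N * Q') = Q * M * (Q' * Q) * N * Q' := by simp only [mul_assoc]
    _ = Q * (M * N) * Q' := by rw [F.Q'Q, mul_one]; simp only [mul_assoc]

theorem sg_sub (F : SemiForm Sg Tu q ε b Q Q') (t : R) :
    Sg - t • (1 : M₂ R) = Q * !![ε * q + (Sg.trace - ε * ((q : R) + 1)) - t, 1;
      ε * (Sg.trace - ε * ((q : R) + 1)), ε - t] * Q' := by
  have e : !![ε * q + (Sg.trace - ε * ((q : R) + 1)) - t, 1;
      ε * (Sg.trace - ε * ((q : R) + 1)), ε - t] =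
      !![ε * q + (Sg.trace - ε * ((q : R) + 1)), 1; ε * (Sg.trace - ε * ((q : R) + 1)), ε]
        - t • (1 : M₂ R) := by
    ext i j
    fin_cases i <;> fin_cases j <;> simp
  rw [e, mul_sub, sub_mul, ← F.sg, Matrix.mul_smul, mul_one, Matrix.smul_mul, F.QQ']

theorem tu_sub (F : SemiForm Sg Tu q ε b Q Q') : Tu - 1 = Q * !![0, b; 0, 0] * Q' := by
  have e : !![0, b; 0, 0] = !![1, b; 0, 1] - (1 : M₂ R) := by
    ext i j
    fin_cases i <;> fin_cases j <;> simp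
  rw [e, mul_sub, sub_mul, ← F.tu, mul_one, F.QQ']

/-- `(Sg - ε q) N = 0`. -/
theorem a1 (F : SemiForm Sg Tu q ε b Q Q') : (Sg - (ε * q) • (1 : M₂ R)) * (Tu - 1) = 0 := by
  rw [F.sg_sub, F.tu_sub, F.conj_mul]
  have hbc := F.bc
  have : !![ε * q + (Sg.trace - ε * ((q : R) + 1)) - ε * q, 1;
      ε * (Sg.trace - ε * ((q : R) + 1)), ε - ε * q] * !![0, b; 0, 0] = (0 : M₂ R) := by
    ext i j
    fin_cases i <;> fin_cases j <;> simp [Matrix.mul_apply, Fin.sum_univ_two]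
    · linear_combination hbc
    · linear_combination ε * hbc
  rw [this, mul_zero, zero_mul]

/-- `N (Sg - ε) = 0`. -/
theorem a2 (F : SemiForm Sg Tu q ε b Q Q') : (Tu - 1) * (Sg - ε • (1 : M₂ R)) = 0 := by
  rw [F.sg_sub, F.tu_sub, F.conj_mul]
  have hbc := F.bc
  have : !![0, b; 0, 0] * !![ε * q + (Sg.trace - ε * ((q : R) + 1)) - ε, 1;
      ε * (Sg.trace - ε * ((q : R) + 1)), ε - ε] = (0 : M₂ R) := by
    ext i j
    fin_cases i <;> fin_cases j <;> simp [Matrix.mul_apply, Fin.sum_univ_two]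
    linear_combination ε * hbc
  rw [this, mul_zero, zero_mul]

/-- `N² = 0`. -/
theorem a3 (F : SemiForm Sg Tu q ε b Q Q') : (Tu - 1) * (Tu - 1) = 0 := by
  rw [F.tu_sub, F.conj_mul]
  have : !![0, b; 0, 0] * !![0, b; 0, 0] = (0 : M₂ R) := by
    ext i j
    fin_cases i <;> fin_cases j <;> simp [Matrix.mul_apply, Fin.sum_univ_two]
  rw [this, mul_zero, zero_mul]

/-- `(Sg - ε q)(Sg - ε) = c Sg`. -/
theorem a4 (F : SemiForm Sg Tu q ε b Q Q') :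
    (Sg - (ε * q) • (1 : M₂ R)) * (Sg - ε • (1 : M₂ R)) =
      (Sg.trace - ε * ((q : R) + 1)) • Sg := by
  have hsg := F.sg
  rw [F.sg_sub, F.sg_sub, F.conj_mul]
  generalize Sg.trace - ε * ((q : R) + 1) = c at hsg ⊢
  rw [hsg, ← Matrix.smul_mul, ← Matrix.mul_smul]
  congr 2
  ext i j
  fin_cases i <;> fin_cases j <;> simp [Matrix.mul_apply, Fin.sum_univ_two] <;> ring

theorem tu_pow (F : SemiForm Sg Tu q ε b Q Q') (n : ℕ) : Tu ^ n = 1 + (n : R) • (Tu - 1) := by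
  have e1 : Tu = 1 + (Tu - 1) := by abel
  conv_lhs => rw [e1]
  exact one_add_pow_of_sq_zero _ F.a3 n

theorem tu_pow_sub (F : SemiForm Sg Tu q ε b Q Q') (n : ℕ) : Tu ^ n - 1 = (n : R) • (Tu - 1) := by
  rw [F.tu_pow]
  abel

theorem sg_mul_tu_pow (F : SemiForm Sg Tu q ε b Q Q') (k : ℕ) :
    Sg * Tu ^ k = Sg + ((k : R) * (ε * q)) • (Tu - 1) := by
  have h : Sg * (Tu - 1) = (ε * q) • (Tu - 1) := by
    have := F.a1
    rw [sub_mul, Matrix.smul_mul, one_mul, sub_eq_zero] at this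
    exact this
  rw [F.tu_pow, mul_add, mul_one, Matrix.mul_smul, h, smul_smul]

theorem st1 (F : SemiForm Sg Tu q ε b Q Q') (k n : ℕ) :
    (Sg * Tu ^ k - (ε * q) • (1 : M₂ R)) * (Tu ^ n - 1) = 0 := by
  rw [F.sg_mul_tu_pow, F.tu_pow_sub, add_sub_right_comm]
  exact (semi_alg F.a1 F.a2 F.a3 _ _).1

theorem st2 (F : SemiForm Sg Tu q ε b Q Q') (k n : ℕ) :
    (Tu ^ n - 1) * (Sg * Tu ^ k - ε • (1 : M₂ R)) = 0 := by
  rw [F.sg_mul_tu_pow, F.tu_pow_sub, add_sub_right_comm]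
  exact (semi_alg F.a1 F.a2 F.a3 _ _).2.1

theorem st3 (F : SemiForm Sg Tu q ε b Q Q') (k : ℕ) :
    (Sg * Tu ^ k - (ε * q) • (1 : M₂ R)) * (Sg * Tu ^ k - ε • (1 : M₂ R)) =
      (Sg.trace - ε * ((q : R) + 1)) • Sg := by
  rw [F.sg_mul_tu_pow, add_sub_right_comm, add_sub_right_comm,
    (semi_alg F.a1 F.a2 F.a3 _ (0 : R)).2.2, F.a4]

theorem un (F : SemiForm Sg Tu q ε b Q Q') (m n : ℕ) : (Tu ^ m - 1) * (Tu ^ n - 1) = 0 := by
  rw [F.tu_pow_sub, F.tu_pow_sub, smul_mul_assoc, mul_smul_comm, F.a3, smul_zero, smul_zero]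

theorem tu_pow_pow_eq_one (F : SemiForm Sg Tu q ε b Q Q') {m : ℕ} (hm : (m : R) = 0) (n : ℕ) :
    (Tu ^ n) ^ m = 1 := by
  rw [← pow_mul, F.tu_pow, Nat.cast_mul, hm, mul_zero, zero_smul, add_zero]

/-- `Q' (Tu - 1) Q = [[0,b],[0,0]]`. -/
theorem conj_tu_sub (F : SemiForm Sg Tu q ε b Q Q') : Q' * (Tu - 1) * Q = !![0, b; 0, 0] := by
  rw [F.tu_sub]
  calc Q' * (Q * !![0, b; 0, 0] * Q') * Q = (Q' * Q) * !![0, b; 0, 0] * (Q' * Q) := by
        simp only [mul_assoc]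
    _ = _ := by rw [F.Q'Q, one_mul, mul_one]

/-- `Tu - 1 = b • (Q E₀₁ Q')`. -/
theorem tu_sub_eq_smul (F : SemiForm Sg Tu q ε b Q Q') :
    Tu - 1 = b • (Q * !![0, 1; 0, 0] * Q') := by
  rw [F.tu_sub, ← Matrix.smul_mul, ← Matrix.mul_smul]
  congr 2
  ext i j
  fin_cases i <;> fin_cases j <;> simp

/-! ### (STRICT) -/

variable {Λ : Type} {A : Type} [CommRing Λ] [CommRing A] [Algebra Λ A]
  {Sa Ta : M₂ A} {εz : ℤ} {ba : A} {P P' : M₂ A}

theorem conjConst_frob (F : SemiForm Sa Ta q (εz : A) ba P P') (J : Ideal A)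
    (hc : Sa.trace - (εz : A) * ((q : A) + 1) ∈ J) : ConjConst Λ J P' Sa := by
  refine ⟨!![(εz : Λ) * q, 1; 0, (εz : Λ)], ?_⟩
  have e1 : P' * Sa = !![(εz : A) * q + (Sa.trace - (εz : A) * ((q : A) + 1)), 1;
      (εz : A) * (Sa.trace - (εz : A) * ((q : A) + 1)), (εz : A)] * P' := by
    conv_lhs => rw [F.sg]
    rw [← mul_assoc, ← mul_assoc, F.Q'Q, one_mul]
  have e2 : (!![(εz : Λ) * q, 1; 0, (εz : Λ)]).map (algebraMap Λ A)
      = !![(εz : A) * q, 1; 0, (εz : A)] := by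
    ext i j
    fin_cases i <;> fin_cases j <;> simp
  rw [e1, e2, ← sub_mul]
  refine mul_entries_mem J _ _ fun i k => ?_
  fin_cases i <;> fin_cases k
  · simpa using hc
  · simp
  · simpa using J.mul_mem_left _ hc
  · simp

theorem conjConst_tame (F : SemiForm Sa Ta q (εz : A) ba P P') (J : Ideal A)
    (hb : ba ∈ J) : ConjConst Λ J P' Ta := by
  refine ⟨1, ?_⟩
  have e1 : P' * Ta = !![1, ba; 0, 1] * P' := by
    rw [F.tu, ← mul_assoc, ← mul_assoc, F.Q'Q, one_mul]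
  have e2 : (1 : M₂ Λ).map (algebraMap Λ A) = 1 := map_one (algebraMap Λ A).mapMatrix
  rw [e1, e2, ← sub_mul]
  refine mul_entries_mem J _ _ fun i k => ?_
  fin_cases i <;> fin_cases k
  · simp
  · simpa using hb
  · simp
  · simp

theorem isUnit_map (F : SemiForm Sa Ta q (εz : A) ba P P') {k : Type*} [CommRing k]
    (π : A →+* k) : IsUnit (P'.map π) := by
  have h : π.mapMatrix P * π.mapMatrix P' = 1 := by rw [← map_mul, F.QQ', map_one]
  have h' : π.mapMatrix P' * π.mapMatrix P = 1 := by rw [← map_mul, F.Q'Q, map_one]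
  exact ⟨⟨π.mapMatrix P', π.mapMatrix P, h', h⟩, rfl⟩

/-- **(STRICT)** : modulo `J ∋ c, b` the restriction of `rA` to `D_v` is conjugate to a constant representation. -/
theorem strict {rA : GQ →* M₂ A} (hcont : GaloisFactorsThroughFiniteLevel rA) (v : Nat.Primes)
    {φ τ : GQ} (F : SemiForm (rA φ) (rA τ) v (εz : A) ba P P')
    (hφ : (primeLocalPlace v).IsFrobeniusAt φ (v : ℕ))
    (N : ℕ) (hN : Nat.Coprime N (v : ℕ)) (htors : ∀ σ ∈ inert v, rA σ ^ N = 1)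
    (hgen : ∀ σ ∈ inert v, ∃ n : ℕ, rA σ = rA τ ^ n)
    (J : Ideal A) (hc : (rA φ).trace - (εz : A) * (((v : ℕ) : A) + 1) ∈ J) (hb : ba ∈ J) :
    ∀ σ ∈ decomp v, ConjConst Λ J P' (rA σ) :=
  conjConst_of_gens hcont v N hN htors
    (fun σ hσ => by
      obtain ⟨n, hn⟩ := hgen σ hσ
      rw [hn]
      exact (F.conjConst_tame J hb).pow n)
    hφ (F.conjConst_frob J hc)

end Alg

end SemiForm

/-! ### the local data -/

/-- the local data of `ρ` at a semi-hard prime `v` : Frobenius `φ`, tame generator `τ`, normal form. -/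
structure SemiData {R : Type} [CommRing R] (ρ : GQ →* M₂ R) (v : Nat.Primes) (ε : ℤ) (φ τ : GQ)
    (b : R) (Q Q' : M₂ R) : Prop where
  frob : (primeLocalPlace v).IsFrobeniusAt φ (v : ℕ)
  tame : τ ∈ inert v
  gen : ∀ σ ∈ inert v, ∃ n : ℕ, ρ σ = ρ τ ^ n
  form : SemiForm (ρ φ) (ρ τ) v (ε : R) b Q Q'

section Act

variable {R V : Type} [CommRing R] [AddCommGroup V] [Module R V] [DistribMulAction GQ V]
  {ρ : GQ →* M₂ R} {Φ : M₂ R →ₐ[R] Module.End R V}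

theorem gal_smul_comm (H : RhoAct ρ Φ) (g : GQ) (a : R) (x : V) : g • (a • x) = a • g • x := by
  rw [← H.act, ← H.act, map_smul]

/-- `Φ ((ρ σ - 1)(ρ τ - t)) x`. -/
theorem phi_one_mul_sub (H : RhoAct ρ Φ) (σ τ : GQ) (t : R) (x : V) :
    Φ ((ρ σ - 1) * (ρ τ - t • (1 : M₂ R))) x = σ • (τ • x - t • x) - (τ • x - t • x) := by
  have h := H.phi_sub_mul_sub σ τ 1 t x
  rwa [one_smul, one_smul] at h

/-- `tr ρ(φ)² = (q+1)²` on `y` and `c'` a unit ⟹ `c y = 0`. -/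
theorem c_smul_eq_zero_of_sq (H : RhoAct ρ Φ) {q : ℕ} {ε : ℤ} (hε : ε * ε = 1) {φ : GQ}
    (hdet : (ρ φ).det = (q : R)) (hc' : IsUnit ((ρ φ).trace + (ε : R) * ((q : R) + 1))) {y : V}
    (hy : trOp q φ (trOp q φ y) = (q + 1) ^ 2 • y) :
    ((ρ φ).trace - (ε : R) * ((q : R) + 1)) • y = 0 := by
  have ht : ∀ x : V, trOp q φ x = (ρ φ).trace • x := by
    intro x
    rw [H.trace_smul, hdet, Nat.cast_smul_eq_nsmul]
    rfl
  rw [ht, ht, smul_smul] at hy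
  have hε' : (ε : R) * (ε : R) = 1 := by exact_mod_cast congrArg (Int.cast : ℤ → R) hε
  have e : ((ρ φ).trace + (ε : R) * ((q : R) + 1)) * ((ρ φ).trace - (ε : R) * ((q : R) + 1))
      = (ρ φ).trace * (ρ φ).trace - (((q + 1) ^ 2 : ℕ) : R) := by
    push_cast
    linear_combination (-((q : R) + 1) ^ 2) * hε'
  have h1 : (((ρ φ).trace + (ε : R) * ((q : R) + 1)) *
      ((ρ φ).trace - (ε : R) * ((q : R) + 1))) • y = 0 := by
    rw [e, sub_smul, hy, Nat.cast_smul_eq_nsmul, sub_self]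
  obtain ⟨u, hu⟩ := hc'
  rw [← hu, mul_smul] at h1
  have := congrArg (fun z => (↑u⁻¹ : R) • z) h1
  simpa [smul_smul] using this

end Act

namespace SemiData

variable {R V : Type} [CommRing R] [AddCommGroup V] [Module R V] [DistribMulAction GQ V]
  {ρ : GQ →* M₂ R} {Φ : M₂ R →ₐ[R] Module.End R V}
  {v : Nat.Primes} {ε : ℤ} {φ τ : GQ} {b : R} {Q Q' : M₂ R}

theorem frob_eq (D : SemiData ρ v ε φ τ b Q Q') {σ : GQ}
    (hσ : (primeLocalPlace v).IsFrobeniusAt σ (v : ℕ)) : ∃ k : ℕ, ρ σ = ρ φ * ρ τ ^ k := by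
  obtain ⟨k, hk⟩ := D.gen _ (Places.inv_mul_mem_inertia D.frob hσ)
  refine ⟨k, ?_⟩
  rw [← hk, ← map_mul, mul_inv_cancel_left]

theorem pow_eq_one (D : SemiData ρ v ε φ τ b Q Q') {m : ℕ} (hm : (m : R) = 0) :
    ∀ σ ∈ inert v, ρ σ ^ m = 1 := by
  intro σ hσ
  obtain ⟨n, hn⟩ := D.gen σ hσ
  rw [hn]
  exact D.form.tu_pow_pow_eq_one hm n

/-- the three Steinberg identities at the place `primeLocalPlace v`, on ALL of `V`, up to `c`. -/
theorem ident (D : SemiData ρ v ε φ τ b Q Q') (H : RhoAct ρ Φ) {σ τ' : GQ}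
    (hσ : (primeLocalPlace v).IsFrobeniusAt σ (v : ℕ)) (hτ' : τ' ∈ inert v) (x : V) :
    σ • (τ' • x - x) = (ε * ((v : ℕ) : ℤ)) • (τ' • x - x) ∧
    τ' • (σ • x - ε • x) = σ • x - ε • x ∧
    σ • (σ • x - ε • x) - (ε * ((v : ℕ) : ℤ)) • (σ • x - ε • x) =
      ((ρ φ).trace - (ε : R) * (((v : ℕ) : R) + 1)) • φ • x := by
  obtain ⟨k, hk⟩ := D.frob_eq hσ
  obtain ⟨n, hn⟩ := D.gen τ' hτ'
  have e : (ε : R) * ((v : ℕ) : R) = ((ε * ((v : ℕ) : ℤ) : ℤ) : R) := by push_cast; ring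
  refine ⟨?_, ?_, ?_⟩
  · have h := StForm.phi_key H ((ε : R) * ((v : ℕ) : R)) σ τ' x
    rw [hk, hn, D.form.st1, map_zero, LinearMap.zero_apply, e, Int.cast_smul_eq_zsmul] at h
    exact sub_eq_zero.1 h.symm
  · have h := phi_one_mul_sub H τ' σ (ε : R) x
    rw [hk, hn, D.form.st2, map_zero, LinearMap.zero_apply, Int.cast_smul_eq_zsmul] at h
    exact sub_eq_zero.1 h.symm
  · have h := H.phi_sub_mul_sub σ σ ((ε : R) * ((v : ℕ) : R)) (ε : R) x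
    rw [hk, D.form.st3, map_smul, LinearMap.smul_apply, H.act, e, Int.cast_smul_eq_zsmul,
      Int.cast_smul_eq_zsmul] at h
    exact h.symm

/-- **(RS-out)** `c Y = 0` ⟹ `LocSt`. -/
theorem locSt (D : SemiData ρ v ε φ τ b Q Q') (H : RhoAct ρ Φ) {Y : Set V}
    (hY : ∀ g : GQ, ∀ y ∈ Y, g • y ∈ Y)
    (hc : ∀ y ∈ Y, ((ρ φ).trace - (ε : R) * (((v : ℕ) : R) + 1)) • y = 0) :
    LocSt (v : ℕ) ε Y :=
  SemiLoc.locSt v.2 ε hY _ (CFT.LS.liesOverPrime_primeLocalPlace v) fun σ hσ τ' hτ' x hx => by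
    obtain ⟨h1, h2, h3⟩ := D.ident H hσ hτ' x
    refine ⟨h1, h2, ?_⟩
    rw [hc _ (hY φ x hx)] at h3
    exact sub_eq_zero.1 h3

/-- inertia at `v` is unipotent on all of `V`. -/
theorem locUnip (D : SemiData ρ v ε φ τ b Q Q') (H : RhoAct ρ Φ) (Y : Set V) :
    LocUnip (v : ℕ) Y := by
  have h : LocUnip (v : ℕ) (Set.univ : Set V) :=
    SemiLoc.locUnip v.2 (fun _ _ _ => trivial) _ (CFT.LS.liesOverPrime_primeLocalPlace v)
      fun τ₁ h₁ τ₂ h₂ x _ => by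
        obtain ⟨n, hn⟩ := D.gen τ₁ h₁
        obtain ⟨m, hm⟩ := D.gen τ₂ h₂
        have h := phi_one_mul_sub H τ₂ τ₁ 1 x
        rw [one_smul, one_smul, hm, hn, D.form.un, map_zero, LinearMap.zero_apply] at h
        exact sub_eq_zero.1 h.symm
  exact fun A hA τ₁ h₁ τ₂ h₂ x _ => h A hA τ₁ h₁ τ₂ h₂ x trivial

/-- `b Y = 0` ⟹ `LocUr`. -/
theorem locUr (D : SemiData ρ v ε φ τ b Q Q') (H : RhoAct ρ Φ) {Y : Set V}
    (hY : ∀ g : GQ, ∀ y ∈ Y, g • y ∈ Y) (hb : ∀ y ∈ Y, b • y = 0) : LocUr (v : ℕ) Y :=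
  SemiLoc.locUr v.2 hY _ (CFT.LS.liesOverPrime_primeLocalPlace v) fun τ' hτ' x hx => by
    obtain ⟨n, hn⟩ := D.gen τ' hτ'
    have h := H.phi_sub_one τ' x
    rw [hn, D.form.tu_pow_sub, D.form.tu_sub_eq_smul, map_smul, map_smul, LinearMap.smul_apply,
      LinearMap.smul_apply, ← map_smul, hb x hx, map_zero, smul_zero] at h
    exact sub_eq_zero.1 h.symm

/-- **(RS-in)** `LocSt` on `Y` ⟹ `c Y = 0`. -/
theorem c_smul_eq_zero (D : SemiData ρ v ε φ τ b Q Q') (H : RhoAct ρ Φ) {Y : Set V}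
    (hY : ∀ g : GQ, ∀ y ∈ Y, g • y ∈ Y) (h : LocSt (v : ℕ) ε Y) {y : V} (hy : y ∈ Y) :
    ((ρ φ).trace - (ε : R) * (((v : ℕ) : R) + 1)) • y = 0 := by
  have h3 := (D.ident H D.frob (one_mem _) (φ⁻¹ • y)).2.2
  rw [(h _ (CFT.LS.liesOverPrime_primeLocalPlace v) φ D.frob 1 (one_mem _) (φ⁻¹ • y)
    (hY _ y hy)).2.2, sub_self, smul_inv_smul] at h3
  exact h3.symm

theorem locSt_iff (D : SemiData ρ v ε φ τ b Q Q') (H : RhoAct ρ Φ) {Y : Set V}
    (hY : ∀ g : GQ, ∀ y ∈ Y, g • y ∈ Y) :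
    LocSt (v : ℕ) ε Y ↔ ∀ y ∈ Y, ((ρ φ).trace - (ε : R) * (((v : ℕ) : R) + 1)) • y = 0 :=
  ⟨fun h _ hy => D.c_smul_eq_zero H hY h hy, D.locSt H hY⟩

/-- **(RS-in)** `LocUr` on a `Φ`-stable submodule `Y` ⟹ `b Y = 0`. -/
theorem b_smul_eq_zero (D : SemiData ρ v ε φ τ b Q Q') (H : RhoAct ρ Φ) (Y : Submodule R V)
    (hY : ∀ (M : M₂ R), ∀ y ∈ Y, Φ M y ∈ Y) (h : LocUr (v : ℕ) (Y : Set V)) {y : V}
    (hy : y ∈ Y) : b • y = 0 := by
  have h1 : ∀ x ∈ Y, Φ (ρ τ - 1) x = 0 := fun x hx => by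
    rw [H.phi_sub_one, h _ (CFT.LS.liesOverPrime_primeLocalPlace v) τ D.tame x hx, sub_self]
  have h3 : ∀ x ∈ Y, Φ (Q' * (ρ τ - 1) * Q) x = 0 := by
    intro x hx
    rw [map_mul, map_mul, Module.End.mul_apply, Module.End.mul_apply, h1 _ (hY Q x hx), map_zero]
  have h4 := entry_smul_eq_zero Φ Y hY _ h3 0 1 hy
  rw [D.form.conj_tu_sub] at h4
  simpa using h4

/-- **(RS-out)** `β c Y = 0` ⟹ `LocSt` on `β Y`. -/
theorem locSt_smul (D : SemiData ρ v ε φ τ b Q Q') (H : RhoAct ρ Φ) {Y : Set V}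
    (hY : ∀ g : GQ, ∀ y ∈ Y, g • y ∈ Y) (β : R)
    (hβ : ∀ y ∈ Y, (β * ((ρ φ).trace - (ε : R) * (((v : ℕ) : R) + 1))) • y = 0) :
    LocSt (v : ℕ) ε ((fun x => β • x) '' Y) := by
  refine D.locSt H ?_ ?_
  · rintro g _ ⟨y, hy, rfl⟩
    exact ⟨g • y, hY g y hy, (gal_smul_comm H g β y).symm⟩
  · rintro _ ⟨y, hy, rfl⟩
    rw [smul_smul, mul_comm]
    exact hβ y hy

/-- **(RS-out)**, a prime raised before : `b ∣ β` ⟹ `LocSt` on `β Y`, for ANY Galois-stable `Y`. -/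
theorem locSt_smul_b (D : SemiData ρ v ε φ τ b Q Q') (H : RhoAct ρ Φ) {Y : Set V}
    (hY : ∀ g : GQ, ∀ y ∈ Y, g • y ∈ Y) {β : R} (hβ : b ∣ β) :
    LocSt (v : ℕ) ε ((fun x => β • x) '' Y) := by
  refine D.locSt_smul H hY β fun y _ => ?_
  obtain ⟨w, rfl⟩ := hβ
  rw [mul_right_comm, D.form.bc, zero_mul, zero_smul]

/-- **(RS-out)**, the prime raised now : `tr ρ(φ)² = (q+1)²` on `Y` (= `ML.rel_last` on `ker Π_q`), `c'` a unit ⟹ `LocSt` on `Y`. -/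
theorem locSt_of_sq (D : SemiData ρ v ε φ τ b Q Q') (H : RhoAct ρ Φ) (hε : ε * ε = 1)
    (hdet : (ρ φ).det = ((v : ℕ) : R))
    (hc' : IsUnit ((ρ φ).trace + (ε : R) * (((v : ℕ) : R) + 1))) {Y : Set V}
    (hY : ∀ g : GQ, ∀ y ∈ Y, g • y ∈ Y)
    (hsq : ∀ y ∈ Y, trOp (v : ℕ) φ (trOp (v : ℕ) φ y) = ((v : ℕ) + 1) ^ 2 • y) :
    LocSt (v : ℕ) ε Y :=
  D.locSt H hY fun y hy => c_smul_eq_zero_of_sq H hε hdet hc' (hsq y hy)

/-- the field `strict` of `GenHypMZ` at a RAISED semi-hard prime (variable `b`). -/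
theorem strict_raised (D : SemiData ρ v ε φ τ b Q Q') (H : RhoAct ρ Φ)
    (hcont : GaloisFactorsThroughFiniteLevel ρ) {m : ℕ} (hm : (m : R) = 0)
    (hmv : Nat.Coprime m (v : ℕ)) {k : Type*} [CommRing k] (π0 : R →+* k) (G : Submodule R V)
    (hG : ∀ g : GQ, ∀ x ∈ G, g • x ∈ G) (I : Ideal R) (hst : LocSt (v : ℕ) ε (G : Set V))
    (hb : b ∈ I) :
    ∃ M : M₂ R, IsUnit (M.map π0) ∧ ∀ σ ∈ decomp v, ConjConst ℤ (G.annihilator ⊔ I) M (ρ σ) :=
  ⟨Q', D.form.isUnit_map π0, D.form.strict hcont v D.frob m hmv (D.pow_eq_one hm) D.gen _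
    (Ideal.mem_sup_left (Submodule.mem_annihilator.2 fun _ hx => D.c_smul_eq_zero H hG hst hx))
    (Ideal.mem_sup_right hb)⟩

/-- the field `strict` of `GenHypMZ` at an UNRAISED semi-hard prime (variable `c`). -/
theorem strict_unraised (D : SemiData ρ v ε φ τ b Q Q') (H : RhoAct ρ Φ)
    (hcont : GaloisFactorsThroughFiniteLevel ρ) {m : ℕ} (hm : (m : R) = 0)
    (hmv : Nat.Coprime m (v : ℕ)) {k : Type*} [CommRing k] (π0 : R →+* k) (G : Submodule R V)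
    (hG : ∀ (M : M₂ R), ∀ y ∈ G, Φ M y ∈ G) (I : Ideal R) (hur : LocUr (v : ℕ) (G : Set V))
    (hc : (ρ φ).trace - (ε : R) * (((v : ℕ) : R) + 1) ∈ I) :
    ∃ M : M₂ R, IsUnit (M.map π0) ∧ ∀ σ ∈ decomp v, ConjConst ℤ (G.annihilator ⊔ I) M (ρ σ) :=
  ⟨Q', D.form.isUnit_map π0, D.form.strict hcont v D.frob m hmv (D.pow_eq_one hm) D.gen _
    (Ideal.mem_sup_right hc)
    (Ideal.mem_sup_left (Submodule.mem_annihilator.2 fun _ hx => D.b_smul_eq_zero H G hG hur hx))⟩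

end SemiData

/-! ### existence -/

/-- `π0 c' ≠ 0` when `tr rbar0(φ) = ε (q+1)`, `q ≢ -1`, `p` odd. -/
theorem pi0_c'_ne_zero {R : Type*} [CommRing R] {p : ℕ} [Fact p.Prime] (hp2 : p ≠ 2)
    (π0 : R →+* ZMod p) {q : ℕ} {ε : ℤ} (hε : ε * ε = 1) {t : R}
    (ht : π0 t = (ε : ZMod p) * ((q : ZMod p) + 1)) (hq : ((q : ZMod p) + 1) ≠ 0) :
    π0 (t + (ε : R) * ((q : R) + 1)) ≠ 0 := by
  have hε' : (ε : ZMod p) * (ε : ZMod p) = 1 := by
    exact_mod_cast congrArg (Int.cast : ℤ → ZMod p) hε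
  have h2 : (2 : ZMod p) ≠ 0 := by
    intro h
    have h' : ((2 : ℕ) : ZMod p) = 0 := by exact_mod_cast h
    rw [ZMod.natCast_eq_zero_iff] at h'
    exact hp2 ((Nat.prime_dvd_prime_iff_eq Fact.out Nat.prime_two).1 h')
  rw [map_add, map_mul, map_add, map_one, map_intCast, map_natCast, ht, ← two_mul]
  refine mul_ne_zero h2 (mul_ne_zero ?_ hq)
  intro h
  rw [h, mul_zero] at hε'
  exact zero_ne_one hε'

/-- **existence of the local data** at a prime `v ≠ p` at which `rbar0` is unramified with a NON SCALAR Frobenius, `c'` a unit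
(`v ≢ -1`) : from (St2) `(ρ(φ)² - v²)(ρ(σ) - 1) = 0` (helper2's `TopCtx.st2`). -/
theorem exists_semiData {R : Type} [CommRing R] [IsLocalRing R] {p : ℕ} (hp : p.Prime)
    (v : Nat.Primes) (hvp : (v : ℕ) ≠ p) {ρ : GQ →* M₂ R}
    (hcont : GaloisFactorsThroughFiniteLevel ρ) {π0 : R →+* ZMod p}
    (hloc : ∀ a : R, π0 a ≠ 0 → IsUnit a) {N : ℕ} (hnil : RingHom.ker π0 ^ N = ⊥)
    (hur : ∀ σ ∈ inert v, (ρ σ).map π0 = 1) (ε : ℤ) (hε : ε * ε = 1) {φ : GQ}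
    (hφ : (primeLocalPlace v).IsFrobeniusAt φ (v : ℕ)) (hdet : (ρ φ).det = ((v : ℕ) : R))
    (hdetI : ∀ σ ∈ inert v, (ρ σ).det = 1)
    (hns : ∀ c : ZMod p, (ρ φ).map π0 ≠ c • (1 : M₂ (ZMod p)))
    (hc' : π0 ((ρ φ).trace + (ε : R) * (((v : ℕ) : R) + 1)) ≠ 0)
    (hst : ∀ σ ∈ inert v,
      (ρ φ * ρ φ - ((((v : ℕ) ^ 2 : ℕ) : R)) • (1 : M₂ R)) * (ρ σ - 1) = 0) :
    ∃ (τ : GQ) (b : R) (Q Q' : M₂ R), SemiData ρ v ε φ τ b Q Q' := by
  have : Fact p.Prime := ⟨hp⟩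
  have hpI : ((p : ℕ) : R) ∈ RingHom.ker π0 := by
    rw [RingHom.mem_ker, map_natCast, ZMod.natCast_self]
  obtain ⟨τ, hτ, hgen⟩ := exists_tame_gen hp v.2 hvp (CFT.LS.liesOverPrime_primeLocalPlace v) hcont
    hnil hpI 0 (fun σ hσ i j => by
      rw [pow_zero, pow_one, RingHom.mem_ker, Matrix.sub_apply, map_sub]
      have h := congrFun (congrFun (hur σ hσ) i) j
      rw [Matrix.map_apply] at h
      rw [h]
      by_cases hij : i = j
      · subst hij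
        simp
      · simp [hij])
  have hq : IsUnit (((v : ℕ) : R)) := by
    refine hloc _ ?_
    rw [map_natCast, Ne, ZMod.natCast_eq_zero_iff]
    intro h
    exact hvp ((Nat.prime_dvd_prime_iff_eq hp v.2).1 h).symm
  have hns' : IsUnit (ρ φ 0 1) ∨ IsUnit (ρ φ 1 0) ∨ IsUnit (ρ φ 0 0 - ρ φ 1 1) := by
    by_contra hcon
    push_neg at hcon
    obtain ⟨h01, h10, hd⟩ := hcon
    have z01 : π0 (ρ φ 0 1) = 0 := by
      by_contra h
      exact h01 (hloc _ h)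
    have z10 : π0 (ρ φ 1 0) = 0 := by
      by_contra h
      exact h10 (hloc _ h)
    have zd : π0 (ρ φ 0 0 - ρ φ 1 1) = 0 := by
      by_contra h
      exact hd (hloc _ h)
    rw [map_sub, sub_eq_zero] at zd
    refine hns (π0 (ρ φ 0 0)) ?_
    ext i j
    fin_cases i <;> fin_cases j
    · simp
    · simpa using z01
    · simpa using z10
    · simpa using zd.symm
  have hε' : (ε : R) * (ε : R) = 1 := by exact_mod_cast congrArg (Int.cast : ℤ → R) hε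
  obtain ⟨b, Q, Q', F⟩ := exists_semiForm (ρ φ) (ρ τ) (v : ℕ) (ε : R) hε' hq hdet (hdetI τ hτ) hns'
    (hloc _ hc') (by
      have h := hst τ hτ
      rwa [Nat.cast_pow, sq] at h)
  exact ⟨τ, b, Q, Q', hφ, hτ, hgen, F⟩

/-- the same in the style of `exists_stData'` : the hypotheses are Galois identities on `V` and residual conditions in `ZMod p`. -/
theorem exists_semiData' {R V : Type} [CommRing R] [AddCommGroup V] [Module R V]
    [DistribMulAction GQ V] {ρ : GQ →* M₂ R} {Φ : M₂ R →ₐ[R] Module.End R V} [IsLocalRing R]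
    (H : RhoAct ρ Φ) (hcont : GaloisFactorsThroughFiniteLevel ρ) {p : ℕ} [Fact p.Prime]
    (hp2 : p ≠ 2) (π0 : R →+* ZMod p) (hloc : ∀ a : R, π0 a ≠ 0 → IsUnit a)
    (hker : ∀ a : R, π0 a = 0 → IsNilpotent a) (v : Nat.Primes) (hvp : (v : ℕ) ≠ p)
    (hv1 : ¬ p ∣ (v : ℕ) + 1) {φ : GQ} (hφ : (primeLocalPlace v).IsFrobeniusAt φ (v : ℕ))
    {ε : ℤ} (hε : ε * ε = 1) (hdet : (ρ φ).det = ((v : ℕ) : R))
    (hdetI : ∀ σ ∈ inert v, (ρ σ).det = 1)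
    (hunip : ∀ σ ∈ inert v, ∀ x : V, σ • (σ • x - x) = σ • x - x)
    (hst2 : ∀ σ ∈ inert v, ∀ x : V, φ • φ • (σ • x - x) = ((v : ℕ) ^ 2) • (σ • x - x))
    (htr : π0 (ρ φ).trace = (ε : ZMod p) * (((v : ℕ) : ZMod p) + 1))
    (hns : ∀ c : ZMod p, (ρ φ).map π0 ≠ c • (1 : M₂ (ZMod p))) :
    ∃ (τ : GQ) (b : R) (Q Q' : M₂ R), SemiData ρ v ε φ τ b Q Q' := by
  have hp : p.Prime := Fact.out
  obtain ⟨N, hpN⟩ : IsNilpotent ((p : ℕ) : R) := hker _ (by rw [map_natCast, ZMod.natCast_self])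
  have hI : (Ideal.span {(p : R)}) ^ N = ⊥ := by
    rw [Ideal.span_singleton_pow, hpN, Ideal.span_singleton_eq_bot]
  have hpI : ((p : ℕ) : R) ∈ Ideal.span {(p : R)} := Ideal.mem_span_singleton_self _
  have hsq : ∀ σ ∈ inert v, (ρ σ - 1) * (ρ σ - 1) = 0 := fun σ hσ =>
    H.sq_zero_of_unip (hunip σ hσ)
  have hun : ∀ σ ∈ inert v, ∀ i j, (ρ σ ^ (p ^ 1) - 1) i j ∈ Ideal.span {(p : R)} := by
    intro σ hσ i j
    have e1 : ρ σ = 1 + (ρ σ - 1) := by abel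
    have e2 : ρ σ ^ (p ^ 1) - 1 = (p : R) • (ρ σ - 1) := by
      rw [pow_one]
      conv_lhs => rw [e1]
      rw [one_add_pow_of_sq_zero _ (hsq σ hσ) p]
      abel
    rw [e2, Matrix.smul_apply, smul_eq_mul]
    exact Ideal.mul_mem_right _ _ hpI
  obtain ⟨τ, hτ, hgen⟩ := exists_tame_gen hp v.2 hvp (CFT.LS.liesOverPrime_primeLocalPlace v) hcont
    hI hpI 1 hun
  have hq : IsUnit (((v : ℕ) : R)) := by
    refine hloc _ ?_
    rw [map_natCast, Ne, ZMod.natCast_eq_zero_iff]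
    intro h
    exact hvp ((Nat.prime_dvd_prime_iff_eq hp v.2).1 h).symm
  have hns' : IsUnit (ρ φ 0 1) ∨ IsUnit (ρ φ 1 0) ∨ IsUnit (ρ φ 0 0 - ρ φ 1 1) := by
    by_contra hcon
    push_neg at hcon
    obtain ⟨h01, h10, hd⟩ := hcon
    have z01 : π0 (ρ φ 0 1) = 0 := by
      by_contra h
      exact h01 (hloc _ h)
    have z10 : π0 (ρ φ 1 0) = 0 := by
      by_contra h
      exact h10 (hloc _ h)
    have zd : π0 (ρ φ 0 0 - ρ φ 1 1) = 0 := by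
      by_contra h
      exact hd (hloc _ h)
    rw [map_sub, sub_eq_zero] at zd
    refine hns (π0 (ρ φ 0 0)) ?_
    ext i j
    fin_cases i <;> fin_cases j
    · simp
    · simpa using z01
    · simpa using z10
    · simpa using zd.symm
  have hε' : (ε : R) * (ε : R) = 1 := by exact_mod_cast congrArg (Int.cast : ℤ → R) hε
  have hv1' : (((v : ℕ) : ZMod p) + 1) ≠ 0 := by
    intro h
    apply hv1
    rw [← ZMod.natCast_eq_zero_iff]
    push_cast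
    exact h
  have hst : (ρ φ * ρ φ - (((v : ℕ) : R) * ((v : ℕ) : R)) • (1 : M₂ R)) * (ρ τ - 1) = 0 := by
    refine H.inj _ fun x => ?_
    have hw := hst2 τ hτ x
    rw [map_mul, Module.End.mul_apply, H.phi_sub_one]
    generalize τ • x - x = w at hw ⊢
    rw [map_sub, LinearMap.sub_apply, map_mul, Module.End.mul_apply, H.act, H.act,
      RhoAct.phi_smul_one, hw, ← sq, ← Nat.cast_pow, Nat.cast_smul_eq_nsmul, sub_self]
  obtain ⟨b, Q, Q', F⟩ := exists_semiForm (ρ φ) (ρ τ) (v : ℕ) (ε : R) hε' hq hdet (hdetI τ hτ) hns'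
    (hloc _ (pi0_c'_ne_zero hp2 π0 hε htr hv1')) hst
  exact ⟨τ, b, Q, Q', hφ, hτ, hgen, F⟩

end Fermat.Agent.ML.Raise
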