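/-
ML / RAISE / Soft : THE UNIFORM LOCAL RECORD AT A SOFT PRIME `v` (`v ≠ p`, `rbar0` unramified at `v`, `rbar0(Φ_v)` not scalar,
`tr rbar0(Φ_v) = ε (v+1)`).

The case split  `p ∤ v - 1` (`StData`, `ML/Raise/RelCell.lean`)  |  `p ∣ v - 1` (`SemiData`, `ML/Raise/RelSemi.lean`)  is done once, here.
`c = tr ρ(φ) - ε (v+1)`, `c' = tr ρ(φ) + ε (v+1)`;  the only visible parameter is the variable `b`.

* `SoftAt ρ Φ π0 v ε φ b`;   `exists_softAt`.
* `SoftAt.c'_smul` : `c x = 0 ⟹ c' x = 2 ε (v+1) x`.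
-/
import Fermat.Agent.ML.Raise.RelCell
import Fermat.Agent.ML.Raise.RelSemi

set_option autoImplicit false
set_option linter.unusedSectionVars false

noncomputable section

namespace Fermat.Agent.ML.Raise

open Matrix Fermat.Agent.RIB Fermat.Agent.ML Fermat.Agent.S56 ExtCitation
open CFT (decomp)

local notation "M₂" => Matrix (Fin 2) (Fin 2)

variable {R V : Type} [CommRing R] [AddCommGroup V] [Module R V] [DistribMulAction GQ V]

/-- the local record at a soft prime. -/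
structure SoftAt {p : ℕ} (ρ : GQ →* M₂ R) (Φ : M₂ R →ₐ[R] Module.End R V) (π0 : R →+* ZMod p)
    (v : Nat.Primes) (ε : ℤ) (φ : GQ) (b : R) : Prop where
  frob : (primeLocalPlace v).IsFrobeniusAt φ (v : ℕ)
  pi0_b : π0 b = 0
  pi0_c : π0 ((ρ φ).trace - (ε : R) * (((v : ℕ) : R) + 1)) = 0
  bc : b * ((ρ φ).trace - (ε : R) * (((v : ℕ) : R) + 1)) = 0
  /-- `hstrict` of `GenHypMZ.of_act` at a RAISED prime : variable `b`. -/
  strict_raised : ∀ G : Submodule R V, (∀ s : GQ, ∀ y ∈ G, s • y ∈ G) →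
    LocSt (v : ℕ) ε (G : Set V) → ∀ I : Ideal R, b ∈ I →
      ∃ M : M₂ R, IsUnit (M.map π0) ∧ ∀ σ ∈ decomp v, ConjConst ℤ (G.annihilator ⊔ I) M (ρ σ)
  /-- `hstrict` of `GenHypMZ.of_act` at an UNRAISED prime : variable `c`. -/
  strict_unraised : ∀ G : Submodule R V, (∀ s : GQ, ∀ y ∈ G, s • y ∈ G) →
    LocUr (v : ℕ) (G : Set V) → ∀ I : Ideal R,
      (ρ φ).trace - (ε : R) * (((v : ℕ) : R) + 1) ∈ I →
      ∃ M : M₂ R, IsUnit (M.map π0) ∧ ∀ σ ∈ decomp v, ConjConst ℤ (G.annihilator ⊔ I) M (ρ σ)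
  /-- (RS-out) a prime raised at an EARLIER stage. -/
  out_b : ∀ U : Set V, (∀ s : GQ, ∀ x ∈ U, s • x ∈ U) → ∀ β : R, b ∣ β →
    LocSt (v : ℕ) ε ((fun x => β • x) '' U)
  /-- (RS-out) the prime raised NOW. -/
  out_c' : ∀ U : Set V, (∀ s : GQ, ∀ x ∈ U, s • x ∈ U) → ∀ β : R,
    (ρ φ).trace + (ε : R) * (((v : ℕ) : R) + 1) ∣ β →
    (∀ x ∈ U, trOp (v : ℕ) φ (trOp (v : ℕ) φ x) = ((v : ℕ) + 1) ^ 2 • x) →
    LocSt (v : ℕ) ε ((fun x => β • x) '' U)
  unip : LocUnip (v : ℕ) (Set.univ : Set V)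
  /-- (RS-in) -/
  ann_c : ∀ G : Submodule R V, (∀ s : GQ, ∀ y ∈ G, s • y ∈ G) → LocSt (v : ℕ) ε (G : Set V) →
    (ρ φ).trace - (ε : R) * (((v : ℕ) : R) + 1) ∈ G.annihilator
  /-- (RS-in) -/
  ann_b : ∀ G : Submodule R V, (∀ s : GQ, ∀ y ∈ G, s • y ∈ G) → LocUr (v : ℕ) (G : Set V) →
    b ∈ G.annihilator

/-- `c x = 0 ⟹ c' x = 2 ε (v+1) x`. -/
theorem c'_smul_of_c_smul (t : R) (ε : ℤ) (q : ℕ) {x : V}
    (hx : (t - (ε : R) * ((q : R) + 1)) • x = 0) :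
    (t + (ε : R) * ((q : R) + 1)) • x = (2 * ε * ((q : ℤ) + 1)) • x := by
  have e : t + (ε : R) * ((q : R) + 1) =
      (t - (ε : R) * ((q : R) + 1)) + ((2 * ε * ((q : ℤ) + 1) : ℤ) : R) := by
    push_cast
    ring
  rw [e, add_smul, hx, zero_add, Int.cast_smul_eq_zsmul]

theorem SoftAt.c'_smul {p : ℕ} {ρ : GQ →* M₂ R} {Φ : M₂ R →ₐ[R] Module.End R V}
    {π0 : R →+* ZMod p} {v : Nat.Primes} {ε : ℤ} {φ : GQ} {b : R}
    (_S : SoftAt ρ Φ π0 v ε φ b) {x : V}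
    (hx : ((ρ φ).trace - (ε : R) * (((v : ℕ) : R) + 1)) • x = 0) :
    ((ρ φ).trace + (ε : R) * (((v : ℕ) : R) + 1)) • x = (2 * ε * (((v : ℕ) : ℤ) + 1)) • x :=
  c'_smul_of_c_smul _ ε _ hx

/-- an entry of `Q' (X - 1) Q` reduces to `0` when `X` reduces to `1`. -/
theorem pi0_conj_entry {k : Type*} [CommRing k] (π0 : R →+* k) {X Q Q' : M₂ R}
    (hX : X.map π0 = 1) (i j : Fin 2) : π0 ((Q' * (X - 1) * Q) i j) = 0 := by
  have h1 : π0.mapMatrix (Q' * (X - 1) * Q) = 0 := by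
    have hX' : π0.mapMatrix X = 1 := hX
    rw [map_mul, map_mul, map_sub, map_one, hX', sub_self, mul_zero, zero_mul]
  have h2 := congrFun (congrFun h1 i) j
  simpa using h2

/-- **existence of the record.** -/
theorem exists_softAt [IsLocalRing R] {ρ : GQ →* M₂ R} {Φ : M₂ R →ₐ[R] Module.End R V}
    (H : RhoAct ρ Φ) (hadj : Algebra.adjoin R (Set.range ρ) = ⊤)
    (hcont : GaloisFactorsThroughFiniteLevel ρ) {p : ℕ} [Fact p.Prime] (hp2 : p ≠ 2)
    (π0 : R →+* ZMod p) (hloc : ∀ a : R, π0 a ≠ 0 → IsUnit a)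
    (hker : ∀ a : R, π0 a = 0 → IsNilpotent a) (v : Nat.Primes) (hvp : (v : ℕ) ≠ p) {φ : GQ}
    (hφ : (primeLocalPlace v).IsFrobeniusAt φ (v : ℕ)) {ε : ℤ} (hε : ε * ε = 1)
    (hdet : (ρ φ).det = ((v : ℕ) : R)) (hdetI : ∀ σ ∈ inert v, (ρ σ).det = 1)
    (hur : ∀ σ ∈ inert v, (ρ σ).map π0 = 1)
    (hunip : ∀ σ ∈ inert v, ∀ x : V, σ • (σ • x - x) = σ • x - x)
    (hst2 : ∀ σ ∈ inert v, ∀ x : V, φ • φ • (σ • x - x) = ((v : ℕ) ^ 2) • (σ • x - x))
    (htr : π0 (ρ φ).trace = (ε : ZMod p) * (((v : ℕ) : ZMod p) + 1))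
    (hns : ∀ c : ZMod p, (ρ φ).map π0 ≠ c • (1 : M₂ (ZMod p))) :
    ∃ b : R, SoftAt ρ Φ π0 v ε φ b := by
  have hp : p.Prime := Fact.out
  have hc0 : π0 ((ρ φ).trace - (ε : R) * (((v : ℕ) : R) + 1)) = 0 := by
    rw [map_sub, htr, map_mul, map_add, map_one, map_natCast, map_intCast, sub_self]
  by_cases hv1 : p ∣ (v : ℕ) - 1
  · -- semi-hard
    have hv1' : ¬ p ∣ (v : ℕ) + 1 := by
      intro h
      have h2 : p ∣ 2 := by
        have := Nat.dvd_sub h hv1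
        have e : (v : ℕ) + 1 - ((v : ℕ) - 1) = 2 := by
          have := v.2.one_lt
          omega
        rwa [e] at this
      exact hp2 ((Nat.prime_dvd_prime_iff_eq hp Nat.prime_two).1 h2)
    obtain ⟨τ, b, Q, Q', D⟩ := exists_semiData' H hcont hp2 π0 hloc hker v hvp hv1' hφ hε hdet hdetI
      hunip hst2 htr hns
    obtain ⟨N, hpN⟩ : IsNilpotent ((p : ℕ) : R) :=
      hker _ (by rw [map_natCast, ZMod.natCast_self])
    have hm : ((p ^ N : ℕ) : R) = 0 := by rw [Nat.cast_pow, hpN]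
    have hmv : Nat.Coprime (p ^ N) (v : ℕ) :=
      Nat.Coprime.pow_left _ ((Nat.coprime_primes hp v.2).2 (Ne.symm hvp))
    have hv1'' : (((v : ℕ) : ZMod p) + 1) ≠ 0 := by
      intro h
      apply hv1'
      rw [← ZMod.natCast_eq_zero_iff]
      push_cast
      exact h
    have hc'u : IsUnit ((ρ φ).trace + (ε : R) * (((v : ℕ) : R) + 1)) :=
      hloc _ (pi0_c'_ne_zero hp2 π0 hε htr hv1'')
    refine ⟨b, hφ, ?_, hc0, D.form.bc, ?_, ?_, ?_, ?_, D.locUnip H _, ?_, ?_⟩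
    · have h := pi0_conj_entry π0 (Q := Q) (Q' := Q') (hur τ D.tame) 0 1
      rw [D.form.conj_tu_sub] at h
      simpa using h
    · exact fun G hG hst I hb => D.strict_raised H hcont hm hmv π0 G hG I hst hb
    · exact fun G hG hu I hc =>
        D.strict_unraised H hcont hm hmv π0 G (H.phi_mem hadj G hG) I hu hc
    · exact fun U hU β hβ => D.locSt_smul_b H hU hβ
    · intro U hU β _ hrel
      refine D.locSt_smul H hU β fun y hy => ?_
      rw [mul_smul, c_smul_eq_zero_of_sq H hε hdet hc'u (hrel y hy), smul_zero]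
    · exact fun G hG hst => Submodule.mem_annihilator.2 fun y hy => D.c_smul_eq_zero H hG hst hy
    · exact fun G hG hu => Submodule.mem_annihilator.2 fun y hy =>
        D.b_smul_eq_zero H G (H.phi_mem hadj G hG) hu hy
  · -- `v ≢ 1`
    obtain ⟨τ, f1, f2, b, g, Q, Q', D⟩ := exists_stData' H hcont hp2 π0 hloc hker v.2 hvp hv1
      (CFT.LS.liesOverPrime_primeLocalPlace v) hφ hε hdet hunip htr
    refine ⟨b, hφ, ?_, hc0, D.form.bc, ?_, ?_, ?_, ?_, D.locUnip H, ?_, ?_⟩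
    · have h := pi0_conj_entry π0 (Q := Q) (Q' := Q') (hur τ D.mem) 0 1
      rw [D.form.conj_tu_sub] at h
      simpa using h
    · exact fun G hG hst I hb => D.strict_raised H hadj hcont G hG hst I hb π0
    · exact fun G hG hu I hc => D.strict_unraised H hadj hcont G hG hu I hc π0
    · exact fun U hU β hβ => D.locSt_smul_of_dvd_b H hβ hU
    · exact fun U hU β hβ hrel => D.locSt_smul_of_dvd_c' H hβ hU hrel
    · exact fun G hG hst => (D.ann_of_locSt H hadj G hG hst).1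
    · exact fun G hG hu => (D.ann_of_locUr H hadj G hG hu).1

end Fermat.Agent.ML.Raise
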