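import Fermat.Agent.SS.Top35.Geo
import Fermat.Agent.SS.Top35.CompatF

/-!
# ML / Raise / [ST2] : `(σ² - q²)(τ - 1) = 0` on `J₀(M q)[p^∞]`    (`M` rigid, `q ∤ M`, `q ≠ p`)

`τ` in the inertia group at `A ∣ q`, `σ` a Frobenius lift at `A`.  `(τ - 1) x` is a toric class (`SS.isToric_smul_sub`), and `σ²` acts on the
toric classes of `p`-power order by `q²` (`SS.frob_sq_smul_of_isToric`).   A GROUP-ALGEBRA identity : it passes to `ρ`.
-/

set_option autoImplicit false
set_option linter.style.haveILetI false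
set_option linter.unusedSectionVars false

noncomputable section

open AlgebraicCurve ModularCurve IsLocalRing

namespace Fermat.Agent.ML

open Fermat.Agent.SS
open Fermat.Agent.RED hiding Kb
open Fermat.Agent.S24

/-- **[ST2]** -/
theorem st2 {M q : ℕ} [NeZero M] [hq : Fact q.Prime] (hqM : ¬ q ∣ M) (h49 : 4 ∣ M ∨ 9 ∣ M)
    {p : ℕ} (hp : p.Prime) (hpq : p ≠ q) (A : ValuationSubring Kb) (hA : A.LiesOverPrime q)
    {σ : GQ} (hσ : A.IsFrobeniusAt σ q) {τ : GQ} (hτ : τ ∈ A.inertiaSubgroupIn ℚ) (e : ℕ)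
    (x : JZero (M * q)) (hx : p ^ e • x = 0) :
    σ • σ • (τ • x - x) = q ^ 2 • (τ • x - x) := by
  haveI : IsAlgClosed (ResidueField A) := GalEq.isAlgClosed_residueField A
  haveI : CharP (ResidueField A) q := GalEq.charP_residueField hq.out hA
  obtain ⟨𝒩, hI, -⟩ := exists_nodalData_compat hqM A h49 hA
  have hm : p ^ e ≠ 0 := pow_ne_zero _ hp.ne_zero
  have ht := isToric_smul_sub 𝒩 (RB.isSepParam_jF (M * q)) hm (hI τ hτ) (y := x) hx
  have h1 := frob_sq_smul_of_isToric hqM A h49 hA hp hpq e hσ ht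
  have h3 : ∀ z : JZero (M * q), gal (M * q) (σ * σ) • z = σ • σ • z := by
    intro z
    rw [gal, map_mul, mul_smul]
    rfl
  rw [h3] at h1
  exact h1

end Fermat.Agent.ML
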