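/-
ML / RAISE / StTop : the instance of `RelCell.lean` on `Rho.IsRhoK` / `Lift.TopCtx`, in the shapes of `Lift.raise_step_abs`.

* `pi0_c_eq_zero` : `c` is not a unit as soon as ONE nonzero vector satisfies `φ w + q φ⁻¹ w = ε (q+1) w`;
* `StData.pi0_b_g` : `b`, `g` are in the maximal ideal if the residual representation is unramified at `q`;
* `ofVJ`, `locSt_out`, `locSt_out_b`, `locSt_out_c'`, `locUnip_out` : `LocSt`, `LocUnip` on a set `G' ⊆ J₀(L)` every element of which is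
  `β • x₁` with `x₁ ∈ U` (the conclusion of `raise_step_abs`);
* `locSt_in`, `locUr_in` : a condition on `G ⊆ J₀(N)` transported to the submodule `uA G × 0` of `V = X × Λ²`;
* `exists_stData_top` : existence of the local datum for `TopCtx` (`q ‖ N` or `q ∤ N`), `pi0_c_top`;
* `prod_smul_eq_of`, `c'_smul_eq` : the auxiliary point.
-/
import Fermat.Agent.ML.Raise.RelCell
import Fermat.Agent.ML.Main.Fin.Gen

set_option autoImplicit false
set_option linter.unusedSectionVars false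

noncomputable section

open ModularCurve

namespace Fermat.Agent.ML.Raise

open Matrix Fermat.Agent.RIB Fermat.Agent.ML Fermat.Agent.S56 ExtCitation Fermat.Agent.ML.Rho
  Fermat.Agent.ML.Lift Fermat.Agent.ML.ESide

local notation "M₂" => Matrix (Fin 2) (Fin 2)
local notation "Qbar" => AlgebraicClosure ℚ

/-! ### generic -/

section Generic

variable {R V : Type} [CommRing R] [AddCommGroup V] [Module R V] [DistribMulAction GQ V]
  {ρ : GQ →* M₂ R} {Φ : M₂ R →ₐ[R] Module.End R V}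

theorem pi0_c_eq_zero (H : RhoAct ρ Φ) {k : Type*} [CommRing k] (π0 : R →+* k)
    (hloc : ∀ a : R, π0 a ≠ 0 → IsUnit a) {q : ℕ} {ε : ℤ} {φ : GQ} (hdet : (ρ φ).det = (q : R))
    {w : V} (hw : w ≠ 0) (h : φ • w + q • φ⁻¹ • w = (ε * ((q : ℤ) + 1)) • w) :
    π0 ((ρ φ).trace - (ε : R) * ((q : R) + 1)) = 0 := by
  by_contra h0
  obtain ⟨u, hu⟩ := hloc _ h0
  have e : (ε : R) * ((q : R) + 1) = ((ε * ((q : ℤ) + 1) : ℤ) : R) := by push_cast; ring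
  have h1 : ((ρ φ).trace - (ε : R) * ((q : R) + 1)) • w = 0 := by
    rw [sub_smul, H.trace_smul, hdet, Nat.cast_smul_eq_nsmul, h, e, StForm.intCast_smul', sub_self]
  rw [← hu] at h1
  have h2 := congrArg (fun z => (↑u⁻¹ : R) • z) h1
  simp only [smul_smul, Units.inv_mul, one_smul, smul_zero] at h2
  exact hw h2

theorem StData.pi0_b_g {q : ℕ} {ε : ℤ} {A : ValuationSubring Qbar} {φ τ : GQ} {f1 f2 b g : R}
    {Q Q' : M₂ R} (D : StData ρ q ε A φ τ f1 f2 b g Q Q') {k : Type*} [CommRing k] (π0 : R →+* k)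
    (hur : (ρ τ).map π0 = 1) : π0 b = 0 ∧ π0 g = 0 := by
  have h1 : π0.mapMatrix (Q' * (ρ τ - 1) * Q) = 0 := by
    have : π0.mapMatrix (ρ τ) = 1 := hur
    rw [map_mul, map_mul, map_sub, map_one, this, sub_self, mul_zero, zero_mul]
  rw [D.form.conj_tu_sub] at h1
  have h01 := congrFun (congrFun h1 0) 1
  have h10 := congrFun (congrFun h1 1) 0
  exact ⟨by simpa using h01, by simpa using h10⟩

/-- the auxiliary point : a product of multipliers. -/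
theorem prod_smul_eq_of {ι : Type*} (s : Finset ι) (μ : ι → R) (n : ι → ℤ) (x : V)
    (h : ∀ i ∈ s, μ i • x = n i • x) : (∏ i ∈ s, μ i) • x = (∏ i ∈ s, n i) • x := by
  classical
  induction s using Finset.induction_on with
  | empty => simp
  | insert i s hi ih =>
    rw [Finset.prod_insert hi, Finset.prod_insert hi, mul_smul,
      ih fun j hj => h j (Finset.mem_insert_of_mem hj), smul_comm, h i (Finset.mem_insert_self i s),
      smul_smul, mul_comm]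

/-- `c x = 0 ⟹ c' x = 2 ε (q+1) x`. -/
theorem c'_smul_eq (t : R) (q : ℕ) (ε : ℤ) {x : V} (h : (t - (ε : R) * ((q : R) + 1)) • x = 0) :
    (t + (ε : R) * ((q : R) + 1)) • x = (2 * ε * ((q : ℤ) + 1)) • x := by
  have e : t + (ε : R) * ((q : R) + 1)
      = (t - (ε : R) * ((q : R) + 1)) + ((2 * ε * ((q : ℤ) + 1) : ℤ) : R) := by
    push_cast; ring
  rw [e, add_smul, h, zero_add, StForm.intCast_smul']

end Generic

/-! ### `V = X × Λ²` -/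

section VJ

variable {L m : ℕ} [NeZero L] [NeZero m] {R : Type} [CommRing R] [Algebra (ZMod m) R]
  {X : AddSubgroup (JZero L)} [Module R ↥X] {rE : GQ →* M₂ (ZMod m)}
  {πE : R →ₐ[ZMod m] ZMod m} {ρ : GQ →* M₂ R} {Φ : M₂ R →ₐ[R] Module.End R ↥X}

variable (X rE πE ρ Φ) in
/-- the projection `V = X × Λ² → J₀(L)`. -/
def ofVJ : VJ X rE πE ρ Φ →+ JZero L :=
  (XJ.incl X ρ Φ).comp (AddMonoidHom.fst (XJ X ρ Φ) (EMJ rE πE))

theorem ofVJ_apply (v : VJ X rE πE ρ Φ) : ofVJ X rE πE ρ Φ v = XJ.incl X ρ Φ v.1 := rfl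

variable (rE πE ρ Φ) in
/-- the part `{(x, 0) | x ∈ U}` of `V`. -/
def liftSet (U : Set (JZero L)) : Set (VJ X rE πE ρ Φ) :=
  {v | v.2 = 0 ∧ XJ.incl X ρ Φ v.1 ∈ U}

variable (H : Fermat.Agent.ML.Rho.IsRhoK L m X rE πE ρ Φ)

include H

theorem ofVJ_gal (s : GQ) (v : VJ X rE πE ρ Φ) :
    ofVJ X rE πE ρ Φ (s • v) = s • ofVJ X rE πE ρ Φ v := H.coe_gal s v.1

theorem liftSet_gal {U : Set (JZero L)} (hU : ∀ s : GQ, ∀ x ∈ U, s • x ∈ U) (s : GQ)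
    (v : VJ X rE πE ρ Φ) (hv : v ∈ liftSet rE πE ρ Φ U) : s • v ∈ liftSet rE πE ρ Φ U := by
  refine ⟨?_, ?_⟩
  · show s • v.2 = 0
    rw [hv.1, smul_zero]
  · show XJ.incl X ρ Φ (s • v.1) ∈ U
    rw [H.coe_gal]
    exact hU s _ hv.2

omit H in
theorem smul_eq_zero_of_liftSet {U : Set (JZero L)} {a : R}
    (ha : ∀ x : ↥X, (x : JZero L) ∈ U → a • x = 0) (v : VJ X rE πE ρ Φ)
    (hv : v ∈ liftSet rE πE ρ Φ U) : a • v = 0 := by
  refine Prod.ext ?_ ?_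
  · exact ha (v.1 : ↥X) hv.2
  · show a • v.2 = 0
    rw [hv.1, smul_zero]

omit H in
theorem subset_image_liftSet {U : Set (JZero L)} {β : R} {G' : Set (JZero L)}
    (hG' : ∀ x ∈ G', ∃ x₁ : ↥X, (x₁ : JZero L) ∈ U ∧ ((β • x₁ : ↥X) : JZero L) = x) :
    G' ⊆ ofVJ X rE πE ρ Φ '' ((fun v => β • v) '' liftSet rE πE ρ Φ U) := by
  intro x hx
  obtain ⟨x₁, h1, h2⟩ := hG' x hx
  exact ⟨β • ((x₁ : XJ X ρ Φ), (0 : EMJ rE πE)),
    ⟨((x₁ : XJ X ρ Φ), (0 : EMJ rE πE)), ⟨rfl, h1⟩, rfl⟩, h2⟩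

variable {q : ℕ} {ε : ℤ} {A : ValuationSubring Qbar} {φ τ : GQ} {f1 f2 b g : R} {Q Q' : M₂ R}

/-- **(RS-out)** in the shape of `raise_step_abs`. -/
theorem locSt_out (D : StData ρ q ε A φ τ f1 f2 b g Q Q') (β : R) {U : Set (JZero L)}
    (hU : ∀ s : GQ, ∀ x ∈ U, s • x ∈ U)
    (hβc : ∀ x : ↥X, (x : JZero L) ∈ U → (β * ((ρ φ).trace - (ε : R) * ((q : R) + 1))) • x = 0)
    (hβg : ∀ x : ↥X, (x : JZero L) ∈ U → (β * g) • x = 0) {G' : Set (JZero L)}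
    (hG' : ∀ x ∈ G', ∃ x₁ : ↥X, (x₁ : JZero L) ∈ U ∧ ((β • x₁ : ↥X) : JZero L) = x) :
    LocSt q ε G' :=
  locSt_mono (locSt_map (ofVJ X rE πE ρ Φ) (ofVJ_gal H)
    (D.locSt_smul H.rhoAct β (liftSet_gal H hU) (smul_eq_zero_of_liftSet hβc)
      (smul_eq_zero_of_liftSet hβg))) (subset_image_liftSet hG')

/-- a prime raised at an EARLIER stage. -/
theorem locSt_out_b (D : StData ρ q ε A φ τ f1 f2 b g Q Q') {β : R} (hβ : b ∣ β)
    {U : Set (JZero L)} (hU : ∀ s : GQ, ∀ x ∈ U, s • x ∈ U) {G' : Set (JZero L)}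
    (hG' : ∀ x ∈ G', ∃ x₁ : ↥X, (x₁ : JZero L) ∈ U ∧ ((β • x₁ : ↥X) : JZero L) = x) :
    LocSt q ε G' :=
  locSt_mono (locSt_map (ofVJ X rE πE ρ Φ) (ofVJ_gal H)
    (D.locSt_smul_of_dvd_b H.rhoAct hβ (liftSet_gal H hU))) (subset_image_liftSet hG')

theorem trOp_liftSet {U : Set (JZero L)}
    (hrel : ∀ x ∈ U, trOp q φ (trOp q φ x) = (q + 1) ^ 2 • x) (v : VJ X rE πE ρ Φ)
    (hv : v ∈ liftSet rE πE ρ Φ U) : trOp q φ (trOp q φ v) = (q + 1) ^ 2 • v := by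
  have e : ∀ a : XJ X ρ Φ, XJ.incl X ρ Φ (trOp q φ a) = trOp q φ (XJ.incl X ρ Φ a) := by
    intro a
    unfold trOp
    rw [map_add, map_nsmul, H.coe_gal, H.coe_gal]
  refine H.ext_VJ ?_ ?_
  · show XJ.incl X ρ Φ (trOp q φ (trOp q φ v.1)) = XJ.incl X ρ Φ ((q + 1) ^ 2 • v.1)
    rw [e, e, hrel _ hv.2, map_nsmul]
  · show trOp q φ (trOp q φ v.2) = (q + 1) ^ 2 • v.2
    rw [hv.1]
    simp [trOp]

/-- the prime raised NOW : `hrel` is `ML.rel_last` on `ker Π_q`. -/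
theorem locSt_out_c' (D : StData ρ q ε A φ τ f1 f2 b g Q Q') {β : R}
    (hβ : (ρ φ).trace + (ε : R) * ((q : R) + 1) ∣ β) {U : Set (JZero L)}
    (hU : ∀ s : GQ, ∀ x ∈ U, s • x ∈ U)
    (hrel : ∀ x ∈ U, trOp q φ (trOp q φ x) = (q + 1) ^ 2 • x) {G' : Set (JZero L)}
    (hG' : ∀ x ∈ G', ∃ x₁ : ↥X, (x₁ : JZero L) ∈ U ∧ ((β • x₁ : ↥X) : JZero L) = x) :
    LocSt q ε G' :=
  locSt_mono (locSt_map (ofVJ X rE πE ρ Φ) (ofVJ_gal H)
    (D.locSt_smul_of_dvd_c' H.rhoAct hβ (liftSet_gal H hU) (trOp_liftSet H hrel)))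
    (subset_image_liftSet hG')

/-- inertia at `q` is unipotent on `X`. -/
theorem locUnip_out (D : StData ρ q ε A φ τ f1 f2 b g Q Q') : LocUnip q (X : Set (JZero L)) :=
  locUnip_mono (locUnip_map (ofVJ X rE πE ρ Φ) (ofVJ_gal H) (D.locUnip H.rhoAct))
    fun x hx => ⟨((⟨x, hx⟩ : XJ X ρ Φ), (0 : EMJ rE πE)), Set.mem_univ _, rfl⟩

/-! ### the input side -/

omit H in
theorem ofVJ_inj_liftSet {U : Set (JZero L)} (v : VJ X rE πE ρ Φ)
    (hv : v ∈ liftSet rE πE ρ Φ U) (h0 : ofVJ X rE πE ρ Φ v = 0) : v = 0 :=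
  Prod.ext (XJ.incl_injective X ρ Φ (by rw [← ofVJ_apply, h0]; rfl)) hv.1

/-- `LocSt` on `U ⊆ J₀(L)` ⟹ `LocSt` on `{(x, 0) | x ∈ U}`. -/
theorem locSt_in {U : AddSubgroup (JZero L)} (hU : ∀ s : GQ, ∀ x ∈ U, s • x ∈ U)
    (h : LocSt q ε (U : Set (JZero L))) : LocSt q ε (liftSet rE πE ρ Φ (X := X) (U : Set (JZero L))) := by
  intro A' hA' σ hσ τ' hτ' v hv
  let Y : AddSubgroup (VJ X rE πE ρ Φ) :=
    { carrier := liftSet rE πE ρ Φ (U : Set (JZero L))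
      zero_mem' := ⟨rfl, by show XJ.incl X ρ Φ 0 ∈ U; rw [map_zero]; exact U.zero_mem⟩
      add_mem' := by
        rintro a c ⟨a1, a2⟩ ⟨c1, c2⟩
        refine ⟨?_, ?_⟩
        · show a.2 + c.2 = 0
          rw [a1, c1, add_zero]
        · show XJ.incl X ρ Φ (a.1 + c.1) ∈ U
          rw [map_add]
          exact U.add_mem a2 c2
      neg_mem' := by
        rintro a ⟨a1, a2⟩
        refine ⟨?_, ?_⟩
        · show -a.2 = 0
          rw [a1, neg_zero]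
        · show XJ.incl X ρ Φ (-a.1) ∈ U
          rw [map_neg]
          exact U.neg_mem a2 }
  exact St3.of_map (ofVJ X rE πE ρ Φ) (ofVJ_gal H) Y (liftSet_gal H hU)
    (fun y hy => ofVJ_inj_liftSet y hy) hv (h A' hA' σ hσ τ' hτ' _ hv.2)

theorem locUr_in {U : Set (JZero L)} (h : LocUr q U) :
    LocUr q (liftSet rE πE ρ Φ (X := X) U) := by
  intro A' hA' τ' hτ' v hv
  refine H.ext_VJ ?_ ?_
  · show XJ.incl X ρ Φ (τ' • v.1) = _
    rw [H.coe_gal]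
    exact h A' hA' τ' hτ' _ hv.2
  · show τ' • v.2 = v.2
    rw [hv.1, smul_zero]

end VJ

/-! ### existence on `TopCtx` -/

section Top

variable {W : WeierstrassCurve ℤ} {p : ℕ} [Fact p.Prime]
  {b : Module.Basis (Fin 2) (ZMod p) (TorsW W p)} {K : ℕ}
  {B : Module.Basis (Fin 2) (ZMod (p ^ (K + 1))) (TorsW W (p ^ (K + 1)))} {N : ℕ} [NeZero N]
  {X : AddSubgroup (JZero N)} {R : Type} [CommRing R] [Algebra (ZMod (p ^ (K + 1))) R]
  [Module R ↥X] {πE : R →ₐ[ZMod (p ^ (K + 1))] ZMod (p ^ (K + 1))} {ρ : GQ →* M₂ R}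
  {Φ : M₂ R →ₐ[R] Module.End R ↥X}

/-- `c_q` lies in the maximal ideal. -/
theorem pi0_c_top (C : TopCtx W p b K B N X)
    (H : Fermat.Agent.ML.Rho.IsRhoK N (p ^ (K + 1)) X (rEB B) πE ρ Φ) {q : ℕ} (hq : q.Prime)
    (hqp : q ≠ p) {ε : ℤ} (hε : ε * ε = 1)
    (hE : LocSt q ε (Set.univ : Set (Rho.EM (rEB B)))) {A : ValuationSubring Qbar}
    (hA : A.LiesOverPrime q) {φ : GQ} (hφ : A.IsFrobeniusAt φ q) :
    pi0 πE ((ρ φ).trace - (ε : R) * ((q : R) + 1)) = 0 := by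
  have hp : p.Prime := Fact.out
  have : Fact (1 < p ^ (K + 1)) := ⟨Nat.one_lt_pow (Nat.succ_ne_zero K) hp.one_lt⟩
  let v₀ : EMJ (rEB B) πE := (Pi.single 0 1 : Fin 2 → ZMod (p ^ (K + 1)))
  have hv₀ : v₀ ≠ 0 := by
    intro h
    have h0 : (Pi.single 0 1 : Fin 2 → ZMod (p ^ (K + 1))) 0 = (0 : Fin 2 → ZMod (p ^ (K + 1))) 0 :=
      congrFun h 0
    rw [Pi.single_eq_same, Pi.zero_apply] at h0
    exact one_ne_zero h0
  have h1 : φ • v₀ + q • φ⁻¹ • v₀ = (ε * ((q : ℤ) + 1)) • v₀ :=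
    St3.trace hε (hE A hA φ hφ 1 (one_mem _) v₀ (Set.mem_univ _))
  refine pi0_c_eq_zero H.rhoAct (pi0 πE) (fun a h => TopCtx.isUnit_of_pi0 H h)
    (C.det_frob H hq hqp hA hφ) (w := ((0 : XJ X ρ Φ), v₀)) ?_ ?_
  · intro h
    exact hv₀ (congrArg Prod.snd h)
  · refine Prod.ext ?_ h1
    show φ • (0 : XJ X ρ Φ) + q • φ⁻¹ • (0 : XJ X ρ Φ) = (ε * ((q : ℤ) + 1)) • (0 : XJ X ρ Φ)
    simp

/-- inertia at `q ≠ p`, `q² ∤ N`, is unipotent on `V`. -/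
theorem unip_top (C : TopCtx W p b K B N X)
    (H : Fermat.Agent.ML.Rho.IsRhoK N (p ^ (K + 1)) X (rEB B) πE ρ Φ) {q : ℕ} (hq : q.Prime)
    (hqp : q ≠ p) (hq2 : ¬ q ^ 2 ∣ N) {A : ValuationSubring Qbar} (hA : A.LiesOverPrime q)
    {σ : GQ} (hσ : σ ∈ A.inertiaSubgroupIn ℚ) (x : VJ X (rEB B) πE ρ Φ) :
    σ • (σ • x - x) = σ • x - x := by
  have hp : p.Prime := Fact.out
  refine H.gal_unip (fun x hx => ?_)
    (rEB_unip B C.hΔ (C.odd H) hq (C.coprime H hq hqp) (C.hss q hq) A hA hσ hσ) x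
  by_cases hqN : q ∣ N
  · have hun := SS.unip_of_cuspOrd (fun M q _ _ _ => SS.cuspOrd M q) hq hp hqp hqN hq2
    have h := hun A hA σ hσ x (C.ptors H hx)
    rw [smul_sub, sub_eq_sub_iff_add_eq_add, ← sub_eq_zero, ← h, two_nsmul]
    abel
  · have hqN' : ¬ q ∣ N * p := fun hd => by
      rcases (Nat.Prime.dvd_mul hq).1 hd with h | h
      · exact hqN h
      · exact hqp ((Nat.prime_dvd_prime_iff_eq hq hp).1 h)
    rw [(SS.es_all N p).1 q hq hqN' A hA σ hσ x (C.ptors H hx), sub_self, smul_zero]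

/-- **existence of the local datum** at a prime `q ≢ 1 mod p`, `q ≠ p`, `q² ∤ N` where `W[p^(K+1)]` is of Steinberg type `ε`. -/
theorem exists_stData_top (C : TopCtx W p b K B N X)
    (H : Fermat.Agent.ML.Rho.IsRhoK N (p ^ (K + 1)) X (rEB B) πE ρ Φ) [IsLocalRing R] {q : ℕ}
    (hq : q.Prime) (hqp : q ≠ p) (hq1 : ¬ p ∣ q - 1) (hq2 : ¬ q ^ 2 ∣ N) {ε : ℤ} (hε : ε * ε = 1)
    (hE : LocSt q ε (Set.univ : Set (Rho.EM (rEB B)))) {A : ValuationSubring Qbar}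
    (hA : A.LiesOverPrime q) {φ : GQ} (hφ : A.IsFrobeniusAt φ q) :
    ∃ (τ : GQ) (f1 f2 b' g : R) (Q Q' : M₂ R), StData ρ q ε A φ τ f1 f2 b' g Q Q' := by
  refine exists_stData' H.rhoAct (C.cont H) C.hp2 (pi0 πE) (fun a h => TopCtx.isUnit_of_pi0 H h)
    (fun a h => TopCtx.isNilpotent_of_pi0 H h) hq hqp hq1 hA hφ hε (C.det_frob H hq hqp hA hφ)
    (fun σ hσ x => unip_top C H hq hqp hq2 hA hσ x) ?_
  have h := pi0_c_top C H hq hqp hε hE hA hφ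
  rw [map_sub, sub_eq_zero] at h
  rw [h, map_mul, map_add, map_one, map_natCast, map_intCast]

end Top

end Fermat.Agent.ML.Raise
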