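/-
ML / RAISE / SoftTop : the record `SoftAt` (`ML/Raise/Soft.lean`) on `Rho.IsRhoK` / `Lift.TopCtx`, in the shapes of `raise_step_abs`
and of `StepGen.genHyp_sub`.      (Companion of helper60's `StTop.lean`; no case split `p ∣ v - 1` for the consumer.)

* `st2_level`, `st2_top` : [ST2] `(φ² - q²)(σ - 1) = 0` on `J₀(N)[p^∞]` and on `V = X × Λ²`, `q ≠ p`, `q² ∤ N` (`q ∣ N` or not; no rigidity);
* `exists_softAt_top` : existence of the record;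
* `SoftAt.locSt_out_b`, `SoftAt.locSt_out_c'`, `SoftAt.locUnip_out` : (RS-out) on a set `G' ⊆ J₀(L)` all of whose elements are `β • x₁`, `x₁ ∈ U`;
* `SoftAt.strict_raised_sub`, `SoftAt.strict_unraised_sub` : `hstrict` of `StepGen.genHyp_sub / genHyp_cell` for a stage module `Y ≤ X`;
* `SoftAt.c_smul_sub`, `SoftAt.b_smul_sub` : (RS-in) on `Y`.
-/
import Fermat.Agent.ML.Raise.Soft
import Fermat.Agent.ML.Raise.StTop
import Fermat.Agent.ML.Lift.Inst.GenSub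
import Fermat.Agent.ML.At2.N2.St2All

set_option autoImplicit false
set_option linter.unusedSectionVars false

noncomputable section

open ModularCurve

namespace Fermat.Agent.ML.Raise

open Matrix Fermat.Agent.RIB Fermat.Agent.ML Fermat.Agent.S56 ExtCitation Fermat.Agent.ML.Rho
  Fermat.Agent.ML.Lift Fermat.Agent.ML.ESide Fermat.Agent.ML.StepGen
open CFT (decomp)

local notation "M₂" => Matrix (Fin 2) (Fin 2)
local notation "Qbar" => AlgebraicClosure ℚ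

/-- **[ST2]** on `J₀(N)[p^∞]`, `q ≠ p`, `q² ∤ N`. -/
theorem st2_level {N q p : ℕ} [NeZero N] (hq : q.Prime) (hp : p.Prime) (hqp : q ≠ p)
    (hq2 : ¬ q ^ 2 ∣ N) {A : ValuationSubring Qbar} (hA : A.LiesOverPrime q) {φ : GQ}
    (hφ : A.IsFrobeniusAt φ q) {σ : GQ} (hσ : σ ∈ A.inertiaSubgroupIn ℚ) (e : ℕ) (y : JZero N)
    (hy : p ^ e • y = 0) : φ • φ • (σ • y - y) = q ^ 2 • (σ • y - y) := by
  by_cases hqN : q ∣ N
  · obtain ⟨M, rfl⟩ : ∃ M, N = M * q := ⟨N / q, (Nat.div_mul_cancel hqN).symm⟩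
    haveI : NeZero M := ⟨fun h => NeZero.ne (M * q) (by rw [h, zero_mul])⟩
    haveI : Fact q.Prime := ⟨hq⟩
    have hqM : ¬ q ∣ M := fun ⟨k, hk⟩ => hq2 ⟨k, by rw [hk]; ring⟩
    exact At2.st2_all hqM hp (Ne.symm hqp) A hA hφ hσ e y hy
  · have hqN' : ¬ q ∣ N * p := fun hd => by
      rcases (Nat.Prime.dvd_mul hq).1 hd with h | h
      · exact hqN h
      · exact hqp ((Nat.prime_dvd_prime_iff_eq hq hp).1 h)
    rw [(SS.es_all N p).1 q hq hqN' A hA σ hσ y ⟨e, hy⟩, sub_self, smul_zero, smul_zero,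
      smul_zero]

/-! ### the output / input sides -/

section VJ

variable {L m : ℕ} [NeZero L] [NeZero m] {R : Type} [CommRing R] [Algebra (ZMod m) R]
  {X : AddSubgroup (JZero L)} [Module R ↥X] {rE : GQ →* M₂ (ZMod m)}
  {πE : R →ₐ[ZMod m] ZMod m} {ρ : GQ →* M₂ R} {Φ : M₂ R →ₐ[R] Module.End R ↥X}
  {p : ℕ} {π0 : R →+* ZMod p} {v : Nat.Primes} {ε : ℤ} {φ : GQ} {bv : R}

/-- (RS-out) a prime raised at an EARLIER stage. -/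
theorem SoftAt.locSt_out_b (S : SoftAt ρ (PhiJ X rE πE ρ Φ) π0 v ε φ bv)
    (H : Fermat.Agent.ML.Rho.IsRhoK L m X rE πE ρ Φ) {β : R} (hβ : bv ∣ β) {U : Set (JZero L)}
    (hU : ∀ s : GQ, ∀ x ∈ U, s • x ∈ U) {G' : Set (JZero L)}
    (hG' : ∀ x ∈ G', ∃ x₁ : ↥X, (x₁ : JZero L) ∈ U ∧ ((β • x₁ : ↥X) : JZero L) = x) :
    LocSt (v : ℕ) ε G' :=
  locSt_mono (locSt_map (ofVJ X rE πE ρ Φ) (ofVJ_gal H)
    (S.out_b _ (liftSet_gal H hU) β hβ)) (subset_image_liftSet hG')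

/-- (RS-out) the prime raised NOW : `hrel` is `ML.rel_last` on `ker Π_q`. -/
theorem SoftAt.locSt_out_c' (S : SoftAt ρ (PhiJ X rE πE ρ Φ) π0 v ε φ bv)
    (H : Fermat.Agent.ML.Rho.IsRhoK L m X rE πE ρ Φ) {β : R}
    (hβ : (ρ φ).trace + (ε : R) * (((v : ℕ) : R) + 1) ∣ β) {U : Set (JZero L)}
    (hU : ∀ s : GQ, ∀ x ∈ U, s • x ∈ U)
    (hrel : ∀ x ∈ U, trOp (v : ℕ) φ (trOp (v : ℕ) φ x) = ((v : ℕ) + 1) ^ 2 • x)
    {G' : Set (JZero L)}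
    (hG' : ∀ x ∈ G', ∃ x₁ : ↥X, (x₁ : JZero L) ∈ U ∧ ((β • x₁ : ↥X) : JZero L) = x) :
    LocSt (v : ℕ) ε G' :=
  locSt_mono (locSt_map (ofVJ X rE πE ρ Φ) (ofVJ_gal H)
    (S.out_c' _ (liftSet_gal H hU) β hβ (trOp_liftSet H hrel))) (subset_image_liftSet hG')

/-- inertia at `v` is unipotent on `X`. -/
theorem SoftAt.locUnip_out (S : SoftAt ρ (PhiJ X rE πE ρ Φ) π0 v ε φ bv)
    (H : Fermat.Agent.ML.Rho.IsRhoK L m X rE πE ρ Φ) : LocUnip (v : ℕ) (X : Set (JZero L)) :=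
  locUnip_mono (locUnip_map (ofVJ X rE πE ρ Φ) (ofVJ_gal H) S.unip)
    fun x hx => ⟨((⟨x, hx⟩ : XJ X ρ Φ), (0 : EMJ rE πE)), Set.mem_univ _, rfl⟩

/-- `ofVJ` is injective on `Y × 0`. -/
theorem ofVJ_inj_subVJ (Y : Submodule R ↥X) (w : VJ X rE πE ρ Φ)
    (hw : w ∈ (subVJ rE πE ρ Φ Y).toAddSubgroup) (h0 : ofVJ X rE πE ρ Φ w = 0) : w = 0 :=
  Prod.ext (XJ.incl_injective X ρ Φ (by rw [← ofVJ_apply, h0]; rfl)) hw.2

theorem image_subVJ_subset (Y : Submodule R ↥X) {YS : Set (JZero L)}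
    (hYS : ∀ y ∈ Y, (y : JZero L) ∈ YS) :
    ofVJ X rE πE ρ Φ '' ((subVJ rE πE ρ Φ Y).toAddSubgroup : Set (VJ X rE πE ρ Φ)) ⊆ YS := by
  rintro _ ⟨w, hw, rfl⟩
  exact hYS _ hw.1

/-- `LocSt` on `YS ⊇ Y` ⟹ `LocSt` on `Y × 0 ≤ V`. -/
theorem locSt_subVJ (H : Fermat.Agent.ML.Rho.IsRhoK L m X rE πE ρ Φ) (Y : Submodule R ↥X)
    (hYG : ∀ (g : GQ), ∀ y ∈ Y, ∀ y' : ↥X, (y' : JZero L) = g • (y : JZero L) → y' ∈ Y)
    {YS : Set (JZero L)} (hYS : ∀ y ∈ Y, (y : JZero L) ∈ YS) {q : ℕ} (h : LocSt q ε YS) :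
    LocSt q ε (subVJ rE πE ρ Φ Y : Set (VJ X rE πE ρ Φ)) :=
  locSt_of_map (ofVJ X rE πE ρ Φ) (ofVJ_gal H) (subVJ rE πE ρ Φ Y).toAddSubgroup
    (smul_mem_subVJ H hYG) (ofVJ_inj_subVJ Y) (locSt_mono h (image_subVJ_subset Y hYS))

/-- `LocUr` on `YS ⊇ Y` ⟹ `LocUr` on `Y × 0 ≤ V`. -/
theorem locUr_subVJ (H : Fermat.Agent.ML.Rho.IsRhoK L m X rE πE ρ Φ) (Y : Submodule R ↥X)
    (hYG : ∀ (g : GQ), ∀ y ∈ Y, ∀ y' : ↥X, (y' : JZero L) = g • (y : JZero L) → y' ∈ Y)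
    {YS : Set (JZero L)} (hYS : ∀ y ∈ Y, (y : JZero L) ∈ YS) {q : ℕ} (h : LocUr q YS) :
    LocUr q (subVJ rE πE ρ Φ Y : Set (VJ X rE πE ρ Φ)) :=
  locUr_of_map (ofVJ X rE πE ρ Φ) (ofVJ_gal H) (subVJ rE πE ρ Φ Y).toAddSubgroup
    (smul_mem_subVJ H hYG) (ofVJ_inj_subVJ Y) (locUr_mono h (image_subVJ_subset Y hYS))

/-- `hstrict` of `StepGen.genHyp_sub` at a RAISED soft prime : variable `b`. -/
theorem SoftAt.strict_raised_sub (S : SoftAt ρ (PhiJ X rE πE ρ Φ) π0 v ε φ bv)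
    (H : Fermat.Agent.ML.Rho.IsRhoK L m X rE πE ρ Φ) (Y : Submodule R ↥X)
    (hYG : ∀ (g : GQ), ∀ y ∈ Y, ∀ y' : ↥X, (y' : JZero L) = g • (y : JZero L) → y' ∈ Y)
    {YS : Set (JZero L)} (hYS : ∀ y ∈ Y, (y : JZero L) ∈ YS) (hst : LocSt (v : ℕ) ε YS)
    (I : Ideal R) (hb : bv ∈ I) :
    ∃ M : M₂ R, IsUnit (M.map π0) ∧ ∀ σ ∈ decomp v, ConjConst ℤ (Y.annihilator ⊔ I) M (ρ σ) := by
  have h := S.strict_raised (subVJ rE πE ρ Φ Y) (smul_mem_subVJ H hYG)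
    (locSt_subVJ H Y hYG hYS hst) I hb
  rwa [annihilator_subVJ] at h

/-- `hstrict` of `StepGen.genHyp_sub` at an UNRAISED soft prime : variable `c`. -/
theorem SoftAt.strict_unraised_sub (S : SoftAt ρ (PhiJ X rE πE ρ Φ) π0 v ε φ bv)
    (H : Fermat.Agent.ML.Rho.IsRhoK L m X rE πE ρ Φ) (Y : Submodule R ↥X)
    (hYG : ∀ (g : GQ), ∀ y ∈ Y, ∀ y' : ↥X, (y' : JZero L) = g • (y : JZero L) → y' ∈ Y)
    {YS : Set (JZero L)} (hYS : ∀ y ∈ Y, (y : JZero L) ∈ YS) (hur : LocUr (v : ℕ) YS)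
    (I : Ideal R) (hc : (ρ φ).trace - (ε : R) * (((v : ℕ) : R) + 1) ∈ I) :
    ∃ M : M₂ R, IsUnit (M.map π0) ∧ ∀ σ ∈ decomp v, ConjConst ℤ (Y.annihilator ⊔ I) M (ρ σ) := by
  have h := S.strict_unraised (subVJ rE πE ρ Φ Y) (smul_mem_subVJ H hYG)
    (locUr_subVJ H Y hYG hYS hur) I hc
  rwa [annihilator_subVJ] at h

/-- (RS-in) `LocSt` on `YS ⊇ Y` ⟹ `c ∈ Ann Y`. -/
theorem SoftAt.c_mem_ann_sub (S : SoftAt ρ (PhiJ X rE πE ρ Φ) π0 v ε φ bv)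
    (H : Fermat.Agent.ML.Rho.IsRhoK L m X rE πE ρ Φ) (Y : Submodule R ↥X)
    (hYG : ∀ (g : GQ), ∀ y ∈ Y, ∀ y' : ↥X, (y' : JZero L) = g • (y : JZero L) → y' ∈ Y)
    {YS : Set (JZero L)} (hYS : ∀ y ∈ Y, (y : JZero L) ∈ YS) (hst : LocSt (v : ℕ) ε YS) :
    (ρ φ).trace - (ε : R) * (((v : ℕ) : R) + 1) ∈ Y.annihilator := by
  have h := S.ann_c (subVJ rE πE ρ Φ Y) (smul_mem_subVJ H hYG) (locSt_subVJ H Y hYG hYS hst)
  rwa [annihilator_subVJ] at h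

/-- (RS-in) `LocUr` on `YS ⊇ Y` ⟹ `b ∈ Ann Y`. -/
theorem SoftAt.b_mem_ann_sub (S : SoftAt ρ (PhiJ X rE πE ρ Φ) π0 v ε φ bv)
    (H : Fermat.Agent.ML.Rho.IsRhoK L m X rE πE ρ Φ) (Y : Submodule R ↥X)
    (hYG : ∀ (g : GQ), ∀ y ∈ Y, ∀ y' : ↥X, (y' : JZero L) = g • (y : JZero L) → y' ∈ Y)
    {YS : Set (JZero L)} (hYS : ∀ y ∈ Y, (y : JZero L) ∈ YS) (hur : LocUr (v : ℕ) YS) :
    bv ∈ Y.annihilator := by
  have h := S.ann_b (subVJ rE πE ρ Φ Y) (smul_mem_subVJ H hYG) (locUr_subVJ H Y hYG hYS hur)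
  rwa [annihilator_subVJ] at h

end VJ

/-! ### existence on `TopCtx` -/

section Top

variable {W : WeierstrassCurve ℤ} {p : ℕ} [Fact p.Prime]
  {b : Module.Basis (Fin 2) (ZMod p) (TorsW W p)} {K : ℕ}
  {B : Module.Basis (Fin 2) (ZMod (p ^ (K + 1))) (TorsW W (p ^ (K + 1)))} {N : ℕ} [NeZero N]
  {X : AddSubgroup (JZero N)} {R : Type} [CommRing R] [Algebra (ZMod (p ^ (K + 1))) R]
  [Module R ↥X] {πE : R →ₐ[ZMod (p ^ (K + 1))] ZMod (p ^ (K + 1))} {ρ : GQ →* M₂ R}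
  {Φ : M₂ R →ₐ[R] Module.End R ↥X}

/-- **[ST2]** on `V = X × Λ²`. -/
theorem st2_top (C : TopCtx W p b K B N X)
    (H : Fermat.Agent.ML.Rho.IsRhoK N (p ^ (K + 1)) X (rEB B) πE ρ Φ) {q : ℕ} (hq : q.Prime)
    (hqp : q ≠ p) (hq2 : ¬ q ^ 2 ∣ N) {A : ValuationSubring Qbar} (hA : A.LiesOverPrime q)
    {φ : GQ} (hφ : A.IsFrobeniusAt φ q) {σ : GQ} (hσ : σ ∈ A.inertiaSubgroupIn ℚ)
    (x : VJ X (rEB B) πE ρ Φ) : φ • φ • (σ • x - x) = q ^ 2 • (σ • x - x) := by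
  refine H.ext_VJ ?_ ?_
  · show XJ.incl X ρ Φ (φ • φ • (σ • x.1 - x.1)) = XJ.incl X ρ Φ (q ^ 2 • (σ • x.1 - x.1))
    rw [H.coe_gal, H.coe_gal, map_nsmul, map_sub, H.coe_gal]
    exact st2_level hq Fact.out hqp hq2 hA hφ hσ (K + 1) _ (C.hXm _ (x.1 : ↥X).2)
  · have h := congrArg (fun M : M₂ (ZMod (p ^ (K + 1))) =>
      M.mulVec (x.2 : Fin 2 → ZMod (p ^ (K + 1)))) (C.rEB_st2 hq hqp hA hφ hσ)
    simp only [← Matrix.mulVec_mulVec, Matrix.sub_mulVec, Matrix.one_mulVec, Matrix.smul_mulVec,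
      Matrix.zero_mulVec, Nat.cast_smul_eq_nsmul] at h
    exact sub_eq_zero.1 h

/-- **existence of the record** at a soft prime `v ≠ p`, `v² ∤ N` (`v ∣ N` or not). -/
theorem exists_softAt_top {T : Finset ℕ} {θ : ℕ → ℤ} (EC : MCtx p T θ (rbarB b))
    (C : TopCtx W p b K B N X)
    (H : Fermat.Agent.ML.Rho.IsRhoK N (p ^ (K + 1)) X (rEB B) πE ρ Φ) [IsLocalRing R]
    (v : Nat.Primes) (hvp : (v : ℕ) ≠ p) (hv2 : ¬ (v : ℕ) ^ 2 ∣ N)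
    (hram : ¬ Ram (rbarB b) (v : ℕ)) {ε : ℤ} (hε : ε * ε = 1)
    (hE : LocSt (v : ℕ) ε (Set.univ : Set (Rho.EM (rEB B)))) {φ : GQ}
    (hφ : (primeLocalPlace v).IsFrobeniusAt φ (v : ℕ))
    (hns : ∀ c : ZMod p, rbarB b φ ≠ c • (1 : M₂ (ZMod p))) :
    ∃ bv : R, SoftAt ρ (PhiJ X (rEB B) πE ρ Φ) (pi0 πE) v ε φ bv := by
  have hA := CFT.LS.liesOverPrime_primeLocalPlace v
  refine exists_softAt H.rhoAct (EC.adjoin_range_rho' (C.lift H)) (C.cont H) C.hp2 (pi0 πE)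
    (fun a h => TopCtx.isUnit_of_pi0 H h) (fun a h => TopCtx.isNilpotent_of_pi0 H h) v hvp hφ hε
    (C.det_frob H v.2 hvp hA hφ) (fun σ hσ => C.det_inertia H v.2 hvp hA hσ)
    (fun σ hσ => by rw [C.lift H]; exact unram_of_not_ram hram _ hA σ hσ)
    (fun σ hσ x => unip_top C H v.2 hvp hv2 hA hσ x)
    (fun σ hσ x => st2_top C H v.2 hvp hv2 hA hφ hσ x) ?_ (fun c => by rw [C.lift H]; exact hns c)
  have h := pi0_c_top C H v.2 hvp hε hE hA hφ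
  rw [map_sub, sub_eq_zero] at h
  rw [h, map_mul, map_add, map_one, map_natCast, map_intCast]

end Top

end Fermat.Agent.ML.Raise
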