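/-
ML / RAISE : **(EMB)**  `e_q : X(N)[c_q] → ker Π_q ≤ X(N q)`, `v ↦ α^* v - ε β^* v`.
-/
import Fermat.Agent.ML.Ihara.Theta
import Fermat.Agent.ML.Ihara.A2
import Fermat.Agent.ML.Ihara.Tors

set_option autoImplicit false
set_option linter.unusedSectionVars false

noncomputable section

open AlgebraicCurve ModularCurve

namespace Fermat.Agent.ML.Raise

open Fermat.Agent.RIB Fermat.Agent.GAL Fermat.Agent.GAL.PC Fermat.Agent.ML

local notation "Qbar" => AlgebraicClosure ℚ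
local notation "GQ" => (AlgebraicClosure ℚ ≃ₐ[ℚ] AlgebraicClosure ℚ)

variable (N q : ℕ) [NeZero N] [NeZero q]

/-- `e_q v = ι_q (v, -ε v)`. -/
def emb (ε : ℤ) : JZero N →+ JZero (N * q) := pullA N q - ε • pullB N q

theorem emb_apply (ε : ℤ) (v : JZero N) : emb N q ε v = pullA N q v - ε • pullB N q v := rfl

theorem emb_smul (ε : ℤ) (σ : GQ) (v : JZero N) : emb N q ε (σ • v) = σ • emb N q ε v := by
  rw [emb_apply, emb_apply, pullA_smul, pullB_smul, smul_sub, smul_comm σ ε]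

variable {N q}

theorem emb_mem_thetaPart {p : ℕ} {S : Set ℕ} {θ : ℕ → ℤ} (ε : ℤ)
    (hS : ∀ r : ℕ, r.Prime → r ∉ S → ¬ r ∣ N * q * p)
    {v : JZero N} (hv : v ∈ thetaPart N p S θ) : emb N q ε v ∈ thetaPart (N * q) p S θ :=
  (thetaPart (N * q) p S θ).sub_mem (pullA_mem_thetaPart hS hv)
    ((thetaPart (N * q) p S θ).zsmul_mem (pullB_mem_thetaPart hS hv) ε)

/-- injectivity on the `θ`-part (Ihara). -/
theorem emb_injOn {p : ℕ} {S : Set ℕ} {θ : ℕ → ℤ} (hp : p.Prime) (hq : q.Prime) (hqN : ¬ q ∣ N)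
    (hAP : NonEisAP p S θ) (hqS : q ∈ S) (ε : ℤ)
    {v : JZero N} (hv : v ∈ thetaPart N p S θ) (h0 : emb N q ε v = 0) : v = 0 := by
  have h1 : pullA N q v + pullB N q (-(ε • v)) = 0 := by
    rw [map_neg, map_zsmul, ← sub_eq_add_neg]
    exact h0
  exact (ihara_theta hp (iharaTors hq hqN) hAP hqS hv
    ((thetaPart N p S θ).neg_mem ((thetaPart N p S θ).zsmul_mem hv ε)) h1).1

/-- `α_* e_q v = -ε (T_q v - ε (q+1) v)`. -/
theorem pushA_emb (hq : q.Prime) (hqN : ¬ q ∣ N) {ε : ℤ} (hε : ε * ε = 1) (v : JZero N) :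
    SS.pushA N q (emb N q ε v)
      = -(ε • (heckeOperatorBar N ⟨q, hq⟩ v - (ε * ((q : ℤ) + 1)) • v)) := by
  rw [emb_apply, map_sub, map_zsmul, pushA_pullA N q hq hqN, pushA_pullB N q hq]
  generalize heckeOperatorBar N ⟨q, hq⟩ v = t
  have h1 : (q + 1) • v = ((q : ℤ) + 1) • v := by
    rw [← natCast_zsmul]; push_cast; rfl
  have h2 : ε * (ε * ((q : ℤ) + 1)) = (q : ℤ) + 1 := by linear_combination ((q : ℤ) + 1) * hε
  rw [h1]
  conv_lhs => rw [← h2]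
  module

/-- `β_* e_q v = T_q v - ε (q+1) v` on `p`-power torsion. -/
theorem pushB_emb (hq : q.Prime) (hqN : ¬ q ∣ N) {p : ℕ} (hp : p.Prime) (hqp : q ≠ p) (ε : ℤ)
    {v : JZero N} (hv : ∃ k : ℕ, p ^ k • v = 0) :
    SS.pushB N q (emb N q ε v) = heckeOperatorBar N ⟨q, hq⟩ v - (ε * ((q : ℤ) + 1)) • v := by
  obtain ⟨k, hk⟩ := hv
  have hqNp : ¬ q ∣ N * p := fun h =>
    (hq.dvd_mul.1 h).elim hqN fun h' => hqp ((Nat.prime_dvd_prime_iff_eq hq hp).1 h')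
  rw [emb_apply, map_sub, map_zsmul, pushB_pullB N q hq hqN, pushB_pullA N q hq hp hqNp k hk]
  generalize heckeOperatorBar N ⟨q, hq⟩ v = t
  have h1 : (q + 1) • v = ((q : ℤ) + 1) • v := by
    rw [← natCast_zsmul]; push_cast; rfl
  rw [h1]
  module

/-- **(EMB)** Hecke form : `T_q v = ε (q+1) v` ⟹ `e_q v ∈ ker Π_q`. -/
theorem emb_mem_ker (hq : q.Prime) (hqN : ¬ q ∣ N) {p : ℕ} (hp : p.Prime) (hqp : q ≠ p) {ε : ℤ}
    (hε : ε * ε = 1) {v : JZero N} (hv : ∃ k : ℕ, p ^ k • v = 0)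
    (hc : heckeOperatorBar N ⟨q, hq⟩ v = (ε * ((q : ℤ) + 1)) • v) :
    SS.pushA N q (emb N q ε v) = 0 ∧ SS.pushB N q (emb N q ε v) = 0 := by
  rw [pushA_emb hq hqN hε, pushB_emb hq hqN hp hqp ε hv, hc, sub_self, smul_zero, neg_zero]
  exact ⟨rfl, rfl⟩

/-- **(EMB)** Galois form : `c_q v = 0`, `c_q = σ + q σ⁻¹ - ε (q+1)` for a Frobenius lift `σ` at `q`. -/
theorem emb_mem_ker_of_frob (hq : q.Prime) (hqN : ¬ q ∣ N) {p : ℕ} (hp : p.Prime) (hqp : q ≠ p)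
    {ε : ℤ} (hε : ε * ε = 1) {A : ValuationSubring Qbar} (hA : A.LiesOverPrime q) {σ : GQ}
    (hσ : A.IsFrobeniusAt σ q) {v : JZero N} (hv : ∃ k : ℕ, p ^ k • v = 0)
    (hc : σ • v + q • σ⁻¹ • v = (ε * ((q : ℤ) + 1)) • v) :
    SS.pushA N q (emb N q ε v) = 0 ∧ SS.pushB N q (emb N q ε v) = 0 := by
  have hqNp : ¬ q ∣ N * p := fun h =>
    (hq.dvd_mul.1 h).elim hqN fun h' => hqp ((Nat.prime_dvd_prime_iff_eq hq hp).1 h')
  refine emb_mem_ker hq hqN hp hqp hε hv ?_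
  rw [← hc]
  exact SS.hecke_eq_frob' (SS.es_all N p).2 ⟨q, hq⟩ hqNp hA hσ v hv

end Fermat.Agent.ML.Raise
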