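import Mathlib

/-!
# ML / RAISE / Ord : the `(p, z)`-adic order on `ℤ[z_1..z_r]` is a valuation

`SS r = ℤ[z_1..z_r]`, `aa p r = (p, z_1, .., z_r)`.

* `mem_aa_pow_iff` : `f ∈ aa ^ J ↔ ∀ α, p ^ (J - |α|) ∣ coeff α f`.
* `vp` : **[VP]** `s * u ∈ aa ^ J`, `u ∉ aa ^ B` ⟹ `s ∈ aa ^ (J + 1 - B)`.
-/

set_option autoImplicit false

namespace Fermat.Agent.ML.Raise

open MvPolynomial

/-- `S = ℤ[z_1..z_r]` -/
abbrev SS (r : ℕ) := MvPolynomial (Fin r) ℤ

/-- `aa = (p, z_1, .., z_r)` -/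
noncomputable def aa (p r : ℕ) : Ideal (SS r) := Ideal.span (insert (C (p : ℤ)) (Set.range X))

/-- `ψ : f(z) ↦ f(p z)` -/
noncomputable def psi (p r : ℕ) : SS r →ₐ[ℤ] SS r := aeval fun i => C (p : ℤ) * X i

variable {p r : ℕ}

theorem C_mem_aa : (C (p : ℤ) : SS r) ∈ aa p r := Ideal.subset_span (Set.mem_insert _ _)

theorem X_mem_aa (i : Fin r) : (X i : SS r) ∈ aa p r :=
  Ideal.subset_span (Set.mem_insert_of_mem _ ⟨i, rfl⟩)

theorem psi_monomial (α : Fin r →₀ ℕ) (c : ℤ) :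
    psi p r (monomial α c) = monomial α (c * (p : ℤ) ^ α.degree) := by
  rw [psi, aeval_monomial]
  simp only [mul_pow, Finsupp.prod_mul]
  have h1 : (α.prod fun i k => (C (p : ℤ) : SS r) ^ k) = C ((p : ℤ) ^ α.degree) := by
    rw [Finsupp.prod, Finset.prod_pow_eq_pow_sum, Finsupp.degree_apply, map_pow]
  rw [h1, algebraMap_eq, ← mul_assoc, ← C_mul, monomial_eq]

theorem coeff_psi (f : SS r) (α : Fin r →₀ ℕ) :
    coeff α (psi p r f) = coeff α f * (p : ℤ) ^ α.degree := by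
  induction f using MvPolynomial.induction_on' with
  | monomial β c =>
    rw [psi_monomial, coeff_monomial, coeff_monomial]
    split_ifs with h
    · rw [h]
    · rw [zero_mul]
  | add f g hf hg => rw [map_add, coeff_add, coeff_add, hf, hg, add_mul]

theorem psi_mem_of_mem {J : ℕ} {f : SS r} (hf : f ∈ aa p r ^ J) :
    (C (p : ℤ) : SS r) ^ J ∣ psi p r f := by
  have h1 : Ideal.map (psi p r) (aa p r) ≤ Ideal.span {(C (p : ℤ) : SS r)} := by
    rw [aa, Ideal.map_span, Ideal.span_le]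
    rintro _ ⟨x, hx, rfl⟩
    rw [SetLike.mem_coe, Ideal.mem_span_singleton]
    rcases hx with rfl | ⟨i, rfl⟩
    · have : psi p r (C (p : ℤ)) = C (p : ℤ) := by
        rw [psi]; exact aeval_C _ _
      show _ ∣ psi p r (C (p : ℤ))
      rw [this]
    · show _ ∣ psi p r (X i)
      rw [psi, aeval_X]
      exact Dvd.intro _ rfl
  have h2 : psi p r f ∈ Ideal.map (psi p r) (aa p r ^ J) := Ideal.mem_map_of_mem _ hf
  rw [Ideal.map_pow] at h2
  have h3 := Ideal.pow_right_mono h1 J h2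
  rwa [Ideal.span_singleton_pow, Ideal.mem_span_singleton] at h3

theorem monomial_mem_aa_pow (α : Fin r →₀ ℕ) (c : ℤ) : monomial α c ∈ aa p r ^ α.degree := by
  rw [monomial_eq]
  refine Ideal.mul_mem_left _ _ ?_
  rw [Finsupp.prod, Finsupp.degree_apply, ← Finset.prod_pow_eq_pow_sum]
  exact Ideal.prod_mem_prod fun i _ => Ideal.pow_mem_pow (X_mem_aa i) _

theorem mem_aa_pow_iff (hp : p ≠ 0) (J : ℕ) (f : SS r) :
    f ∈ aa p r ^ J ↔ ∀ α : Fin r →₀ ℕ, (p : ℤ) ^ (J - α.degree) ∣ coeff α f := by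
  have hp' : (p : ℤ) ≠ 0 := by exact_mod_cast hp
  constructor
  · intro hf α
    have h1 := psi_mem_of_mem hf
    rw [← map_pow, C_dvd_iff_dvd_coeff] at h1
    have h2 := h1 α
    rw [coeff_psi] at h2
    by_cases hJ : α.degree ≤ J
    · obtain ⟨k, hk⟩ := Nat.exists_eq_add_of_le hJ
      rw [hk, Nat.add_sub_cancel_left]
      rw [hk, pow_add, mul_comm (coeff α f)] at h2
      exact (mul_dvd_mul_iff_left (pow_ne_zero _ hp')).1 h2
    · rw [Nat.sub_eq_zero_of_le (by omega), pow_zero]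
      exact one_dvd _
  · intro h
    rw [← support_sum_monomial_coeff f]
    refine Ideal.sum_mem _ fun α _ => ?_
    obtain ⟨c, hc⟩ := h α
    rw [hc]
    have e : monomial α ((p : ℤ) ^ (J - α.degree) * c) =
        (C (p : ℤ) : SS r) ^ (J - α.degree) * monomial α c := by
      rw [← map_pow, C_mul_monomial]
    rw [e]
    have h3 : (C (p : ℤ) : SS r) ^ (J - α.degree) * monomial α c ∈
        aa p r ^ (J - α.degree) * aa p r ^ α.degree :=
      Ideal.mul_mem_mul (Ideal.pow_mem_pow C_mem_aa _) (monomial_mem_aa_pow α c)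
    rw [← pow_add] at h3
    exact Ideal.pow_le_pow_right (by omega) h3

theorem mem_aa_pow_iff_dvd (hp : p ≠ 0) (J : ℕ) (f : SS r) :
    f ∈ aa p r ^ J ↔ (C (p : ℤ) : SS r) ^ J ∣ psi p r f := by
  have hp' : (p : ℤ) ≠ 0 := by exact_mod_cast hp
  refine ⟨psi_mem_of_mem, fun h => (mem_aa_pow_iff hp J f).2 fun α => ?_⟩
  rw [← map_pow, C_dvd_iff_dvd_coeff] at h
  have h2 := h α
  rw [coeff_psi] at h2
  by_cases hJ : α.degree ≤ J
  · obtain ⟨k, hk⟩ := Nat.exists_eq_add_of_le hJ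
    rw [hk, Nat.add_sub_cancel_left]
    rw [hk, pow_add, mul_comm (coeff α f)] at h2
    exact (mul_dvd_mul_iff_left (pow_ne_zero _ hp')).1 h2
  · rw [Nat.sub_eq_zero_of_le (by omega), pow_zero]
    exact one_dvd _

/-- a prime element: `π ^ J ∣ a * b`, `¬ π ^ B ∣ b` ⟹ `π ^ (J + 1 - B) ∣ a`. -/
theorem pow_dvd_of_pow_dvd_mul {R : Type*} [CommRing R] [IsDomain R] {π a b : R} (hπ : Prime π) :
    ∀ {J B : ℕ}, π ^ J ∣ a * b → ¬ π ^ B ∣ b → π ^ (J + 1 - B) ∣ a := by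
  intro J B
  induction B generalizing J b with
  | zero => intro _ h; exact absurd (by rw [pow_zero]; exact one_dvd _) h
  | succ B ih =>
    intro h hb
    by_cases hπb : π ∣ b
    · obtain ⟨b', rfl⟩ := hπb
      have hb' : ¬ π ^ B ∣ b' := fun hd => hb (by rw [pow_succ']; exact mul_dvd_mul_left _ hd)
      rcases J with _ | J
      · rw [show 0 + 1 - (B + 1) = 0 by omega, pow_zero]; exact one_dvd _
      · have h2 : π ^ J ∣ a * b' := by
          rw [pow_succ', mul_left_comm] at h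
          exact (mul_dvd_mul_iff_left hπ.ne_zero).1 h
        have := ih h2 hb'
        rwa [show J + 1 + 1 - (B + 1) = J + 1 - B by omega]
    · have := hπ.pow_dvd_of_dvd_mul_right J hπb h
      exact (pow_dvd_pow _ (by omega)).trans this

/-- **[VP]** -/
theorem vp (hp : p.Prime) {s u : SS r} {J B : ℕ} (h : s * u ∈ aa p r ^ J) (hu : u ∉ aa p r ^ B) :
    s ∈ aa p r ^ (J + 1 - B) := by
  have hπ : Prime (C (p : ℤ) : SS r) := (prime_C_iff (Fin r)).2 (Nat.prime_iff_prime_int.1 hp)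
  rw [mem_aa_pow_iff_dvd hp.ne_zero] at h hu ⊢
  rw [map_mul] at h
  exact pow_dvd_of_pow_dvd_mul hπ h hu

end Fermat.Agent.ML.Raise
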