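import Mathlib
import Fermat.Agent.ML.Raise.Ord

/-!
# ML / RAISE / Big : **(R1)** the image of a box-free module under an endomorphism which does not
kill a class of bounded `aa`-depth is BIG

`A` a commutative ring, `X` an `A`-module, `z_1..z_r ∈ A`, `SS r = ℤ[z]` acts through `aeval z`.

* `IsBoxBasis p a z e` : `X` is killed by `p^a, z_i^a`, and `e_1..e_D` is a basis of `X` over
  `(ℤ/p^a)[z]/(z_i^a)` (in the span / independence form).
* `big` : `β : X →ₗ[A] X`, `aa^B x₀ = 0`, `β x₀ ≠ 0`, `(r+1) m + B ≤ a + 1`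
  ⟹ `p^(m^(r+1)) ≤ #range β`.
-/

set_option autoImplicit false

namespace Fermat.Agent.ML.Raise

open MvPolynomial

variable {A : Type*} [CommRing A] {X : Type*} [AddCommGroup X] [Module A X]

/-- `e` is a basis of `X` over `(ℤ/p^a)[z_1..z_r]/(z_i^a)`. -/
structure IsBoxBasis (p a : ℕ) {r D : ℕ} (z : Fin r → A) (e : Fin D → X) : Prop where
  pa : ∀ x : X, (p : A) ^ a • x = 0
  za : ∀ (i : Fin r) (x : X), z i ^ a • x = 0
  span : ∀ x : X, ∃ g : Fin D → SS r, x = ∑ u, aeval z (g u) • e u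
  ind : ∀ g : Fin D → SS r, ∑ u, aeval z (g u) • e u = 0 →
    ∀ (u : Fin D) (α : Fin r →₀ ℕ), (∀ i, α i < a) → (p : ℤ) ^ a ∣ coeff α (g u)

theorem smul_eq_zero_of_dvd_of_smul {d w : A} (h : d ∣ w) {x : X} (hd : d • x = 0) :
    w • x = 0 := by
  obtain ⟨t, rfl⟩ := h
  rw [mul_comm, mul_smul, hd, smul_zero]

variable {p a r D : ℕ} {z : Fin r → A} {e : Fin D → X}

/-- a polynomial all of whose box coefficients are divisible by `p^a` kills `X`. -/
theorem IsBoxBasis.kills (H : IsBoxBasis p a z e) {g : SS r}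
    (hg : ∀ α : Fin r →₀ ℕ, (∀ i, α i < a) → (p : ℤ) ^ a ∣ coeff α g) (x : X) :
    aeval z g • x = 0 := by
  rw [← support_sum_monomial_coeff g, map_sum, Finset.sum_smul]
  refine Finset.sum_eq_zero fun α _ => ?_
  rw [aeval_monomial]
  by_cases hα : ∀ i, α i < a
  · obtain ⟨c, hc⟩ := hg α hα
    refine smul_eq_zero_of_dvd_of_smul (d := (p : A) ^ a) ?_ (H.pa x)
    refine Dvd.dvd.mul_right ?_ _
    rw [hc]
    refine ⟨algebraMap ℤ A c, ?_⟩
    simp
  · push Not at hα
    obtain ⟨i, hi⟩ := hα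
    refine smul_eq_zero_of_dvd_of_smul (d := z i ^ a) ?_ (H.za i x)
    refine Dvd.dvd.mul_left ?_ _
    rw [Finsupp.prod_fintype _ _ (fun _ => pow_zero _)]
    exact (pow_dvd_pow _ hi).trans (Finset.dvd_prod_of_mem (fun j => z j ^ α j) (Finset.mem_univ i))

/-- exponent vector of `γ ∈ [0,m)^r` -/
noncomputable def expo {r m : ℕ} (γ : Fin r → Fin m) : Fin r →₀ ℕ :=
  Finsupp.equivFunOnFinite.symm fun i => (γ i : ℕ)

theorem expo_apply {m : ℕ} (γ : Fin r → Fin m) (i : Fin r) : expo γ i = (γ i : ℕ) := rfl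

theorem expo_injective {m : ℕ} : Function.Injective (expo : (Fin r → Fin m) → Fin r →₀ ℕ) := by
  intro γ γ' h
  funext i
  apply Fin.ext
  rw [← expo_apply, ← expo_apply, h]

theorem expo_degree_le {m : ℕ} (γ : Fin r → Fin m) : (expo γ).degree + r ≤ r * m := by
  rw [Finsupp.degree_eq_sum]
  have h1 : ∑ i, (expo γ i + 1) ≤ ∑ _i : Fin r, m :=
    Finset.sum_le_sum fun i _ => by rw [expo_apply]; exact (γ i).2
  rw [Finset.sum_add_distrib] at h1
  simpa using h1

/-- the polynomial `∑_{γ ∈ [0,m)^r} c_γ z^γ` -/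
noncomputable def boxPoly {r m N : ℕ} (c : (Fin r → Fin m) → Fin N) : SS r :=
  ∑ γ, monomial (expo γ) (((c γ : ℕ) : ℤ))

theorem coeff_boxPoly {m N : ℕ} (c : (Fin r → Fin m) → Fin N) (γ : Fin r → Fin m) :
    coeff (expo γ) (boxPoly c) = ((c γ : ℕ) : ℤ) := by
  classical
  rw [boxPoly, coeff_sum]
  simp only [coeff_monomial]
  rw [Finset.sum_eq_single γ]
  · rw [if_pos rfl]
  · intro γ' _ h
    rw [if_neg fun h' => h (expo_injective h')]
  · intro h
    exact absurd (Finset.mem_univ _) h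

/-- **(R1) [BIG]** -/
theorem big [Finite X] (hp : p.Prime) {B m : ℕ} (H : IsBoxBasis p a z e) (β : X →ₗ[A] X) (x₀ : X)
    (hx₀ : ∀ s ∈ aa p r ^ B, aeval z s • x₀ = 0) (hβ : β x₀ ≠ 0)
    (hm : (r + 1) * m + B ≤ a + 1) :
    p ^ (m ^ (r + 1)) ≤ Nat.card (LinearMap.range β) := by
  classical
  choose w hw using fun v => H.span (β (e v))
  obtain ⟨g, hg⟩ := H.span x₀
  have h1 : ∃ v u, w v u ∉ aa p r ^ B := by
    by_contra hcon
    push Not at hcon
    apply hβ
    have h2 : ∀ s ∈ aa p r ^ B, ∀ v, ∀ x : X, aeval z (s * g v) • x = 0 := by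
      intro s hs v x
      refine H.kills (fun α hα => ?_) x
      refine H.ind (fun v => s * g v) ?_ v α hα
      have := hx₀ s hs
      rw [hg, Finset.smul_sum] at this
      simpa [mul_smul] using this
    rw [hg, map_sum]
    refine Finset.sum_eq_zero fun v _ => ?_
    rw [map_smul, hw v, Finset.smul_sum]
    refine Finset.sum_eq_zero fun u _ => ?_
    rw [← mul_smul, ← map_mul, mul_comm]
    exact h2 _ (hcon v u) v _
  obtain ⟨v, u, hvu⟩ := h1
  let F : ((Fin r → Fin m) → Fin (p ^ m)) → LinearMap.range β := fun c =>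
    ⟨aeval z (boxPoly c) • β (e v), ⟨aeval z (boxPoly c) • e v, by rw [map_smul]⟩⟩
  have hF : Function.Injective F := by
    intro c c' hcc
    have h3 : aeval z (boxPoly c) • β (e v) = aeval z (boxPoly c') • β (e v) :=
      congrArg Subtype.val hcc
    have h4 : ∑ u, aeval z ((boxPoly c - boxPoly c') * w v u) • e u = 0 := by
      have : aeval z (boxPoly c - boxPoly c') • β (e v) = 0 := by
        rw [map_sub, sub_smul, h3, sub_self]
      rw [hw v, Finset.smul_sum] at this
      simpa only [map_mul, mul_smul] using this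
    have h5 : (boxPoly c - boxPoly c') * w v u ∈ aa p r ^ a := by
      rw [mem_aa_pow_iff hp.ne_zero]
      intro α
      by_cases hα : ∀ i, α i < a
      · exact (pow_dvd_pow _ (Nat.sub_le _ _)).trans (H.ind _ h4 u α hα)
      · push Not at hα
        obtain ⟨i, hi⟩ := hα
        have : a ≤ α.degree := hi.trans (Finsupp.le_degree i α)
        rw [Nat.sub_eq_zero_of_le this, pow_zero]
        exact one_dvd _
    have h6 := vp hp h5 hvu
    rw [mem_aa_pow_iff hp.ne_zero] at h6
    funext γ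
    have h7 := h6 (expo γ)
    rw [coeff_sub, coeff_boxPoly, coeff_boxPoly] at h7
    have h8 : (p : ℤ) ^ m ∣ ((c γ : ℕ) : ℤ) - ((c' γ : ℕ) : ℤ) := by
      refine (pow_dvd_pow _ ?_).trans h7
      have := expo_degree_le γ
      rw [Nat.succ_mul] at hm
      omega
    have hc1 : ((c γ : ℕ) : ℤ) < (p : ℤ) ^ m := by exact_mod_cast (c γ).2
    have hc2 : ((c' γ : ℕ) : ℤ) < (p : ℤ) ^ m := by exact_mod_cast (c' γ).2
    generalize (p : ℤ) ^ m = P at h8 hc1 hc2
    have h9 := Int.eq_zero_of_abs_lt_dvd h8 (by rw [abs_lt]; constructor <;> omega)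
    exact Fin.ext (by omega)
  have h10 := Nat.card_le_card_of_injective F hF
  have h11 : Nat.card ((Fin r → Fin m) → Fin (p ^ m)) = p ^ (m ^ (r + 1)) := by
    rw [Nat.card_eq_fintype_card]
    simp only [Fintype.card_fun, Fintype.card_fin]
    rw [← pow_mul, pow_succ']
  rwa [h11] at h10

end Fermat.Agent.ML.Raise
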