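import Mathlib
import Fermat.Agent.ML.Count.Slice

/-!
# ML / RAISE / Long : **[LONG]** a big module with few cogenerators over `(p, y_1..y_r)` contains,
in its `y`-torsion, an element of large order

`A` a commutative ring, `X` a finite `A`-module, `G ≤ X` a submodule.

* `long` : `y_i^E G = 0`, `#G[p,y] ≤ p^d`, `p^(d B E^r) < #G` ⟹ `∃ g ∈ G[y], p^B g ≠ 0`.
* `long_order` : moreover `p^a G = 0` ⟹ for every `B' ≤ B + 1` an element of `G[y]` of exact order `p^B'`.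
-/

set_option autoImplicit false

namespace Fermat.Agent.ML.Raise

open Submodule Fermat.Agent.ML

variable {A : Type*} [CommRing A] {X : Type*} [AddCommGroup X] [Module A X]

/-- **[LONG]** -/
theorem long [Finite X] {ι : Type*} [Fintype ι] {p d B E : ℕ} (G : Submodule A X) (y : ι → A)
    (hnil : ∀ i, ∀ x ∈ G, y i ^ E • x = 0)
    (hsoc : Nat.card ↥(G ⊓ (⨅ i, torsionBy A X (y i)) ⊓ torsionBy A X (p : A)) ≤ p ^ d)
    (hbig : p ^ (d * B * E ^ Fintype.card ι) < Nat.card G) :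
    ∃ g ∈ G, (∀ i, y i • g = 0) ∧ (p : A) ^ B • g ≠ 0 := by
  classical
  by_contra hcon
  push Not at hcon
  have h1 := card_iInf_torsionBy_pow_le y (fun _ => E) Finset.univ G
  simp only [Finset.mem_univ, iInf_pos, Finset.prod_const, Finset.card_univ] at h1
  have e1 : G ⊓ ⨅ i, torsionBy A X (y i ^ E) = G := by
    refine inf_eq_left.2 fun x hx => ?_
    simp only [Submodule.mem_iInf, mem_torsionBy_iff]
    exact fun i => hnil i x hx
  rw [e1] at h1
  have h2 := card_torsionBy_pow_le (G ⊓ ⨅ i, torsionBy A X (y i)) (p : A) B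
  have e2 : (G ⊓ ⨅ i, torsionBy A X (y i)) ⊓ torsionBy A X ((p : A) ^ B) =
      G ⊓ ⨅ i, torsionBy A X (y i) := by
    refine inf_eq_left.2 ?_
    rintro x ⟨hxG, hx⟩
    simp only [SetLike.mem_coe, Submodule.mem_iInf, mem_torsionBy_iff] at hx
    rw [mem_torsionBy_iff]
    exact hcon x hxG hx
  rw [e2] at h2
  have h3 : Nat.card G ≤ p ^ (d * B * E ^ Fintype.card ι) := by
    calc _ ≤ _ := h1
      _ ≤ ((p ^ d) ^ B) ^ (E ^ Fintype.card ι) :=
        Nat.pow_le_pow_left (h2.trans (Nat.pow_le_pow_left hsoc _)) _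
      _ = _ := by rw [← pow_mul, ← pow_mul, mul_assoc]
  exact absurd hbig (not_lt.2 h3)

/-- **[LONG]**, exact order form. -/
theorem long_order [Finite X] {ι : Type*} [Fintype ι] {p a d B E : ℕ} (hp : p.Prime)
    (G : Submodule A X) (y : ι → A)
    (hpa : ∀ x ∈ G, (p : A) ^ a • x = 0)
    (hnil : ∀ i, ∀ x ∈ G, y i ^ E • x = 0)
    (hsoc : Nat.card ↥(G ⊓ (⨅ i, torsionBy A X (y i)) ⊓ torsionBy A X (p : A)) ≤ p ^ d)
    (hbig : p ^ (d * B * E ^ Fintype.card ι) < Nat.card G) {B' : ℕ} (hB' : B' ≤ B + 1) :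
    ∃ v ∈ G, (∀ i, y i • v = 0) ∧ addOrderOf v = p ^ B' := by
  obtain ⟨g, hgG, hgy, hg⟩ := long G y hnil hsoc hbig
  have hcast : ∀ (n : ℕ) (x : X), (p : A) ^ n • x = (p ^ n) • x := by
    intro n x
    rw [← Nat.cast_pow, Nat.cast_smul_eq_nsmul]
  have h1 : addOrderOf g ∣ p ^ a := by
    rw [addOrderOf_dvd_iff_nsmul_eq_zero, ← hcast]
    exact hpa g hgG
  obtain ⟨N, -, hN⟩ := (Nat.dvd_prime_pow hp).1 h1
  have h2 : B < N := by
    by_contra hcon
    apply hg
    rw [hcast, ← addOrderOf_dvd_iff_nsmul_eq_zero, hN]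
    exact pow_dvd_pow _ (not_lt.1 hcon)
  refine ⟨(p ^ (N - B')) • g, G.smul_of_tower_mem _ hgG, fun i => ?_, ?_⟩
  · rw [smul_comm, hgy i, smul_zero]
  · rw [addOrderOf_nsmul_of_dvd (pow_ne_zero _ hp.ne_zero) (by rw [hN]; exact pow_dvd_pow _ (Nat.sub_le _ _)),
      hN, Nat.pow_div (Nat.sub_le _ _) hp.pos]
    congr 1
    omega

end Fermat.Agent.ML.Raise
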