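import Mathlib
import Fermat.Agent.ML.Raise.Big
import Fermat.Agent.ML.Raise.Long

/-!
# ML / RAISE / Step : the abstract stage `j → j+1` = "COUNT at an auxiliary point" + (R1)

`A` a commutative ring acting on the finite modules `X` (`= K_j[box a]`) and `X'` (`= K_(j+1)[box a]`);
`G ≤ X` (`= β_j K_j[box a]`) is BIG; `y_1..y_r ∈ A` the auxiliary point (`m_A = (p, y)` on `G`).

* `aa_pow_smul` : if every `z_i` acts on `U` as a multiple of `p` then `aa^J` acts on `U` through `p^J A`.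
* `step` : BIG(`G`) ⟹ BIG(`β' X'`).
* `step_arith` : the numerical condition holds for `m` large.
-/

set_option autoImplicit false

namespace Fermat.Agent.ML.Raise

open MvPolynomial Submodule

variable {A : Type*} [CommRing A] {X : Type*} [AddCommGroup X] [Module A X]

theorem aa_smul {p r : ℕ} (z : Fin r → A) (U : Submodule A X)
    (hz : ∀ i, ∃ t : A, ∀ x ∈ U, z i • x = ((p : A) * t) • x) :
    ∀ s ∈ aa p r, ∃ t : A, ∀ x ∈ U, aeval z s • x = ((p : A) * t) • x := by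
  intro s hs
  rw [aa] at hs
  induction hs using Submodule.span_induction with
  | mem s hs =>
    rcases hs with rfl | ⟨i, rfl⟩
    · refine ⟨1, fun x _ => ?_⟩
      rw [aeval_C, mul_one]
      simp
    · obtain ⟨t, ht⟩ := hz i
      refine ⟨t, fun x hx => ?_⟩
      rw [aeval_X]
      exact ht x hx
  | zero => exact ⟨0, fun x _ => by simp⟩
  | add s₁ s₂ _ _ h₁ h₂ =>
    obtain ⟨t₁, h₁⟩ := h₁
    obtain ⟨t₂, h₂⟩ := h₂
    refine ⟨t₁ + t₂, fun x hx => ?_⟩
    rw [map_add, add_smul, h₁ x hx, h₂ x hx, mul_add, add_smul]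
  | smul g s _ h =>
    obtain ⟨t, h⟩ := h
    refine ⟨t * aeval z g, fun x hx => ?_⟩
    rw [smul_eq_mul, map_mul, mul_comm, mul_smul, h _ (U.smul_mem _ hx), ← mul_smul, mul_assoc]

/-- if every `z_i` acts on `U` as a multiple of `p` then `aa^J` acts on `U` through `p^J A`. -/
theorem aa_pow_smul {p r : ℕ} (z : Fin r → A) (U : Submodule A X)
    (hz : ∀ i, ∃ t : A, ∀ x ∈ U, z i • x = ((p : A) * t) • x) (J : ℕ) :
    ∀ s ∈ aa p r ^ J, ∃ t : A, ∀ x ∈ U, aeval z s • x = ((p : A) ^ J * t) • x := by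
  induction J with
  | zero =>
    intro s _
    exact ⟨aeval z s, fun x _ => by rw [pow_zero, one_mul]⟩
  | succ J ih =>
    intro s hs
    rw [pow_succ, ← smul_eq_mul] at hs
    induction hs using Submodule.smul_induction_on' with
    | smul s₁ h₁ s₂ h₂ =>
      obtain ⟨t₁, h₁⟩ := ih s₁ h₁
      obtain ⟨t₂, h₂⟩ := aa_smul z U hz s₂ h₂
      refine ⟨t₁ * t₂, fun x hx => ?_⟩
      rw [smul_eq_mul, map_mul, mul_smul, h₂ x hx, h₁ _ (U.smul_mem _ hx), ← mul_smul]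
      congr 1
      ring
    | add s₁ _ s₂ _ h₁ h₂ =>
      obtain ⟨t₁, h₁⟩ := h₁
      obtain ⟨t₂, h₂⟩ := h₂
      refine ⟨t₁ + t₂, fun x hx => ?_⟩
      rw [map_add, add_smul, h₁ x hx, h₂ x hx, mul_add, add_smul]

/-- **[STEP]** the abstract raising step.  `G` is BIG; `(p, y)` cogenerates it with `≤ p^d` elements; on `G[y]` : every
`z_i` is a multiple of `p`, `β'` is the integer `N` (`p^(f+1) ∤ N`), and every class is transported to `X'` with the same
annihilator (`hemb` = `e_q`, injective and `A`-linear).  Then `β' X'` is BIG. -/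
theorem step [Finite X] {X' : Type*} [AddCommGroup X'] [Module A X'] [Finite X']
    {p a r D d E f m : ℕ} (hp : p.Prime) (z y : Fin r → A) (G : Submodule A X)
    (hpa : ∀ x ∈ G, (p : A) ^ a • x = 0)
    (hnil : ∀ i, ∀ x ∈ G, y i ^ E • x = 0)
    (hsoc : Nat.card ↥(G ⊓ (⨅ i, torsionBy A X (y i)) ⊓ torsionBy A X (p : A)) ≤ p ^ d)
    (hbig : p ^ (d * f * E ^ r) < Nat.card G)
    (hz : ∀ i, ∃ t : A, ∀ x ∈ G, (∀ k, y k • x = 0) → z i • x = ((p : A) * t) • x)
    (β' : A) (N : ℤ) (hN : ¬ (p : ℤ) ^ (f + 1) ∣ N)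
    (hβ' : ∀ x ∈ G, (∀ k, y k • x = 0) → β' • x = N • x)
    (hemb : ∀ x ∈ G, (∀ k, y k • x = 0) → ∃ x' : X', ∀ s : A, s • x' = 0 ↔ s • x = 0)
    {e' : Fin D → X'} (H' : IsBoxBasis p a z e') (hm : (r + 1) * m + (f + 1) ≤ a + 1) :
    p ^ (m ^ (r + 1)) ≤ Nat.card (LinearMap.range (LinearMap.lsmul A X' β')) := by
  have hbig' : p ^ (d * f * E ^ Fintype.card (Fin r)) < Nat.card G := by
    rwa [Fintype.card_fin]
  obtain ⟨v, hvG, hvy, hv⟩ := long_order hp G y hpa hnil hsoc hbig' (le_refl (f + 1))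
  obtain ⟨v', hv'⟩ := hemb v hvG hvy
  set U : Submodule A X := G ⊓ ⨅ i, torsionBy A X (y i) with hU
  have hmemU : ∀ x, x ∈ U ↔ x ∈ G ∧ ∀ k, y k • x = 0 := by
    intro x
    simp [hU, Submodule.mem_inf, Submodule.mem_iInf, mem_torsionBy_iff]
  have hzU : ∀ i, ∃ t : A, ∀ x ∈ U, z i • x = ((p : A) * t) • x := by
    intro i
    obtain ⟨t, ht⟩ := hz i
    exact ⟨t, fun x hx => ht x ((hmemU x).1 hx).1 ((hmemU x).1 hx).2⟩
  refine big hp H' (LinearMap.lsmul A X' β') v' (B := f + 1) ?_ ?_ hm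
  · intro s hs
    rw [hv']
    obtain ⟨t, ht⟩ := aa_pow_smul z U hzU (f + 1) s hs
    rw [ht v ((hmemU v).2 ⟨hvG, hvy⟩), mul_comm, mul_smul, ← Nat.cast_pow, Nat.cast_smul_eq_nsmul,
      ← hv, addOrderOf_nsmul_eq_zero, smul_zero]
  · show β' • v' ≠ 0
    rw [Ne, hv', hβ' v hvG hvy, ← addOrderOf_dvd_iff_zsmul_eq_zero, hv]
    exact_mod_cast hN

/-- the numerical condition of `step` (`hbig` at the next stage) holds as soon as `m` is large. -/
theorem step_arith {r d f e a m B : ℕ} (ha : a + 1 = (r + 1) * m + B) (hB : B ≤ m)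
    (hm : d * f * (e * (r + 2) ^ 2) ^ r < m) :
    d * f * (e * ((r + 1) * a + 1)) ^ r < m ^ (r + 1) := by
  have hm0 : 0 < m := by omega
  have h1 : a + 1 ≤ (r + 2) * m := by
    rw [ha]
    nlinarith
  have h2 : (r + 1) * a + 1 ≤ (r + 2) ^ 2 * m := by
    have : (r + 1) * a + 1 ≤ (r + 2) * (a + 1) := by nlinarith
    calc _ ≤ _ := this
      _ ≤ (r + 2) * ((r + 2) * m) := Nat.mul_le_mul_left _ h1
      _ = _ := by ring
  have h3 : (e * ((r + 1) * a + 1)) ^ r ≤ (e * (r + 2) ^ 2) ^ r * m ^ r := by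
    rw [← mul_pow]
    refine Nat.pow_le_pow_left ?_ _
    calc _ ≤ e * ((r + 2) ^ 2 * m) := Nat.mul_le_mul_left _ h2
      _ = _ := by ring
  calc d * f * (e * ((r + 1) * a + 1)) ^ r ≤ d * f * ((e * (r + 2) ^ 2) ^ r * m ^ r) :=
        Nat.mul_le_mul_left _ h3
    _ = (d * f * (e * (r + 2) ^ 2) ^ r) * m ^ r := by ring
    _ < m * m ^ r := Nat.mul_lt_mul_of_pos_right hm (pow_pos hm0 r)
    _ = _ := by rw [pow_succ']

end Fermat.Agent.ML.Raise
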