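import Mathlib
import Fermat.Agent.ML.Raise.Step
import Fermat.Agent.ML.Count.Soc
import Fermat.Agent.ML.Count.Min

/-!
# ML / RAISE / Step2 : the abstract stage with the hypotheses in the form delivered by GEN / NIL / TWFREE

* `pow_smul_eq_zero_of_card_lt` : a nilpotent `y` kills a submodule with `< 2^e` elements after `e` steps.
* `nil_box` : `t^e X[p,z] = 0` ⟹ `t^(e ((r+1) a + 1)) = 0` on a module killed by `p^a, z_i^a`.
* `step2` : `step` from  (GEN) `z_i ∈ Ann G + (p, y)`,  `y_k` nilpotent,  (COGEN) `#X[p,z] ≤ p^d`.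
-/

set_option autoImplicit false

namespace Fermat.Agent.ML.Raise

open MvPolynomial Submodule Fermat.Agent.ML Fermat.Agent.RIB

variable {A : Type*} [CommRing A] {X : Type*} [AddCommGroup X] [Module A X]

theorem pow_smul_eq_zero_of_card_lt [Finite X] (U : Submodule A X) (y : A)
    (hN : ∃ N : ℕ, ∀ x ∈ U, y ^ N • x = 0) {e : ℕ} (he : Nat.card U < 2 ^ e) :
    ∀ x ∈ U, y ^ e • x = 0 := by
  obtain ⟨N, hN⟩ := hN
  have h1 : U ≤ soc (fun _ : Unit => y) e := by
    refine Count.Soc.le_soc_of_card_lt _ U ⟨N, fun x hx => ?_⟩ he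
    rw [Count.Soc.mem_soc_iff_ideal]
    intro t ht
    rw [Set.range_const, Ideal.span_singleton_pow, Ideal.mem_span_singleton] at ht
    exact smul_eq_zero_of_dvd_of_smul ht (hN x hx)
  intro x hx
  have h2 : y ∈ Ideal.span (Set.range fun _ : Unit => y) := Ideal.subset_span ⟨(), rfl⟩
  exact (Count.Soc.mem_soc_iff_ideal _ e x).1 (h1 hx) _ (Ideal.pow_mem_pow h2 e)

/-- **[NIL]** on a box. -/
theorem nil_box {p a r e : ℕ} (z : Fin r → A) (hpa : ∀ x : X, (p : A) ^ a • x = 0)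
    (hza : ∀ (i : Fin r) (x : X), z i ^ a • x = 0) (t : A)
    (ht : ∀ w : X, (p : A) • w = 0 → (∀ i, z i • w = 0) → t ^ e • w = 0) (w : X) :
    t ^ (e * ((r + 1) * a + 1)) • w = 0 := by
  classical
  let g : Option (Fin r) → A := fun o => o.elim (p : A) z
  set 𝔞 : Ideal A :=
    Ideal.span (g '' ((Finset.univ : Finset (Option (Fin r))) : Set (Option (Fin r)))) with h𝔞
  refine pow_smul_eq_zero_of_pow 𝔞 t e (fun w' hw' => ?_) _ w (fun s hs => ?_)
  · refine ht w' (hw' _ (Ideal.subset_span ⟨none, by simp, rfl⟩)) fun i => ?_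
    exact hw' _ (Ideal.subset_span ⟨some i, by simp, rfl⟩)
  · have h1 := span_pow_card_mul_le g a (Finset.univ : Finset (Option (Fin r)))
    rw [Finset.card_univ, Fintype.card_option, Fintype.card_fin] at h1
    refine smul_eq_zero_of_mem_span ?_ s (h1 hs)
    rintro _ ⟨o, -, rfl⟩
    cases o with
    | none => exact hpa w
    | some i => exact hza i w

/-- **[STEP]**, hypotheses in the form delivered by GEN (`hgen`), RHO (`hynil`), TWFREE (`hcogen`, `H'`). -/
theorem step2 [Finite X] {X' : Type*} [AddCommGroup X'] [Module A X'] [Finite X']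
    {p a r D d e f m : ℕ} (hp : p.Prime) (z y : Fin r → A)
    (hpa : ∀ x : X, (p : A) ^ a • x = 0) (hza : ∀ (i : Fin r) (x : X), z i ^ a • x = 0)
    (hcogen : Nat.card ↥(torsionBy A X (p : A) ⊓ ⨅ i, torsionBy A X (z i)) ≤ p ^ d)
    (he : p ^ d < 2 ^ e)
    (hynil : ∀ k, ∃ N : ℕ, ∀ x : X, y k ^ N • x = 0)
    (G : Submodule A X)
    (hgen : ∀ i, ∃ (t : A) (w : Fin r → A), ∀ x ∈ G,
      z i • x = ((p : A) * t) • x + ∑ k, w k • y k • x)
    (hbig : p ^ (d * f * (e * ((r + 1) * a + 1)) ^ r) < Nat.card G)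
    (β' : A) (N : ℤ) (hN : ¬ (p : ℤ) ^ (f + 1) ∣ N)
    (hβ' : ∀ x ∈ G, (∀ k, y k • x = 0) → β' • x = N • x)
    (hemb : ∀ x ∈ G, (∀ k, y k • x = 0) → ∃ x' : X', ∀ s : A, s • x' = 0 ↔ s • x = 0)
    {e' : Fin D → X'} (H' : IsBoxBasis p a z e') (hm : (r + 1) * m + (f + 1) ≤ a + 1) :
    p ^ (m ^ (r + 1)) ≤ Nat.card (LinearMap.range (LinearMap.lsmul A X' β')) := by
  have hz : ∀ i, ∃ t : A, ∀ x ∈ G, (∀ k, y k • x = 0) → z i • x = ((p : A) * t) • x := by
    intro i
    obtain ⟨t, w, h⟩ := hgen i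
    refine ⟨t, fun x hx hy => ?_⟩
    rw [h x hx, Finset.sum_eq_zero fun k _ => by rw [hy k, smul_zero], add_zero]
  refine step hp z y G (fun x _ => hpa x) (E := e * ((r + 1) * a + 1)) (fun k x _ => ?_) ?_ hbig hz
    β' N hN hβ' hemb H' hm
  · refine nil_box z hpa hza (y k) (fun w hw1 hw2 => ?_) x
    refine pow_smul_eq_zero_of_card_lt (torsionBy A X (p : A) ⊓ ⨅ i, torsionBy A X (z i)) (y k) ?_
      (lt_of_le_of_lt hcogen he) w ?_
    · obtain ⟨N, hN⟩ := hynil k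
      exact ⟨N, fun x _ => hN x⟩
    · simp only [Submodule.mem_inf, Submodule.mem_iInf, mem_torsionBy_iff]
      exact ⟨hw1, hw2⟩
  · refine (card_le_of_le ?_).trans hcogen
    rintro x ⟨⟨hxG, hxy⟩, hxp⟩
    simp only [SetLike.mem_coe, Submodule.mem_iInf, mem_torsionBy_iff] at hxy hxp
    simp only [Submodule.mem_inf, Submodule.mem_iInf, mem_torsionBy_iff]
    refine ⟨hxp, fun i => ?_⟩
    obtain ⟨t, ht⟩ := hz i
    rw [ht x hxG hxy, mul_comm, mul_smul, hxp, smul_zero]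

end Fermat.Agent.ML.Raise
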