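import Mathlib
import Fermat.Agent.ML.Raise.Step2

/-!
# ML / RAISE / Final : the last stage = COUNT-LIFT at the point `x_W`

Same hypotheses as `step2` (`y` := the generators of `PP = ker πE` modulo `Ann G ∩ PP`), conclusion: a class of `G[y] = G[PP]` of
exact order `p^B'`.

* `final2` ;  `big0` : the first stage (`BIG(β₀ X)` from one class of the socle which is not killed by `β₀`).
-/

set_option autoImplicit false

namespace Fermat.Agent.ML.Raise

open MvPolynomial Submodule Fermat.Agent.ML Fermat.Agent.RIB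

variable {A : Type*} [CommRing A] {X : Type*} [AddCommGroup X] [Module A X]

/-- **[FINAL]** -/
theorem final2 [Finite X] {p a r d e B B' : ℕ} (hp : p.Prime) (z y : Fin r → A)
    (hpa : ∀ x : X, (p : A) ^ a • x = 0) (hza : ∀ (i : Fin r) (x : X), z i ^ a • x = 0)
    (hcogen : Nat.card ↥(torsionBy A X (p : A) ⊓ ⨅ i, torsionBy A X (z i)) ≤ p ^ d)
    (he : p ^ d < 2 ^ e)
    (hynil : ∀ k, ∃ N : ℕ, ∀ x : X, y k ^ N • x = 0)
    (G : Submodule A X)
    (hgen : ∀ i, ∃ (t : A) (w : Fin r → A), ∀ x ∈ G,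
      z i • x = ((p : A) * t) • x + ∑ k, w k • y k • x)
    (hbig : p ^ (d * B * (e * ((r + 1) * a + 1)) ^ r) < Nat.card G) (hB' : B' ≤ B + 1) :
    ∃ v ∈ G, (∀ k, y k • v = 0) ∧ addOrderOf v = p ^ B' := by
  have hz : ∀ i, ∃ t : A, ∀ x ∈ G, (∀ k, y k • x = 0) → z i • x = ((p : A) * t) • x := by
    intro i
    obtain ⟨t, w, h⟩ := hgen i
    refine ⟨t, fun x hx hy => ?_⟩
    rw [h x hx, Finset.sum_eq_zero fun k _ => by rw [hy k, smul_zero], add_zero]
  have hbig' : p ^ (d * B * (e * ((r + 1) * a + 1)) ^ Fintype.card (Fin r)) < Nat.card G := by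
    rwa [Fintype.card_fin]
  refine long_order hp G y (fun x _ => hpa x) (E := e * ((r + 1) * a + 1)) (fun k x _ => ?_) ?_
    hbig' hB'
  · refine nil_box z hpa hza (y k) (fun w hw1 hw2 => ?_) x
    refine pow_smul_eq_zero_of_card_lt (torsionBy A X (p : A) ⊓ ⨅ i, torsionBy A X (z i)) (y k) ?_
      (lt_of_le_of_lt hcogen he) w ?_
    · obtain ⟨N, hN⟩ := hynil k
      exact ⟨N, fun x _ => hN x⟩
    · simp only [Submodule.mem_inf, Submodule.mem_iInf, mem_torsionBy_iff]
      exact ⟨hw1, hw2⟩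
  · refine (card_le_of_le ?_).trans hcogen
    rintro x ⟨⟨hxG, hxy⟩, hxp⟩
    simp only [SetLike.mem_coe, Submodule.mem_iInf, mem_torsionBy_iff] at hxy hxp
    simp only [Submodule.mem_inf, Submodule.mem_iInf, mem_torsionBy_iff]
    refine ⟨hxp, fun i => ?_⟩
    obtain ⟨t, ht⟩ := hz i
    rw [ht x hxG hxy, mul_comm, mul_smul, hxp, smul_zero]

/-- a class killed by `p` and by the `z_i` is killed by `aa`. -/
theorem aa_smul_eq_zero {p r : ℕ} (z : Fin r → A) {x : X} (hp : (p : A) • x = 0)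
    (hz : ∀ i, z i • x = 0) : ∀ s ∈ aa p r ^ 1, aeval z s • x = 0 := by
  intro s hs
  rw [pow_one, aa] at hs
  induction hs using Submodule.span_induction with
  | mem s hs =>
    rcases hs with rfl | ⟨i, rfl⟩
    · rw [aeval_C]
      simpa using hp
    · rw [aeval_X]
      exact hz i
  | zero => simp
  | add s₁ s₂ _ _ h₁ h₂ => rw [map_add, add_smul, h₁, h₂, add_zero]
  | smul g s _ h => rw [smul_eq_mul, map_mul, mul_smul, h, smul_zero]

/-- **[BIG₀]** the first stage. -/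
theorem big0 [Finite X] {p a r D m : ℕ} (hp : p.Prime) {z : Fin r → A} {e : Fin D → X}
    (H : IsBoxBasis p a z e) (β : A) (x₀ : X) (hp0 : (p : A) • x₀ = 0) (hz0 : ∀ i, z i • x₀ = 0)
    (hβ : β • x₀ ≠ 0) (hm : (r + 1) * m ≤ a) :
    p ^ (m ^ (r + 1)) ≤ Nat.card (LinearMap.range (LinearMap.lsmul A X β)) :=
  big hp H (LinearMap.lsmul A X β) x₀ (B := 1) (aa_smul_eq_zero z hp0 hz0) hβ (by omega)

end Fermat.Agent.ML.Raise
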