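import Mathlib
import Fermat.Agent.ML.Raise.Final

/-!
# ML / RAISE / StepK : `step2`, `final2` with the auxiliary point `y` indexed by ANY finite type `κ`

(so that `y` can be a `Sum` of the families `b_i - p`, `c_i`, `x_k` : no `Fin` casts).
-/

set_option autoImplicit false

namespace Fermat.Agent.ML.Raise

open MvPolynomial Submodule Fermat.Agent.ML Fermat.Agent.RIB

variable {A : Type*} [CommRing A] {X : Type*} [AddCommGroup X] [Module A X]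

section aux

variable {κ : Type*} {p a r d e : ℕ} (z : Fin r → A) (y : κ → A)

theorem hz_of_hgen [Fintype κ] (G : Submodule A X)
    (hgen : ∀ i, ∃ (t : A) (w : κ → A), ∀ x ∈ G,
      z i • x = ((p : A) * t) • x + ∑ k, w k • y k • x) :
    ∀ i, ∃ t : A, ∀ x ∈ G, (∀ k, y k • x = 0) → z i • x = ((p : A) * t) • x := by
  intro i
  obtain ⟨t, w, h⟩ := hgen i
  refine ⟨t, fun x hx hy => ?_⟩
  rw [h x hx, Finset.sum_eq_zero fun k _ => by rw [hy k, smul_zero], add_zero]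

theorem hnil_of_cogen [Finite X]
    (hpa : ∀ x : X, (p : A) ^ a • x = 0) (hza : ∀ (i : Fin r) (x : X), z i ^ a • x = 0)
    (hcogen : Nat.card ↥(torsionBy A X (p : A) ⊓ ⨅ i, torsionBy A X (z i)) ≤ p ^ d)
    (he : p ^ d < 2 ^ e) (hynil : ∀ k, ∃ N : ℕ, ∀ x : X, y k ^ N • x = 0) (k : κ) (x : X) :
    y k ^ (e * ((r + 1) * a + 1)) • x = 0 := by
  refine nil_box z hpa hza (y k) (fun w hw1 hw2 => ?_) x
  refine pow_smul_eq_zero_of_card_lt (torsionBy A X (p : A) ⊓ ⨅ i, torsionBy A X (z i)) (y k) ?_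
    (lt_of_le_of_lt hcogen he) w ?_
  · obtain ⟨N, hN⟩ := hynil k
    exact ⟨N, fun x _ => hN x⟩
  · simp only [Submodule.mem_inf, Submodule.mem_iInf, mem_torsionBy_iff]
    exact ⟨hw1, hw2⟩

theorem hsoc_of_cogen [Finite X] (G : Submodule A X)
    (hcogen : Nat.card ↥(torsionBy A X (p : A) ⊓ ⨅ i, torsionBy A X (z i)) ≤ p ^ d)
    (hz : ∀ i, ∃ t : A, ∀ x ∈ G, (∀ k, y k • x = 0) → z i • x = ((p : A) * t) • x) :
    Nat.card ↥(G ⊓ (⨅ k, torsionBy A X (y k)) ⊓ torsionBy A X (p : A)) ≤ p ^ d := by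
  refine (card_le_of_le ?_).trans hcogen
  rintro x ⟨⟨hxG, hxy⟩, hxp⟩
  simp only [SetLike.mem_coe, Submodule.mem_iInf, mem_torsionBy_iff] at hxy hxp
  simp only [Submodule.mem_inf, Submodule.mem_iInf, mem_torsionBy_iff]
  refine ⟨hxp, fun i => ?_⟩
  obtain ⟨t, ht⟩ := hz i
  rw [ht x hxG hxy, mul_comm, mul_smul, hxp, smul_zero]

end aux

/-- **[STEP]**, `y` indexed by `κ`. -/
theorem step2K [Finite X] {X' : Type*} [AddCommGroup X'] [Module A X'] [Finite X']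
    {κ : Type*} [Fintype κ] {p a r D d e f m : ℕ} (hp : p.Prime) (z : Fin r → A) (y : κ → A)
    (hpa : ∀ x : X, (p : A) ^ a • x = 0) (hza : ∀ (i : Fin r) (x : X), z i ^ a • x = 0)
    (hcogen : Nat.card ↥(torsionBy A X (p : A) ⊓ ⨅ i, torsionBy A X (z i)) ≤ p ^ d)
    (he : p ^ d < 2 ^ e)
    (hynil : ∀ k, ∃ N : ℕ, ∀ x : X, y k ^ N • x = 0)
    (G : Submodule A X)
    (hgen : ∀ i, ∃ (t : A) (w : κ → A), ∀ x ∈ G,
      z i • x = ((p : A) * t) • x + ∑ k, w k • y k • x)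
    (hbig : p ^ (d * f * (e * ((r + 1) * a + 1)) ^ Fintype.card κ) < Nat.card G)
    (β' : A) (N : ℤ) (hN : ¬ (p : ℤ) ^ (f + 1) ∣ N)
    (hβ' : ∀ x ∈ G, (∀ k, y k • x = 0) → β' • x = N • x)
    (hemb : ∀ x ∈ G, (∀ k, y k • x = 0) → ∃ x' : X', ∀ s : A, s • x' = 0 ↔ s • x = 0)
    {e' : Fin D → X'} (H' : IsBoxBasis p a z e') (hm : (r + 1) * m + (f + 1) ≤ a + 1) :
    p ^ (m ^ (r + 1)) ≤ Nat.card (LinearMap.range (LinearMap.lsmul A X' β')) := by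
  have hz := hz_of_hgen (p := p) z y G hgen
  obtain ⟨v, hvG, hvy, hv⟩ := long_order hp G y (fun x _ => hpa x)
    (fun k x _ => hnil_of_cogen z y hpa hza hcogen he hynil k x)
    (hsoc_of_cogen z y G hcogen hz) hbig (le_refl (f + 1))
  obtain ⟨v', hv'⟩ := hemb v hvG hvy
  set U : Submodule A X := G ⊓ ⨅ k, torsionBy A X (y k) with hU
  have hmemU : ∀ x, x ∈ U ↔ x ∈ G ∧ ∀ k, y k • x = 0 := by
    intro x
    simp [hU, Submodule.mem_inf, Submodule.mem_iInf, mem_torsionBy_iff]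
  have hzU : ∀ i, ∃ t : A, ∀ x ∈ U, z i • x = ((p : A) * t) • x := by
    intro i
    obtain ⟨t, ht⟩ := hz i
    exact ⟨t, fun x hx => ht x ((hmemU x).1 hx).1 ((hmemU x).1 hx).2⟩
  refine big hp H' (LinearMap.lsmul A X' β') v' (B := f + 1) ?_ ?_ hm
  · intro s hs
    rw [hv']
    obtain ⟨t, ht⟩ := aa_pow_smul z U hzU (f + 1) s hs
    rw [ht v ((hmemU v).2 ⟨hvG, hvy⟩), mul_comm, mul_smul, ← Nat.cast_pow, Nat.cast_smul_eq_nsmul,
      ← hv, addOrderOf_nsmul_eq_zero, smul_zero]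
  · show β' • v' ≠ 0
    rw [Ne, hv', hβ' v hvG hvy, ← addOrderOf_dvd_iff_zsmul_eq_zero, hv]
    exact_mod_cast hN

/-- **[FINAL]**, `y` indexed by `κ`. -/
theorem final2K [Finite X] {κ : Type*} [Fintype κ] {p a r d e B B' : ℕ} (hp : p.Prime)
    (z : Fin r → A) (y : κ → A)
    (hpa : ∀ x : X, (p : A) ^ a • x = 0) (hza : ∀ (i : Fin r) (x : X), z i ^ a • x = 0)
    (hcogen : Nat.card ↥(torsionBy A X (p : A) ⊓ ⨅ i, torsionBy A X (z i)) ≤ p ^ d)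
    (he : p ^ d < 2 ^ e)
    (hynil : ∀ k, ∃ N : ℕ, ∀ x : X, y k ^ N • x = 0)
    (G : Submodule A X)
    (hgen : ∀ i, ∃ (t : A) (w : κ → A), ∀ x ∈ G,
      z i • x = ((p : A) * t) • x + ∑ k, w k • y k • x)
    (hbig : p ^ (d * B * (e * ((r + 1) * a + 1)) ^ Fintype.card κ) < Nat.card G)
    (hB' : B' ≤ B + 1) :
    ∃ v ∈ G, (∀ k, y k • v = 0) ∧ addOrderOf v = p ^ B' :=
  long_order hp G y (fun x _ => hpa x)
    (fun k x _ => hnil_of_cogen z y hpa hza hcogen he hynil k x)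
    (hsoc_of_cogen z y G hcogen (hz_of_hgen (p := p) z y G hgen)) hbig hB'

/-- **(GEN) ⟹ `hgen`** : `z ∈ Ann G + (u_k) + (p)` and `y_k = u_k - p δ_k`. -/
theorem hgen_of_mem {κ : Type*} [Fintype κ] {p : ℕ} (G : Submodule A X) (u δ : κ → A) {z : A}
    (h : z ∈ G.annihilator ⊔ Ideal.span (Set.range u) ⊔ Ideal.span {(p : A)}) :
    ∃ (t : A) (w : κ → A), ∀ x ∈ G,
      z • x = ((p : A) * t) • x + ∑ k, w k • (u k - (p : A) * δ k) • x := by
  obtain ⟨z₁, hz₁, z₂, hz₂, rfl⟩ := Submodule.mem_sup.1 h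
  obtain ⟨z₀, hz₀, z₃, hz₃, rfl⟩ := Submodule.mem_sup.1 hz₁
  obtain ⟨t₀, rfl⟩ := Ideal.mem_span_singleton'.1 hz₂
  obtain ⟨w, rfl⟩ := (Ideal.mem_span_range_iff_exists_fun).1 hz₃
  refine ⟨t₀ + ∑ k, w k * δ k, w, fun x hx => ?_⟩
  have h0 : z₀ • x = 0 := (Submodule.mem_annihilator.1 hz₀) x hx
  rw [add_smul, add_smul, h0, zero_add, Finset.sum_smul]
  have e1 : ∀ k, w k • (u k - (p : A) * δ k) • x = (w k * u k) • x - ((p : A) * (w k * δ k)) • x := by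
    intro k
    rw [← mul_smul, ← sub_smul]
    congr 1
    ring
  simp only [e1, Finset.sum_sub_distrib]
  rw [mul_add, add_smul, Finset.mul_sum, Finset.sum_smul, mul_comm t₀]
  abel

end Fermat.Agent.ML.Raise
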