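import Mathlib
import Fermat.Agent.ML.Raise.StepK
import Fermat.Agent.ML.Count.BoxBridge

/-!
# ML / RAISE / StepS : `step2K`, `final2K`, `big0` for SUBMODULES `Y ≤ V`, `Y' ≤ V'`, with the box basis of `Y'` replaced by
its numerical criterion (helper57's `exists_isBoxBasis`).
-/

set_option autoImplicit false

namespace Fermat.Agent.ML.Raise

open Submodule Fermat.Agent.ML

variable {A : Type*} [CommRing A] {V : Type*} [AddCommGroup V] [Module A V]

theorem card_comap_subtype (Y P : Submodule A V) :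
    Nat.card ↥(P.comap Y.subtype) = Nat.card ↥(Y ⊓ P) := by
  have e : P.comap Y.subtype = (Y ⊓ P).comap Y.subtype := by
    ext x
    simp
  rw [e]
  exact Nat.card_congr (Submodule.comapSubtypeEquivOfLe inf_le_left).toEquiv

theorem torsionBy_subtype (Y : Submodule A V) (c : A) :
    torsionBy A ↥Y c = (torsionBy A V c).comap Y.subtype := by
  ext x
  simp only [mem_torsionBy_iff, Submodule.mem_comap, Submodule.subtype_apply]
  rw [← Submodule.coe_smul, Submodule.coe_eq_zero]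

theorem card_soc_subtype {r : ℕ} (Y : Submodule A V) (c : A) (z : Fin r → A) :
    Nat.card ↥(torsionBy A ↥Y c ⊓ ⨅ i, torsionBy A ↥Y (z i)) =
      Nat.card ↥(Y ⊓ (torsionBy A V c ⊓ ⨅ i, torsionBy A V (z i))) := by
  rw [← card_comap_subtype Y, Submodule.comap_inf, Submodule.comap_iInf, torsionBy_subtype]
  simp only [torsionBy_subtype]

theorem card_range_lsmul (Y : Submodule A V) (β : A) :
    Nat.card ↥(LinearMap.range (LinearMap.lsmul A ↥Y β)) =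
      Nat.card ↥(Y.map (LinearMap.lsmul A V β)) := by
  have e : Y.map (LinearMap.lsmul A V β) =
      (LinearMap.range (LinearMap.lsmul A ↥Y β)).map Y.subtype := by
    ext x
    simp only [Submodule.mem_map, LinearMap.mem_range, LinearMap.lsmul_apply,
      Submodule.subtype_apply]
    constructor
    · rintro ⟨y, hy, rfl⟩
      exact ⟨β • ⟨y, hy⟩, ⟨⟨y, hy⟩, rfl⟩, rfl⟩
    · rintro ⟨_, ⟨y, rfl⟩, rfl⟩
      exact ⟨y.1, y.2, rfl⟩
  rw [e]
  exact Nat.card_congr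
    (Submodule.equivMapOfInjective Y.subtype Y.injective_subtype _).toEquiv

/-- box basis of a submodule from the numerical criterion. -/
theorem exists_isBoxBasis_sub [Finite V] (p : ℕ) [Fact p.Prime] {r D a : ℕ} (ha : 1 ≤ a)
    (z : Fin r → A) (Y : Submodule A V)
    (hpa : ∀ x ∈ Y, (p : A) ^ a • x = 0) (hza : ∀ (i : Fin r), ∀ x ∈ Y, z i ^ a • x = 0)
    (hcogen : Nat.card ↥(Y ⊓ (torsionBy A V (p : A) ⊓ ⨅ i, torsionBy A V (z i))) ≤ p ^ D)
    (hsize : p ^ (D * a ^ (r + 1)) ≤ Nat.card Y) :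
    ∃ e : Fin D → ↥Y, IsBoxBasis p a z e :=
  exists_isBoxBasis p ha z (fun x => Subtype.ext (hpa x.1 x.2))
    (fun i x => Subtype.ext (hza i x.1 x.2)) (by rw [card_soc_subtype]; exact hcogen) hsize

/-- **[STEP]**, submodule form. -/
theorem step2S [Finite V] {V' : Type*} [AddCommGroup V'] [Module A V'] [Finite V']
    {κ : Type*} [Fintype κ] {p a r D d e f m : ℕ} [Fact p.Prime] (ha : 1 ≤ a) (z : Fin r → A)
    (y : κ → A) (Y G : Submodule A V) (hGY : G ≤ Y)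
    (hpa : ∀ x ∈ Y, (p : A) ^ a • x = 0) (hza : ∀ (i : Fin r), ∀ x ∈ Y, z i ^ a • x = 0)
    (hcogen : Nat.card ↥(Y ⊓ (torsionBy A V (p : A) ⊓ ⨅ i, torsionBy A V (z i))) ≤ p ^ d)
    (he : p ^ d < 2 ^ e)
    (hynil : ∀ k, ∃ N : ℕ, ∀ x ∈ Y, y k ^ N • x = 0)
    (hgen : ∀ i, ∃ (t : A) (w : κ → A), ∀ x ∈ G,
      z i • x = ((p : A) * t) • x + ∑ k, w k • y k • x)
    (hbig : p ^ (d * f * (e * ((r + 1) * a + 1)) ^ Fintype.card κ) < Nat.card G)
    (β' : A) (N : ℤ) (hN : ¬ (p : ℤ) ^ (f + 1) ∣ N)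
    (hβ' : ∀ x ∈ G, (∀ k, y k • x = 0) → β' • x = N • x)
    (Y' : Submodule A V')
    (hemb : ∀ x ∈ G, (∀ k, y k • x = 0) → ∃ x' ∈ Y', ∀ s : A, s • x' = 0 ↔ s • x = 0)
    (hpa' : ∀ x ∈ Y', (p : A) ^ a • x = 0) (hza' : ∀ (i : Fin r), ∀ x ∈ Y', z i ^ a • x = 0)
    (hcogen' : Nat.card ↥(Y' ⊓ (torsionBy A V' (p : A) ⊓ ⨅ i, torsionBy A V' (z i))) ≤ p ^ D)
    (hsize' : p ^ (D * a ^ (r + 1)) ≤ Nat.card Y')
    (hm : (r + 1) * m + (f + 1) ≤ a + 1) :
    p ^ (m ^ (r + 1)) ≤ Nat.card ↥(Y'.map (LinearMap.lsmul A V' β')) := by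
  obtain ⟨e', H'⟩ := exists_isBoxBasis_sub p ha z Y' hpa' hza' hcogen' hsize'
  rw [← card_range_lsmul]
  have hcG : Nat.card ↥(G.comap Y.subtype) = Nat.card G := by
    rw [card_comap_subtype, inf_eq_right.2 hGY]
  refine step2K (X := ↥Y) (X' := ↥Y') (Fact.out : p.Prime) z y
    (fun x => Subtype.ext (hpa x.1 x.2)) (fun i x => Subtype.ext (hza i x.1 x.2))
    (by rw [card_soc_subtype]; exact hcogen) he ?_ (G.comap Y.subtype) ?_
    (by rw [hcG]; exact hbig) β' N hN ?_ ?_ H' hm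
  · intro k
    obtain ⟨N, hN⟩ := hynil k
    exact ⟨N, fun x => Subtype.ext (hN x.1 x.2)⟩
  · intro i
    obtain ⟨t, w, h⟩ := hgen i
    refine ⟨t, w, fun x hx => Subtype.ext ?_⟩
    have := h x.1 hx
    simpa using this
  · intro x hx hy
    refine Subtype.ext ?_
    have := hβ' x.1 hx fun k => by simpa using congrArg Subtype.val (hy k)
    simpa using this
  · intro x hx hy
    obtain ⟨x', hx', h⟩ := hemb x.1 hx fun k => by simpa using congrArg Subtype.val (hy k)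
    refine ⟨⟨x', hx'⟩, fun s => ?_⟩
    rw [← Submodule.coe_eq_zero, ← Submodule.coe_eq_zero (x := s • x)]
    exact h s

/-- **[FINAL]**, submodule form. -/
theorem final2S [Finite V] {κ : Type*} [Fintype κ] {p a r d e B B' : ℕ} (hp : p.Prime)
    (z : Fin r → A) (y : κ → A) (Y G : Submodule A V) (hGY : G ≤ Y)
    (hpa : ∀ x ∈ Y, (p : A) ^ a • x = 0) (hza : ∀ (i : Fin r), ∀ x ∈ Y, z i ^ a • x = 0)
    (hcogen : Nat.card ↥(Y ⊓ (torsionBy A V (p : A) ⊓ ⨅ i, torsionBy A V (z i))) ≤ p ^ d)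
    (he : p ^ d < 2 ^ e)
    (hynil : ∀ k, ∃ N : ℕ, ∀ x ∈ Y, y k ^ N • x = 0)
    (hgen : ∀ i, ∃ (t : A) (w : κ → A), ∀ x ∈ G,
      z i • x = ((p : A) * t) • x + ∑ k, w k • y k • x)
    (hbig : p ^ (d * B * (e * ((r + 1) * a + 1)) ^ Fintype.card κ) < Nat.card G)
    (hB' : B' ≤ B + 1) :
    ∃ v ∈ G, (∀ k, y k • v = 0) ∧ addOrderOf v = p ^ B' := by
  have hcG : Nat.card ↥(G.comap Y.subtype) = Nat.card G := by
    rw [card_comap_subtype, inf_eq_right.2 hGY]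
  obtain ⟨v, hv, hvy, hvo⟩ := final2K (X := ↥Y) hp z y
    (fun x => Subtype.ext (hpa x.1 x.2)) (fun i x => Subtype.ext (hza i x.1 x.2))
    (by rw [card_soc_subtype]; exact hcogen) he (fun k => by
      obtain ⟨N, hN⟩ := hynil k
      exact ⟨N, fun x => Subtype.ext (hN x.1 x.2)⟩) (G.comap Y.subtype) (fun i => by
      obtain ⟨t, w, h⟩ := hgen i
      refine ⟨t, w, fun x hx => Subtype.ext ?_⟩
      have := h x.1 hx
      simpa using this) (by rw [hcG]; exact hbig) hB'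
  refine ⟨v.1, hv, fun k => by simpa using congrArg Subtype.val (hvy k), ?_⟩
  rw [← hvo]
  exact (addOrderOf_injective Y.subtype.toAddMonoidHom Y.injective_subtype v)

/-- **[BIG₀]**, submodule form. -/
theorem big0S [Finite V] {p a r D m : ℕ} [Fact p.Prime] (ha : 1 ≤ a) (z : Fin r → A)
    (Y : Submodule A V)
    (hpa : ∀ x ∈ Y, (p : A) ^ a • x = 0) (hza : ∀ (i : Fin r), ∀ x ∈ Y, z i ^ a • x = 0)
    (hcogen : Nat.card ↥(Y ⊓ (torsionBy A V (p : A) ⊓ ⨅ i, torsionBy A V (z i))) ≤ p ^ D)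
    (hsize : p ^ (D * a ^ (r + 1)) ≤ Nat.card Y)
    (β : A) (x₀ : V) (hx₀ : x₀ ∈ Y) (hp0 : (p : A) • x₀ = 0) (hz0 : ∀ i, z i • x₀ = 0)
    (hβ : β • x₀ ≠ 0) (hm : (r + 1) * m ≤ a) :
    p ^ (m ^ (r + 1)) ≤ Nat.card ↥(Y.map (LinearMap.lsmul A V β)) := by
  obtain ⟨e', H'⟩ := exists_isBoxBasis_sub p ha z Y hpa hza hcogen hsize
  rw [← card_range_lsmul]
  refine big0 (Fact.out : p.Prime) H' β ⟨x₀, hx₀⟩ (Subtype.ext hp0) (fun i => Subtype.ext (hz0 i))
    (fun h => hβ (congrArg Subtype.val h)) hm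

end Fermat.Agent.ML.Raise
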