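/-
ML / RAISE / Hemb : ONE RING AT THE TOP.  Transport of the action of the trace ring `R` of `X ≤ J₀(L)[m]` along equivariant maps.

`H : Rho.IsRhoK L m X rE πE ρ Φ`.  `Pm` any `G_ℚ`-module (e.g. `J₀(N)`), `P ≤ Pm` a `G_ℚ`-stable subgroup,
`u₁ u₂ : Pm →+ J₀(L)` equivariant with `u_i P ≤ X`.

* `trace_smul_coe` : `tr ρ(g)` acts on `X` as `g + χ(g) g⁻¹`.
* `exists_transport` : for every `s : R` and `v ∈ P` there is `w ∈ P` with `s • u₁ v = u₁ w` and `s • u₂ v = u₂ w`.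
* `smul_eq_zero_iff` : (**hemb**) if `u₁, u₂` are injective on `P` then `u₁ v` and `u₂ v` have the same annihilator in `R`.
* `imgSub` : `u P` as a `Submodule R X`.
-/
import Fermat.Agent.ML.Rho.Bridge

set_option autoImplicit false
set_option linter.unusedSectionVars false

noncomputable section

open ModularCurve

namespace Fermat.Agent.ML.Raise

open Fermat.Agent.GAL Fermat.Agent.GAL.PC Fermat.Agent.RIB Fermat.Agent.RIB.Rho Fermat.Agent.ML.Rho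

local notation "Qbar" => AlgebraicClosure ℚ
local notation "GQ" => (AlgebraicClosure ℚ ≃ₐ[ℚ] AlgebraicClosure ℚ)
local notation "M₂" => Matrix (Fin 2) (Fin 2)

variable {L m : ℕ} [NeZero L] [NeZero m] {X : AddSubgroup (JZero L)} {rE : GQ →* M₂ (ZMod m)}
  {R : Type} [CommRing R] [Algebra (ZMod m) R] [Module R ↥X] {πE : R →ₐ[ZMod m] ZMod m}
  {ρ : GQ →* M₂ R} {Φ : M₂ R →ₐ[R] Module.End R ↥X}

/-- Cayley–Hamilton on `X`. -/
theorem trace_smul_coe (H : Rho.IsRhoK L m X rE πE ρ Φ) (g : GQ) (x : ↥X) :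
    (((ρ g).trace • x : ↥X) : JZero L)
      = g • (x : JZero L) + (chiM m g).val • g⁻¹ • (x : JZero L) := by
  have h1 : (ρ g).trace • x = Φ ((ρ g).trace • (1 : M₂ R)) x := by
    rw [map_smul, map_one, LinearMap.smul_apply, Module.End.one_apply]
  have h2 : (ρ g).adjugate = (ρ g).det • ρ g⁻¹ := RhoAct.adjugate_eq g
  rw [h1, ← add_adjugate_two, h2, map_add, map_smul, LinearMap.add_apply, LinearMap.smul_apply,
    H.det, AddSubgroup.coe_add, H.act, H.alg, H.act]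

section Transport

variable {Pm : Type*} [AddCommGroup Pm] [DistribMulAction GQ Pm] (P : AddSubgroup Pm)
  (hP : ∀ (g : GQ), ∀ v ∈ P, g • v ∈ P)
  (u₁ u₂ : Pm →+ JZero L) (hu₁ : ∀ (g : GQ) v, u₁ (g • v) = g • u₁ v)
  (hu₂ : ∀ (g : GQ) v, u₂ (g • v) = g • u₂ v)

include hP hu₁ hu₂ in
/-- **transport** of the action of `R`. -/
theorem exists_transport (H : Rho.IsRhoK L m X rE πE ρ Φ) (s : R) :
    ∀ v ∈ P, ∀ x₁ x₂ : ↥X, (x₁ : JZero L) = u₁ v → (x₂ : JZero L) = u₂ v →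
      ∃ w ∈ P, ((s • x₁ : ↥X) : JZero L) = u₁ w ∧ ((s • x₂ : ↥X) : JZero L) = u₂ w := by
  have hs : s ∈ Algebra.adjoin (ZMod m) (Set.range fun g : GQ => (ρ g).trace) := by
    rw [H.tr]; trivial
  induction hs using Algebra.adjoin_induction with
  | mem s hs =>
    obtain ⟨g, rfl⟩ := hs
    intro v hv x₁ x₂ h₁ h₂
    refine ⟨g • v + (chiM m g).val • g⁻¹ • v,
      P.add_mem (hP g v hv) (P.nsmul_mem (hP g⁻¹ v hv) _), ?_, ?_⟩
    · show (((ρ g).trace • x₁ : ↥X) : JZero L) = _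
      rw [trace_smul_coe H, h₁, map_add, map_nsmul, hu₁, hu₁]
    · show (((ρ g).trace • x₂ : ↥X) : JZero L) = _
      rw [trace_smul_coe H, h₂, map_add, map_nsmul, hu₂, hu₂]
  | algebraMap c =>
    intro v hv x₁ x₂ h₁ h₂
    refine ⟨c.val • v, P.nsmul_mem hv _, ?_, ?_⟩
    · rw [H.alg, h₁, map_nsmul]
    · rw [H.alg, h₂, map_nsmul]
  | add s s' _ _ ih ih' =>
    intro v hv x₁ x₂ h₁ h₂
    obtain ⟨w, hw, e₁, e₂⟩ := ih v hv x₁ x₂ h₁ h₂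
    obtain ⟨w', hw', e₁', e₂'⟩ := ih' v hv x₁ x₂ h₁ h₂
    refine ⟨w + w', P.add_mem hw hw', ?_, ?_⟩
    · rw [add_smul, AddSubgroup.coe_add, e₁, e₁', map_add]
    · rw [add_smul, AddSubgroup.coe_add, e₂, e₂', map_add]
  | mul s s' _ _ ih ih' =>
    intro v hv x₁ x₂ h₁ h₂
    obtain ⟨w', hw', e₁', e₂'⟩ := ih' v hv x₁ x₂ h₁ h₂
    obtain ⟨w, hw, e₁, e₂⟩ := ih w' hw' (s' • x₁) (s' • x₂) e₁' e₂'
    exact ⟨w, hw, by rw [mul_smul, e₁], by rw [mul_smul, e₂]⟩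

include hP hu₁ hu₂ in
/-- **(hemb)** : `u₁ v` and `u₂ v` have the same annihilator. -/
theorem smul_eq_zero_iff (H : Rho.IsRhoK L m X rE πE ρ Φ)
    (hi₁ : ∀ v ∈ P, u₁ v = 0 → v = 0) (hi₂ : ∀ v ∈ P, u₂ v = 0 → v = 0)
    {v : Pm} (hv : v ∈ P) {x₁ x₂ : ↥X} (h₁ : (x₁ : JZero L) = u₁ v) (h₂ : (x₂ : JZero L) = u₂ v)
    (s : R) : s • x₂ = 0 ↔ s • x₁ = 0 := by
  obtain ⟨w, hw, e₁, e₂⟩ := exists_transport P hP u₁ u₂ hu₁ hu₂ H s v hv x₁ x₂ h₁ h₂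
  constructor
  · intro h
    have h0 : u₂ w = 0 := by rw [← e₂, h]; rfl
    have hw0 := hi₂ w hw h0
    apply Subtype.ext
    rw [e₁, hw0, map_zero]; rfl
  · intro h
    have h0 : u₁ w = 0 := by rw [← e₁, h]; rfl
    have hw0 := hi₁ w hw h0
    apply Subtype.ext
    rw [e₂, hw0, map_zero]; rfl

include hP hu₁ in
/-- `u P ∩ X` as an `R`-submodule of `X`. -/
def imgSub (H : Rho.IsRhoK L m X rE πE ρ Φ) : Submodule R ↥X where
  carrier := {x | ∃ v ∈ P, (x : JZero L) = u₁ v}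
  zero_mem' := ⟨0, P.zero_mem, by rw [map_zero]; rfl⟩
  add_mem' := by
    rintro x y ⟨v, hv, e⟩ ⟨w, hw, e'⟩
    exact ⟨v + w, P.add_mem hv hw, by rw [AddSubgroup.coe_add, e, e', map_add]⟩
  smul_mem' := by
    rintro s x ⟨v, hv, e⟩
    obtain ⟨w, hw, e₁, -⟩ := exists_transport P hP u₁ u₁ hu₁ hu₁ H s v hv x x e e
    exact ⟨w, hw, e₁⟩

theorem mem_imgSub (H : Rho.IsRhoK L m X rE πE ρ Φ) {x : ↥X} :
    x ∈ imgSub P hP u₁ hu₁ H ↔ ∃ v ∈ P, (x : JZero L) = u₁ v := Iff.rfl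

end Transport

end Fermat.Agent.ML.Raise
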