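import Mathlib
import Fermat.Agent.ML.Raise.Big
import Fermat.Agent.ML.Count.BoxZ

/-!
# ML / RAISE / Bridge : from helper57's `[BOXFREE]` (`boxfree_basis`) to `IsBoxBasis`

`A` ANY commutative ring, `V` a finite `A`-module killed by `p^n`, `z : Fin r → A`.

* `exists_isBoxBasis` : `#V[p,z] ≤ p^D`, `p^(D n^(r+1)) ≤ #V[z_i^n]` ⟹ the box `V[z_i^n]` has an `IsBoxBasis p n z`.
-/

set_option autoImplicit false

namespace Fermat.Agent.ML.Raise

open MvPolynomial Submodule Fermat.Agent.ML

/-- the coefficients in the box of an element of the box ideal of `ℤ[z]` are divisible by `p^n`. -/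
theorem dvd_coeff_of_mem_boxIdeal {p n r : ℕ} {c : SS r}
    (hc : c ∈ boxIdeal p (X : Fin r → SS r) n) (α : Fin r →₀ ℕ) (hα : ∀ i, α i < n) :
    (p : ℤ) ^ n ∣ coeff α c := by
  classical
  -- the ideal of all polynomials with this property
  let I : Ideal (SS r) :=
    { carrier := {c | ∀ α : Fin r →₀ ℕ, (∀ i, α i < n) → (p : ℤ) ^ n ∣ coeff α c}
      add_mem' := fun {a b} ha hb α hα => by
        rw [coeff_add]; exact dvd_add (ha α hα) (hb α hα)
      zero_mem' := fun α _ => by rw [coeff_zero]; exact dvd_zero _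
      smul_mem' := fun g c hc α hα => by
        rw [smul_eq_mul, coeff_mul]
        refine Finset.dvd_sum fun x hx => Dvd.dvd.mul_left (hc x.2 fun i => ?_) _
        have h1 : x.1 + x.2 = α := Finset.HasAntidiagonal.mem_antidiagonal.1 hx
        have h2 : x.2 i ≤ α i := by rw [← h1]; simp
        exact lt_of_le_of_lt h2 (hα i) }
  have hI : boxIdeal p (X : Fin r → SS r) n ≤ I := by
    rw [boxIdeal, sup_le_iff, Ideal.span_le, Ideal.span_le]
    constructor
    · intro c hc α _
      rw [Set.mem_singleton_iff] at hc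
      rw [hc]
      have : ((p : SS r)) ^ n = C ((p : ℤ) ^ n) := by simp
      rw [this, coeff_C]
      split_ifs
      · exact dvd_refl _
      · exact dvd_zero _
    · rintro _ ⟨i, rfl⟩ α hα
      show _ ∣ coeff α ((X i : SS r) ^ n)
      rw [X_pow_eq_monomial, coeff_monomial, if_neg]
      · exact dvd_zero _
      · intro h
        have := hα i
        rw [← h] at this
        simp at this
  exact hI hc α hα

variable {A : Type*} [CommRing A] {V : Type*} [AddCommGroup V] [Module A V]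

/-- **[BOXFREE] ⟹ `IsBoxBasis`.** -/
theorem exists_isBoxBasis [Finite V] (p : ℕ) [Fact p.Prime] {r : ℕ} (z : Fin r → A) (n D : ℕ)
    (hn : 1 ≤ n) (hpa : ∀ x : V, (p : A) ^ n • x = 0)
    (hcogen : Nat.card ↥(torsionBy A V (p : A) ⊓ ⨅ i, torsionBy A V (z i)) ≤ p ^ D)
    (hbox : p ^ (D * n ^ (r + 1)) ≤ Nat.card ↥(⨅ i, torsionBy A V (z i ^ n))) :
    ∃ e : Fin D → ↥(⨅ i, torsionBy A V (z i ^ n)), IsBoxBasis p n z e := by
  classical
  obtain ⟨J, rfl⟩ : ∃ J, n = J + 1 := ⟨n - 1, by omega⟩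
  let iS : Module (SS r) V := Module.compHom V ((aeval z : SS r →ₐ[ℤ] A) : SS r →+* A)
  have hsm : ∀ (g : SS r) (x : V), g • x = aeval z g • x := fun _ _ => rfl
  have hp' : ∀ k : ℕ, aeval z ((p : SS r) ^ k) = (p : A) ^ k := by
    intro k; simp
  have hX : ∀ (i : Fin r) (k : ℕ), aeval z ((X i : SS r) ^ k) = z i ^ k := by
    intro i k; simp
  have c1 : Nat.card ↥(torsionBy (SS r) V (p : SS r) ⊓ ⨅ i, torsionBy (SS r) V (X i : SS r)) =
      Nat.card ↥(torsionBy A V (p : A) ⊓ ⨅ i, torsionBy A V (z i)) := by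
    refine Nat.card_congr (Equiv.subtypeEquivRight fun x => ?_)
    simp only [Submodule.mem_inf, Submodule.mem_iInf, mem_torsionBy_iff, hsm]
    have e1 := hp' 1
    have e2 := fun i => hX i 1
    simp only [pow_one] at e1 e2
    simp only [e1, e2]
  have c2 : Nat.card ↥(⨅ i, torsionBy (SS r) V ((X i : SS r) ^ (J + 1))) =
      Nat.card ↥(⨅ i, torsionBy A V (z i ^ (J + 1))) := by
    refine Nat.card_congr (Equiv.subtypeEquivRight fun x => ?_)
    simp only [Submodule.mem_iInf, mem_torsionBy_iff, hsm, hX]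
  obtain ⟨f, hf, -⟩ := boxfree_basis (A := SS r) (X := V) p (X : Fin r → SS r) J D
    (mvPolynomial_res p) (fun x => by rw [hsm, hp']; exact hpa x) (by rw [c1]; exact hcogen)
    (by rw [c2, Fintype.card_fin]; exact hbox)
  have hmem : ∀ x : V, x ∈ (⨅ i, torsionBy (SS r) V ((X i : SS r) ^ (J + 1))) ↔
      x ∈ ⨅ i, torsionBy A V (z i ^ (J + 1)) := by
    intro x
    simp only [Submodule.mem_iInf, mem_torsionBy_iff, hsm, hX]
  refine ⟨fun u => ⟨f u, (hmem _).1 (hf.mem u)⟩, ?_, ?_, ?_, ?_⟩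
  · intro x
    exact Subtype.ext (hpa x.1)
  · intro i x
    have := x.2
    simp only [Submodule.mem_iInf, mem_torsionBy_iff] at this
    exact Subtype.ext (this i)
  · intro x
    obtain ⟨c, hc⟩ := hf.span x.1 ((hmem _).2 x.2)
    refine ⟨c, Subtype.ext ?_⟩
    rw [← hc]
    simp [hsm]
  · intro g hg u α hα
    refine dvd_coeff_of_mem_boxIdeal (hf.ker g ?_ u) α hα
    have := congrArg Subtype.val hg
    simpa [hsm] using this

end Fermat.Agent.ML.Raise
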