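/-
ML / RAISE : `Pi_q` is onto on the socles `X[p, z_1..z_r]` : the abstract two-step filtration.

`z = f² τ⁻¹` (`f = τ - 1`), so `X[z] = X[f²]` is an extension of (a part of) `X[f]` by `X[f]`.
-/
import Mathlib

namespace Fermat.Agent.ML.Raise

variable {X' X : Type*} [AddCommGroup X'] [AddCommGroup X]

/-- **snake** : `π` commutes with `f', f`; it is onto on the `f`-kernels; `f'` maps `A'` onto the kernel part `B'`.
Then `π` maps `A'` onto `A`. -/
theorem onto_of_two_step (π : X' →+ X) (f' : X' →+ X') (f : X →+ X) (hπ : ∀ x, π (f' x) = f (π x))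
    (A' B' : AddSubgroup X') (A B : AddSubgroup X) (hB'A' : B' ≤ A')
    (hB : ∀ u ∈ A, f u = 0 → u ∈ B) (hfA : ∀ u ∈ A, f u ∈ B)
    (hπA : ∀ x ∈ A', π x ∈ A)
    (h1 : ∀ u ∈ B, ∃ x ∈ B', π x = u) (h2 : ∀ y ∈ B', ∃ x ∈ A', f' x = y) :
    ∀ u ∈ A, ∃ x ∈ A', π x = u := by
  intro u hu
  obtain ⟨b', hb', e1⟩ := h1 (f u) (hfA u hu)
  obtain ⟨a', ha', e2⟩ := h2 b' hb'
  have h3 : π a' - u ∈ B := by
    refine hB _ (A.sub_mem (hπA a' ha') hu) ?_
    rw [map_sub, ← hπ, e2, e1, sub_self]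
  obtain ⟨b'', hb'', e3⟩ := h1 _ h3
  refine ⟨a' - b'', A'.sub_mem ha' (hB'A' hb''), ?_⟩
  rw [map_sub, e3]
  abel

/-- **equality case of [SOC]** : `A'` finite, `f' A' ≤ B' = A' ∩ ker f'` and `#B'² ≤ #A'`  ⟹  `f' A' = B'`. -/
theorem onto_of_card_sq_le (f' : X' →+ X') (A' B' : AddSubgroup X') [Finite A']
    (hB' : ∀ x, x ∈ B' ↔ x ∈ A' ∧ f' x = 0) (hf : ∀ x ∈ A', f' x ∈ B')
    (hcard : Nat.card B' ^ 2 ≤ Nat.card A') :
    ∀ y ∈ B', ∃ x ∈ A', f' x = y := by
  classical
  have hBA : B' ≤ A' := fun x hx => ((hB' x).1 hx).1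
  have : Finite B' := Finite.of_injective (AddSubgroup.inclusion hBA)
    (AddSubgroup.inclusion_injective hBA)
  -- the restricted map `g : A' →+ B'`
  let g : A' →+ B' :=
    { toFun := fun x => ⟨f' x.1, hf x.1 x.2⟩
      map_zero' := by ext; simp
      map_add' := fun x y => by ext; simp }
  have hker : Nat.card g.ker = Nat.card B' := by
    refine Nat.card_congr
      { toFun := fun x => ⟨x.1.1, (hB' _).2 ⟨x.1.2, by
          have := x.2
          rw [AddMonoidHom.mem_ker] at this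
          exact congrArg Subtype.val this⟩⟩
        invFun := fun y => ⟨⟨y.1, hBA y.2⟩, by
          rw [AddMonoidHom.mem_ker]
          ext
          exact ((hB' _).1 y.2).2⟩
        left_inv := fun x => by ext; rfl
        right_inv := fun y => by ext; rfl }
  have hmul : Nat.card A' = Nat.card g.range * Nat.card g.ker := by
    have e1 := AddSubgroup.card_eq_card_quotient_mul_card_addSubgroup g.ker
    have e2 : Nat.card (A' ⧸ g.ker) = Nat.card g.range :=
      Nat.card_congr (QuotientAddGroup.quotientKerEquivRange g).toEquiv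
    rw [e1, e2]
  have hBpos : 0 < Nat.card B' := Nat.card_pos
  have hle : Nat.card B' ≤ Nat.card g.range := by
    rw [hmul, hker, sq] at hcard
    exact Nat.le_of_mul_le_mul_right hcard hBpos
  have htop : g.range = ⊤ := by
    apply AddSubgroup.eq_top_of_le_card
    exact hle
  intro y hy
  have : (⟨y, hy⟩ : B') ∈ g.range := by rw [htop]; trivial
  obtain ⟨x, hx⟩ := this
  exact ⟨x.1, x.2, congrArg Subtype.val hx⟩

end Fermat.Agent.ML.Raise
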